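import Mathlib

/-!
# S56, leaf LOC-TW, part (ii): tame ramification at a prime of a Dedekind domain

`B` a Dedekind domain with an action of a group `Γ` by ring automorphisms, `𝔓` a nonzero prime.
* `wild 𝔓 Γ`: the elements of the inertia group acting trivially on `𝔓 / 𝔓 ^ 2`;
* an element of `wild` of order prime to the residue characteristic acts trivially;
* the inertia group modulo `wild` embeds into `(B ⧸ 𝔓)ˣ` (tame character), hence finite
  subgroups are cyclic modulo `wild`;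
* conjugation by an element acting as `x ↦ x ^ m` on the residue field is the `m`-th power
  modulo `wild`.
-/

set_option autoImplicit false

namespace Fermat.Agent.S56.H9

section basic

variable {B : Type*} [CommRing B] {Γ : Type*} [Group Γ] [MulSemiringAction Γ B] (𝔓 : Ideal B)

lemma smul_mem_pow_of_forall {σ : Γ} (h : ∀ x ∈ 𝔓, σ • x ∈ 𝔓) :
    ∀ (j : ℕ), ∀ x ∈ 𝔓 ^ j, σ • x ∈ 𝔓 ^ j := by
  intro j
  induction j with
  | zero =>
    intro x _
    simp
  | succ j ih =>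
    intro x hx
    rw [pow_succ] at hx ⊢
    refine Submodule.mul_induction_on hx ?_ ?_
    · intro b hb a ha
      rw [smul_mul']
      exact Ideal.mul_mem_mul (ih b hb) (h a ha)
    · intro a b ha hb
      rw [smul_add]
      exact Ideal.add_mem _ ha hb

lemma smul_mem_of_mem_inertia {σ : Γ} (hσ : σ ∈ 𝔓.inertia Γ) : ∀ x ∈ 𝔓, σ • x ∈ 𝔓 := by
  intro x hx
  have := Ideal.add_mem _ (hσ x) hx
  simpa using this

/-- The wild inertia group: trivial action on `B ⧸ 𝔓` and on `𝔓 ⧸ 𝔓 ^ 2`. -/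
def wild (Γ : Type*) [Group Γ] [MulSemiringAction Γ B] : Subgroup Γ where
  carrier := {σ | σ ∈ 𝔓.inertia Γ ∧ ∀ x ∈ 𝔓, σ • x - x ∈ 𝔓 ^ 2}
  mul_mem' := by
    rintro a b ⟨ha, ha2⟩ ⟨hb, hb2⟩
    refine ⟨mul_mem ha hb, fun x hx => ?_⟩
    have e : (a * b) • x - x = a • (b • x - x) + (a • x - x) := by
      rw [mul_smul, smul_sub]; ring
    rw [e]
    exact Ideal.add_mem _
      (smul_mem_pow_of_forall 𝔓 (smul_mem_of_mem_inertia 𝔓 ha) 2 _ (hb2 x hx)) (ha2 x hx)
  one_mem' := ⟨one_mem _, fun x _ => by simp⟩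
  inv_mem' := by
    rintro a ⟨ha, ha2⟩
    have hainv : a⁻¹ ∈ 𝔓.inertia Γ := inv_mem ha
    refine ⟨hainv, fun x hx => ?_⟩
    have hx' : a⁻¹ • x ∈ 𝔓 := smul_mem_of_mem_inertia 𝔓 hainv x hx
    have := ha2 _ hx'
    rw [smul_inv_smul] at this
    have e : a⁻¹ • x - x = -(x - a⁻¹ • x) := by ring
    rw [e]
    exact Ideal.neg_mem_iff _ |>.2 this

lemma mem_wild {σ : Γ} :
    σ ∈ wild 𝔓 Γ ↔ σ ∈ 𝔓.inertia Γ ∧ ∀ x ∈ 𝔓, σ • x - x ∈ 𝔓 ^ 2 := Iff.rfl

lemma wild_le_inertia : wild 𝔓 Γ ≤ 𝔓.inertia Γ := fun _ h => h.1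

/-- An element of the wild inertia group acts trivially on `𝔓 ^ j / 𝔓 ^ (j + 1)`. -/
lemma sub_mem_pow_succ_of_mem_wild {σ : Γ} (hσ : σ ∈ wild 𝔓 Γ) :
    ∀ (j : ℕ), ∀ y ∈ 𝔓 ^ j, σ • y - y ∈ 𝔓 ^ (j + 1) := by
  intro j
  induction j with
  | zero =>
    intro y _
    rw [zero_add, pow_one]
    exact hσ.1 y
  | succ j ih =>
    intro y hy
    rw [pow_succ] at hy
    refine Submodule.mul_induction_on hy ?_ ?_
    · intro b hb a ha
      have e : σ • (b * a) - b * a = (σ • b - b) * (σ • a) + b * (σ • a - a) := by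
        rw [smul_mul']; ring
      rw [e]
      refine Ideal.add_mem _ ?_ ?_
      · rw [pow_succ (n := j + 1)]
        exact Ideal.mul_mem_mul (ih b hb) (smul_mem_of_mem_inertia 𝔓 hσ.1 a ha)
      · have : 𝔓 ^ (j + 1 + 1) = 𝔓 ^ j * 𝔓 ^ 2 := by rw [← pow_add]
        rw [this]
        exact Ideal.mul_mem_mul hb (hσ.2 a ha)
    · intro a b ha hb
      have e : σ • (a + b) - (a + b) = (σ • a - a) + (σ • b - b) := by
        rw [smul_add]; ring
      rw [e]
      exact Ideal.add_mem _ ha hb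

lemma pow_smul_sub_mem_of_mem_wild {σ : Γ} (hσ : σ ∈ wild 𝔓 Γ) (j : ℕ) {y : B}
    (hy : y ∈ 𝔓 ^ j) (i : ℕ) : (σ ^ i) • y - y ∈ 𝔓 ^ (j + 1) :=
  sub_mem_pow_succ_of_mem_wild 𝔓 (pow_mem hσ i) j y hy

end basic

section wildOrder

variable {B : Type*} [CommRing B] [IsDomain B] [IsNoetherianRing B] {Γ : Type*} [Group Γ]
  [MulSemiringAction Γ B] (𝔓 : Ideal B)

/-- A wild element of order prime to the residue characteristic acts trivially. -/
theorem smul_eq_of_mem_wild_of_coprime (h𝔓 : 𝔓 ≠ ⊤) {q : ℕ} (hq : (q : B) ∈ 𝔓) {σ : Γ}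
    (hσ : σ ∈ wild 𝔓 Γ) {n : ℕ} (hn : n.Coprime q) (hσn : ∀ x : B, (σ ^ n) • x = x) (x : B) :
    σ • x = x := by
  have key : ∀ j : ℕ, ∀ x : B, σ • x - x ∈ 𝔓 ^ (j + 1) := by
    intro j
    induction j with
    | zero =>
      intro x
      rw [zero_add, pow_one]
      exact hσ.1 x
    | succ j ih =>
      intro x
      set y := σ • x - x with hy
      have hyj : y ∈ 𝔓 ^ (j + 1) := ih x
      -- `∑_{i<n} σ^i y = σ^n x - x = 0`
      have hsum : ∑ i ∈ Finset.range n, (σ ^ i) • y = 0 := by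
        have : ∀ N : ℕ, ∑ i ∈ Finset.range N, (σ ^ i) • y = (σ ^ N) • x - x := by
          intro N
          induction N with
          | zero => simp
          | succ N ihN =>
            rw [Finset.sum_range_succ, ihN, hy, smul_sub, ← mul_smul, ← pow_succ]
            ring
        rw [this, hσn, sub_self]
      have hny : (n : B) * y ∈ 𝔓 ^ (j + 1 + 1) := by
        have e : (n : B) * y = -(∑ i ∈ Finset.range n, ((σ ^ i) • y - y)) := by
          rw [Finset.sum_sub_distrib, hsum, Finset.sum_const, Finset.card_range, nsmul_eq_mul]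
          ring
        rw [e]
        refine (Ideal.neg_mem_iff _).2 (Ideal.sum_mem _ fun i _ => ?_)
        exact pow_smul_sub_mem_of_mem_wild 𝔓 hσ (j + 1) hyj i
      -- `n` is invertible modulo `𝔓 ^ (j + 2)`
      have hcop : Nat.Coprime n (q ^ (j + 1 + 1)) := Nat.Coprime.pow_right _ hn
      have hbez : ((n : ℤ).gcd ((q ^ (j + 1 + 1) : ℕ) : ℤ)) = 1 := by
        rw [Int.gcd_natCast_natCast]; exact hcop
      have hb := Int.gcd_eq_gcd_ab (n : ℤ) ((q ^ (j + 1 + 1) : ℕ) : ℤ)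
      rw [hbez] at hb
      set a := Int.gcdA (n : ℤ) ((q ^ (j + 1 + 1) : ℕ) : ℤ)
      set b := Int.gcdB (n : ℤ) ((q ^ (j + 1 + 1) : ℕ) : ℤ)
      have hb' : (1 : B) = (n : B) * (a : B) + (q : B) ^ (j + 1 + 1) * (b : B) := by
        have := congrArg (fun z : ℤ => (z : B)) hb
        simpa using this
      have e : y = (a : B) * ((n : B) * y) + ((b : B) * y) * (q : B) ^ (j + 1 + 1) := by
        linear_combination y * hb'
      rw [e]
      refine Ideal.add_mem _ (Ideal.mul_mem_left _ _ hny) (Ideal.mul_mem_left _ _ ?_)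
      exact Ideal.pow_mem_pow hq _
  have h0 : σ • x - x ∈ (⨅ i : ℕ, 𝔓 ^ i : Ideal B) := by
    rw [Ideal.mem_iInf]
    intro i
    cases i with
    | zero => simp
    | succ i => exact key i x
  rw [Ideal.iInf_pow_eq_bot_of_isDomain 𝔓 h𝔓, Ideal.mem_bot, sub_eq_zero] at h0
  exact h0

end wildOrder

end Fermat.Agent.S56.H9
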