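import Mathlib
import Fermat.Agent.S56.H9_Tame

/-!
# S56, leaf LOC-TW, part (ii): the tame character

`θ : I → B ⧸ 𝔓`, `σ ↦ (σ π / π mod 𝔓)`; kernel `wild`; cyclicity modulo `wild`; conjugation.
-/

set_option autoImplicit false

namespace Fermat.Agent.S56.H9

section tameRel

variable {B : Type*} [CommRing B] {Γ : Type*} [Group Γ] [MulSemiringAction Γ B] (𝔓 : Ideal B)

/-- `σ` acts on `𝔓 / 𝔓 ^ 2` as multiplication by `d`. -/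
def TameRel (σ : Γ) (d : B) : Prop := ∀ x ∈ 𝔓, σ • x - d * x ∈ 𝔓 ^ 2

variable {𝔓}

lemma tameRel_one : TameRel 𝔓 (1 : Γ) 1 := by
  intro x _
  simp

lemma tameRel_one_right_iff {σ : Γ} : TameRel 𝔓 σ 1 ↔ ∀ x ∈ 𝔓, σ • x - x ∈ 𝔓 ^ 2 := by
  unfold TameRel
  simp

lemma TameRel.congr {σ : Γ} {d d' : B} (h : TameRel 𝔓 σ d) (hd : d - d' ∈ 𝔓) :
    TameRel 𝔓 σ d' := by
  intro x hx
  have e : σ • x - d' * x = (σ • x - d * x) + (d - d') * x := by ring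
  rw [e]
  refine Ideal.add_mem _ (h x hx) ?_
  rw [pow_two]
  exact Ideal.mul_mem_mul hd hx

lemma TameRel.mul {σ τ : Γ} {d d' : B} (hσ : σ ∈ 𝔓.inertia Γ) (h : TameRel 𝔓 σ d)
    (h' : TameRel 𝔓 τ d') : TameRel 𝔓 (σ * τ) (d * d') := by
  intro x hx
  have e : (σ * τ) • x - d * d' * x
      = σ • (τ • x - d' * x) + ((σ • d' - d') * (σ • x) + d' * (σ • x - d * x)) := by
    rw [mul_smul, smul_sub, smul_mul']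
    ring
  rw [e]
  have hσ𝔓 := smul_mem_of_mem_inertia 𝔓 hσ
  refine Ideal.add_mem _ (smul_mem_pow_of_forall 𝔓 hσ𝔓 2 _ (h' x hx)) (Ideal.add_mem _ ?_ ?_)
  · rw [pow_two]
    exact Ideal.mul_mem_mul (hσ d') (hσ𝔓 x hx)
  · exact Ideal.mul_mem_left _ _ (h x hx)

lemma TameRel.pow {σ : Γ} {d : B} (hσ : σ ∈ 𝔓.inertia Γ) (h : TameRel 𝔓 σ d) (m : ℕ) :
    TameRel 𝔓 (σ ^ m) (d ^ m) := by
  induction m with
  | zero => simpa using tameRel_one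
  | succ m ih =>
    rw [pow_succ', pow_succ']
    exact TameRel.mul hσ h ih

/-- Conjugation: if `τ` acts by `d` then `σ τ σ⁻¹` acts by `σ d`. -/
lemma TameRel.conj {σ τ : Γ} {d : B} (hσ : ∀ x, σ • x ∈ 𝔓 ↔ x ∈ 𝔓) (h : TameRel 𝔓 τ d) :
    TameRel 𝔓 (σ * τ * σ⁻¹) (σ • d) := by
  intro x hx
  have hx' : σ⁻¹ • x ∈ 𝔓 := by
    rw [← hσ, smul_inv_smul]; exact hx
  have e : (σ * τ * σ⁻¹) • x - σ • d * x = σ • (τ • (σ⁻¹ • x) - d * (σ⁻¹ • x)) := by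
    rw [smul_sub, smul_mul', smul_inv_smul, mul_smul, mul_smul]
  rw [e]
  exact smul_mem_pow_of_forall 𝔓 (fun y hy => (hσ y).2 hy) 2 _ (h _ hx')

lemma conj_mem_inertia {σ τ : Γ} (hσ : ∀ x, σ • x ∈ 𝔓 ↔ x ∈ 𝔓) (hτ : τ ∈ 𝔓.inertia Γ) :
    σ * τ * σ⁻¹ ∈ 𝔓.inertia Γ := by
  intro x
  have e : (σ * τ * σ⁻¹) • x - x = σ • (τ • (σ⁻¹ • x) - σ⁻¹ • x) := by
    rw [smul_sub, smul_inv_smul, mul_smul, mul_smul]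
  rw [e]
  exact (hσ _).2 (hτ _)

end tameRel

section dedekind

variable {B : Type*} [CommRing B] [IsDedekindDomain B] {Γ : Type*} [Group Γ]
  [MulSemiringAction Γ B] {𝔓 : Ideal B} [h𝔓p : 𝔓.IsPrime]

lemma exists_uniformizer (h𝔓 : 𝔓 ≠ ⊥) : ∃ π ∈ 𝔓, π ∉ 𝔓 ^ 2 := by
  have hlt : 𝔓 ^ (1 + 1) < 𝔓 ^ 1 := Ideal.pow_succ_lt_pow h𝔓 1
  rw [pow_one] at hlt
  obtain ⟨π, hπ, hπ2⟩ := SetLike.exists_of_lt hlt
  exact ⟨π, hπ, hπ2⟩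

lemma TameRel.unique (h𝔓 : 𝔓 ≠ ⊥) {σ : Γ} {d d' : B} (h : TameRel 𝔓 σ d)
    (h' : TameRel 𝔓 σ d') : d - d' ∈ 𝔓 := by
  obtain ⟨π, hπ, hπ2⟩ := exists_uniformizer h𝔓
  have e : π * (d - d') = (σ • π - d' * π) - (σ • π - d * π) := by ring
  have hmem : π * (d - d') ∈ 𝔓 ^ (1 + 1) := by
    rw [e]
    exact Ideal.sub_mem _ (h' π hπ) (h π hπ)
  exact Ideal.mem_prime_of_mul_mem_pow h𝔓 hπ2 hmem

lemma exists_tameRel (h𝔓 : 𝔓 ≠ ⊥) {σ : Γ} (hσ : σ ∈ 𝔓.inertia Γ) : ∃ d : B, TameRel 𝔓 σ d := by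
  obtain ⟨π, hπ, hπ2⟩ := exists_uniformizer h𝔓
  have hσ𝔓 := smul_mem_of_mem_inertia 𝔓 hσ
  have hπ1 : π ∈ 𝔓 ^ 1 := by rwa [pow_one]
  obtain ⟨d, e, he, hde⟩ := Ideal.exists_mul_add_mem_pow_succ h𝔓 π (σ • π) hπ1 hπ2
    (by rw [pow_one]; exact hσ𝔓 π hπ)
  refine ⟨d, fun x hx => ?_⟩
  obtain ⟨u, e', he', hue⟩ := Ideal.exists_mul_add_mem_pow_succ h𝔓 π x hπ1 hπ2
    (by rwa [pow_one])
  have key : σ • x - d * x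
      = (π * d) * (σ • u - u) + e * (σ • u) + (σ • e' - d * e') := by
    rw [← hue, smul_add, smul_mul', ← hde]
    ring
  rw [key]
  refine Ideal.add_mem _ (Ideal.add_mem _ ?_ ?_) (Ideal.sub_mem _ ?_ ?_)
  · rw [pow_two]
    exact Ideal.mul_mem_mul (Ideal.mul_mem_right _ _ hπ) (hσ u)
  · exact Ideal.mul_mem_right _ _ he
  · exact smul_mem_pow_of_forall 𝔓 hσ𝔓 2 _ he'
  · exact Ideal.mul_mem_left _ _ he'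

/-- The tame character. -/
noncomputable def tameChar (h𝔓 : 𝔓 ≠ ⊥) : 𝔓.inertia Γ →* (B ⧸ 𝔓) where
  toFun σ := Ideal.Quotient.mk 𝔓 (exists_tameRel h𝔓 σ.2).choose
  map_one' := by
    rw [← map_one (Ideal.Quotient.mk 𝔓), Ideal.Quotient.eq]
    exact TameRel.unique h𝔓 (exists_tameRel h𝔓 (1 : 𝔓.inertia Γ).2).choose_spec tameRel_one
  map_mul' σ τ := by
    rw [← map_mul (Ideal.Quotient.mk 𝔓), Ideal.Quotient.eq]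
    exact TameRel.unique h𝔓 (exists_tameRel h𝔓 (σ * τ).2).choose_spec
      (TameRel.mul σ.2 (exists_tameRel h𝔓 σ.2).choose_spec
        (exists_tameRel h𝔓 τ.2).choose_spec)

lemma tameChar_eq (h𝔓 : 𝔓 ≠ ⊥) (σ : 𝔓.inertia Γ) {d : B} (h : TameRel 𝔓 (σ : Γ) d) :
    tameChar h𝔓 σ = Ideal.Quotient.mk 𝔓 d := by
  show Ideal.Quotient.mk 𝔓 _ = _
  rw [Ideal.Quotient.eq]
  exact TameRel.unique h𝔓 (exists_tameRel h𝔓 σ.2).choose_spec h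

lemma tameRel_of_tameChar_eq (h𝔓 : 𝔓 ≠ ⊥) (σ : 𝔓.inertia Γ) {d : B}
    (h : tameChar h𝔓 σ = Ideal.Quotient.mk 𝔓 d) : TameRel 𝔓 (σ : Γ) d := by
  have h1 : Ideal.Quotient.mk 𝔓 (exists_tameRel h𝔓 σ.2).choose = Ideal.Quotient.mk 𝔓 d := h
  rw [Ideal.Quotient.eq] at h1
  exact TameRel.congr (exists_tameRel h𝔓 σ.2).choose_spec h1

lemma tameChar_eq_one_iff (h𝔓 : 𝔓 ≠ ⊥) (σ : 𝔓.inertia Γ) :
    tameChar h𝔓 σ = 1 ↔ (σ : Γ) ∈ wild 𝔓 Γ := by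
  constructor
  · intro h
    have h1 : tameChar h𝔓 σ = Ideal.Quotient.mk 𝔓 1 := by rw [h, map_one]
    exact ⟨σ.2, tameRel_one_right_iff.1 (tameRel_of_tameChar_eq h𝔓 σ h1)⟩
  · intro h
    rw [tameChar_eq h𝔓 σ (tameRel_one_right_iff.2 h.2), map_one]

/-- Two inertia elements with the same tame character agree modulo `wild`. -/
lemma inv_mul_mem_wild (h𝔓 : 𝔓 ≠ ⊥) {α β : Γ} (hα : α ∈ 𝔓.inertia Γ) (hβ : β ∈ 𝔓.inertia Γ)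
    {c : B} (h1 : TameRel 𝔓 α c) (h2 : TameRel 𝔓 β c) : β⁻¹ * α ∈ wild 𝔓 Γ := by
  have e1 := tameChar_eq h𝔓 ⟨α, hα⟩ h1
  have e2 := tameChar_eq h𝔓 ⟨β, hβ⟩ h2
  have hmul : tameChar h𝔓 (⟨β, hβ⟩ * (⟨β, hβ⟩⁻¹ * ⟨α, hα⟩)) = tameChar h𝔓 ⟨α, hα⟩ := by
    rw [mul_inv_cancel_left]
  rw [map_mul, e1, e2] at hmul
  -- cancel `mk c`, which is nonzero
  have hc : Ideal.Quotient.mk 𝔓 c ≠ 0 := by
    intro h0
    rw [Ideal.Quotient.eq_zero_iff_mem] at h0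
    obtain ⟨π, hπ, hπ2⟩ := exists_uniformizer h𝔓
    have hαinv : α⁻¹ ∈ 𝔓.inertia Γ := inv_mem hα
    -- `α π ∈ 𝔓 ^ 2`, hence `π ∈ 𝔓 ^ 2`
    have h3 : α • π ∈ 𝔓 ^ 2 := by
      have := Ideal.add_mem _ (h1 π hπ) (show c * π ∈ 𝔓 ^ 2 by
        rw [pow_two]; exact Ideal.mul_mem_mul h0 hπ)
      simpa using this
    have h4 := smul_mem_pow_of_forall 𝔓 (smul_mem_of_mem_inertia 𝔓 hαinv) 2 _ h3
    rw [inv_smul_smul] at h4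
    exact hπ2 h4
  have hone : tameChar h𝔓 (⟨β, hβ⟩⁻¹ * ⟨α, hα⟩) = 1 := by
    have heq : Ideal.Quotient.mk 𝔓 c * tameChar h𝔓 (⟨β, hβ⟩⁻¹ * ⟨α, hα⟩)
        = Ideal.Quotient.mk 𝔓 c * 1 := by rw [hmul, mul_one]
    have hdom : IsDomain (B ⧸ 𝔓) := Ideal.Quotient.isDomain 𝔓
    exact mul_left_cancel₀ hc heq
  exact (tameChar_eq_one_iff h𝔓 _).1 hone

/-- Conjugation by an element acting as `x ↦ x ^ m` on the residue field. -/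
theorem conj_mem_wild (h𝔓 : 𝔓 ≠ ⊥) {σ τ : Γ} (hσ : ∀ x, σ • x ∈ 𝔓 ↔ x ∈ 𝔓) {m : ℕ}
    (hm : ∀ x, σ • x - x ^ m ∈ 𝔓) (hτ : τ ∈ 𝔓.inertia Γ) :
    (τ ^ m)⁻¹ * (σ * τ * σ⁻¹) ∈ wild 𝔓 Γ := by
  obtain ⟨d, hd⟩ := exists_tameRel h𝔓 hτ
  have h1 : TameRel 𝔓 (σ * τ * σ⁻¹) (d ^ m) := (TameRel.conj hσ hd).congr (hm d)
  have h2 : TameRel 𝔓 (τ ^ m) (d ^ m) := TameRel.pow hτ hd m
  exact inv_mul_mem_wild h𝔓 (conj_mem_inertia hσ hτ) (pow_mem hτ m) h1 h2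

/-- A finite subgroup of the inertia group is cyclic modulo `wild`. -/
theorem exists_generator_mod_wild (h𝔓 : 𝔓 ≠ ⊥) (J : Subgroup Γ) [Finite J]
    (hJ : J ≤ 𝔓.inertia Γ) :
    ∃ τ₀ ∈ J, ∀ τ ∈ J, ∃ n : ℕ, (τ₀ ^ n)⁻¹ * τ ∈ wild 𝔓 Γ := by
  have hdom : IsDomain (B ⧸ 𝔓) := Ideal.Quotient.isDomain 𝔓
  let f : J →* (B ⧸ 𝔓)ˣ := ((tameChar h𝔓).comp (Subgroup.inclusion hJ)).toHomUnits
  have hcyc : IsCyclic (J ⧸ f.ker) :=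
    isCyclic_of_injective_ringHom ((Units.coeHom (B ⧸ 𝔓)).comp (QuotientGroup.kerLift f))
      (Units.val_injective.comp (QuotientGroup.kerLift_injective f))
  obtain ⟨g₀, hg₀⟩ := hcyc.exists_generator
  obtain ⟨τ₀, rfl⟩ := QuotientGroup.mk_surjective g₀
  refine ⟨τ₀, τ₀.2, fun τ hτ => ?_⟩
  have hmem := hg₀ (QuotientGroup.mk ⟨τ, hτ⟩)
  obtain ⟨n, hn⟩ := (mem_powers_iff_mem_zpowers).2 hmem
  refine ⟨n, ?_⟩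
  have hn' : (QuotientGroup.mk (τ₀ ^ n) : J ⧸ f.ker) = QuotientGroup.mk ⟨τ, hτ⟩ := hn
  rw [QuotientGroup.eq] at hn'
  have h1 : f ((τ₀ ^ n)⁻¹ * ⟨τ, hτ⟩) = 1 := hn'
  have h2 : tameChar h𝔓 (Subgroup.inclusion hJ ((τ₀ ^ n)⁻¹ * ⟨τ, hτ⟩)) = 1 := by
    have h3 := congrArg (fun u : (B ⧸ 𝔓)ˣ => (u : B ⧸ 𝔓)) h1
    exact h3
  exact (tameChar_eq_one_iff h𝔓 _).1 h2

end dedekind

end Fermat.Agent.S56.H9
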