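import Mathlib
import Fermat.Prelude.Def_GaloisRep_DeformationRingData
import Fermat.Prelude.Def_GaloisRep_LocalConditions
import Fermat.Prelude.Def_GaloisRep_StrictOrdinary
import Fermat.Prelude.Def_GaloisRep_Flat
import Fermat.Prelude.Def_GaloisRep_Residual
import Fermat.Prelude.Def_GroupCohomology_ContinuousUnramified

set_option autoImplicit false

/-!
# Cluster T / S56 (Taylor-Wiles primes): basic definitions and interfaces

Coordinator: helper47.  Plan: `NOTES/plan/T.md`.

* `GQ`            : the absolute Galois group of `ℚ`.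
* `adRepr`, `ad0` : the adjoint representation of a residual representation and its trace-zero part,
                    as a `Rep k GQ`.
* `cycloK`        : the mod `p` cyclotomic character with values in `kˣ` (`k` of characteristic `p`).
* `IsTWFamily`    : the Taylor-Wiles conditions of the frozen statement.
* `condSO`, `condFl` : the two deformation conditions of the frozen statement.
-/

noncomputable section

namespace Fermat.Agent.S56

open Polynomial IsLocalRing CategoryTheory groupCohomology ExtCitation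

/-- The absolute Galois group of `ℚ`. -/
abbrev GQ : Type := AlgebraicClosure ℚ ≃ₐ[ℚ] AlgebraicClosure ℚ

section Adjoint

variable {k : Type} [Field k] (ρbar : ResidualGaloisRep k)

/-- The residual representation as a `Representation`. -/
def reprOf : Representation k GQ ρbar.V := ρbar.ρ

/-- The adjoint representation on `End_k(V)`: `g • f = ρ(g) ∘ f ∘ ρ(g)⁻¹`. -/
def adRepr : Representation k GQ (Module.End k ρbar.V) :=
  Representation.linHom (reprOf ρbar) (reprOf ρbar)

theorem adRepr_apply (g : GQ) (f : Module.End k ρbar.V) :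
    adRepr ρbar g f = ρbar.ρ g ∘ₗ f ∘ₗ ρbar.ρ g⁻¹ := rfl

/-- The trace-zero endomorphisms. -/
noncomputable def ad0Sub : Submodule k (Module.End k ρbar.V) :=
  LinearMap.ker (LinearMap.trace k ρbar.V)

theorem ad0Sub_le_comap (g : GQ) : ad0Sub ρbar ≤ (ad0Sub ρbar).comap (adRepr ρbar g) := by
  intro f hf
  simp only [ad0Sub, LinearMap.mem_ker, Submodule.mem_comap] at hf ⊢
  rw [adRepr_apply, LinearMap.trace_comp_comm']
  have h1 : (f ∘ₗ ρbar.ρ g⁻¹) ∘ₗ ρbar.ρ g = f := by
    rw [LinearMap.comp_assoc]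
    have : ρbar.ρ g⁻¹ ∘ₗ ρbar.ρ g = LinearMap.id := by
      rw [← Module.End.mul_eq_comp, ← map_mul, inv_mul_cancel, map_one]; rfl
    rw [this, LinearMap.comp_id]
  rw [h1]; exact hf

/-- The adjoint representation on trace-zero endomorphisms. -/
noncomputable def ad0Repr : Representation k GQ (ad0Sub ρbar) :=
  (adRepr ρbar).subrepresentation (ad0Sub ρbar) (ad0Sub_le_comap ρbar)

/-- `ad⁰ ρbar` as an object of `Rep k GQ`. -/
noncomputable def ad0 : Rep k GQ := Rep.of (ad0Repr ρbar)

/-- `ad ρbar` as an object of `Rep k GQ`. -/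
noncomputable def ad : Rep k GQ := Rep.of (adRepr ρbar)

end Adjoint

/-- The mod `p` cyclotomic character with values in a field of characteristic `p`. -/
noncomputable def cycloK (p : ℕ) [Fact p.Prime] (k : Type) [Field k] [CharP k p] : GQ →* kˣ :=
  (Units.map ((ZMod.castHom (dvd_refl p) k : ZMod p →+* k) : ZMod p →* k)).comp (cycloChar p)

/-- The Taylor-Wiles conditions on a family of primes, verbatim from the frozen statement S56. -/
def IsTWFamily {k : Type} [Field k] (ρbar : ResidualGaloisRep k) (p n : ℕ) (S : Finset ℕ)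
    {r : ℕ} (qv : Fin r → ℕ) : Prop :=
  Function.Injective qv ∧
    (∀ i, (qv i).Prime ∧ qv i ∉ S ∧ p ^ (n + 1) ∣ qv i - 1) ∧
    (∀ i, ∀ P : ValuationSubring (AlgebraicClosure ℚ), P.LiesOverPrime (qv i) →
      ∀ φ : AlgebraicClosure ℚ ≃ₐ[ℚ] AlgebraicClosure ℚ, P.IsFrobeniusAt φ (qv i) →
        ∃ α β : k, α ≠ β ∧ LinearMap.charpoly (ρbar.ρ φ) = (X - C α) * (X - C β))

/-- The strict-ordinary deformation condition of S56 with auxiliary set `T`. -/
def condSO (𝒪 : Type) [CommRing 𝒪] (p : ℕ) (Smin T : Finset ℕ) :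
    ∀ ⦃A : Type⦄ [CommRing A] [IsLocalRing A] [Algebra 𝒪 A], GaloisRepAdic A → Prop :=
  fun _A _ _ _ ρ => GaloisRep.strictOrdinaryCondition 𝒪 p (Smin ∪ T) ρ ∧
    ∀ q ∈ Smin, q.Prime → q ≠ p → ρ.IsUnipotentOnInertiaAt q

/-- The flat deformation condition of S56 with auxiliary set `T`. -/
def condFl (𝒪 : Type) [CommRing 𝒪] (p : ℕ) (Smin T : Finset ℕ) :
    ∀ ⦃A : Type⦄ [CommRing A] [IsLocalRing A] [Algebra 𝒪 A], GaloisRepAdic A → Prop :=
  fun _A _ _ _ ρ => GaloisRep.flatCondition 𝒪 p (Smin ∪ T) ρ ∧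
    ∀ q ∈ Smin, q.Prime → q ≠ p → ρ.IsUnipotentOnInertiaAt q

end Fermat.Agent.S56

end
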