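import Fermat.Agent.S56.Leaves
import Fermat.Agent.S53.GenBound
import Fermat.Agent.S53.Limit
import Fermat.Agent.S53.H50_Complete
import Fermat.Agent.S53.Univ

set_option autoImplicit false
set_option linter.unusedSectionVars false
set_option linter.style.haveILetI false

/-!
# Cluster T / S56, package T-A: the tangent bound gives a surjection `𝒪⟦X₁,…,X_r⟧ ↠ R`

Main result: `Fermat.Agent.S56.H50.surj : Stmt_surj`.
-/

namespace Fermat.Agent.S56.H50

open IsLocalRing Fermat.Agent.S53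

section Eval

variable {𝒪 : Type} [CommRing 𝒪]
variable {R : Type} [CommRing R] [IsLocalRing R] [Algebra 𝒪 R]

/-- Evaluation of power series at elements of the maximal ideal of a complete local ring. -/
theorem exists_eval [IsAdicComplete (maximalIdeal R) R] (r : ℕ) (x : Fin r → R)
    (hx : ∀ i, x i ∈ maximalIdeal R) :
    ∃ γ : MvPowerSeries (Fin r) 𝒪 →ₐ[𝒪] R, ∀ i, γ (MvPowerSeries.X i) = x i := by
  have hx' : ∀ (n : ℕ) (i : Fin r), Ideal.Quotient.mk (maximalIdeal R ^ (n + 1)) (x i) ∈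
      maximalIdeal (R ⧸ maximalIdeal R ^ (n + 1)) := by
    intro n i
    rw [Fermat.Agent.S53.H50.maximalIdeal_quot]
    exact Ideal.mem_map_of_mem _ (hx i)
  have hnil : ∀ n : ℕ, ∀ p ∈ MvPolynomial.idealOfVars (Fin r) 𝒪 ^ (n + 1),
      MvPolynomial.aeval (R := 𝒪)
        (fun i => Ideal.Quotient.mk (maximalIdeal R ^ (n + 1)) (x i)) p = 0 :=
    fun n => Limit.aeval_eq_zero_of_mem_pow _ (hx' n) (n + 1)
      (Fermat.Agent.S53.H50.maximalIdeal_quot_pow R n)
  let f : ∀ n : ℕ, MvPowerSeries (Fin r) 𝒪 →ₐ[𝒪] R ⧸ maximalIdeal R ^ (n + 1) :=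
    fun n => Limit.evL _ (n + 1) (hnil n)
  have hf : ∀ n, (Ideal.Quotient.factorₐ 𝒪
      (Ideal.pow_le_pow_right (I := maximalIdeal R) (Nat.le_succ (n + 1)))).comp (f (n + 1)) =
      f n := by
    intro n
    ext g
    exact Limit.evL_comp (Ideal.Quotient.factorₐ 𝒪
      (Ideal.pow_le_pow_right (I := maximalIdeal R) (Nat.le_succ (n + 1))))
      (fun i => Ideal.Quotient.mk (maximalIdeal R ^ (n + 1 + 1)) (x i)) (n + 1 + 1) (hnil (n + 1))
      (fun i => Ideal.Quotient.mk (maximalIdeal R ^ (n + 1)) (x i)) (n + 1) (hnil n)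
      (fun i => rfl) (Nat.le_succ _) g
  obtain ⟨γ, hγ, -⟩ := Fermat.Agent.S53.H50.exists_unique_glue_algHom (maximalIdeal R) f hf
  refine ⟨γ, fun i => ?_⟩
  apply Fermat.Agent.S53.H50.eq_of_forall_mk_eq (maximalIdeal R)
  intro n
  have h1 := congrArg (fun φ : MvPowerSeries (Fin r) 𝒪 →ₐ[𝒪] R ⧸ maximalIdeal R ^ (n + 1) =>
    φ (MvPowerSeries.X i)) (hγ n)
  simp only [AlgHom.comp_apply] at h1
  rw [show f n (MvPowerSeries.X i) = _ from Limit.evL_X _ _ _ i] at h1
  exact h1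

end Eval

section Surj

variable {𝒪 : Type} [CommRing 𝒪] [IsLocalRing 𝒪]
variable {R : Type} [CommRing R] [IsLocalRing R] [Algebra 𝒪 R] [IsLocalHom (algebraMap 𝒪 R)]

theorem X_mem_maximalIdeal (r : ℕ) (i : Fin r) :
    (MvPowerSeries.X i : MvPowerSeries (Fin r) 𝒪) ∈ maximalIdeal (MvPowerSeries (Fin r) 𝒪) := by
  rw [mem_maximalIdeal, mem_nonunits_iff, MvPowerSeries.isUnit_iff_constantCoeff,
    MvPowerSeries.constantCoeff_X]
  exact not_isUnit_zero

theorem algebraMap_mem_maximalIdeal_mvPowerSeries (r : ℕ) {c : 𝒪} (hc : c ∈ maximalIdeal 𝒪) :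
    algebraMap 𝒪 (MvPowerSeries (Fin r) 𝒪) c ∈ maximalIdeal (MvPowerSeries (Fin r) 𝒪) := by
  rw [mem_maximalIdeal, mem_nonunits_iff, MvPowerSeries.isUnit_iff_constantCoeff,
    MvPowerSeries.algebraMap_apply, Algebra.algebraMap_self, RingHom.id_apply,
    MvPowerSeries.constantCoeff_C]
  exact (mem_maximalIdeal c).1 hc

/-- A homomorphism `𝒪⟦X₁,…,X_r⟧ → R` whose values at the variables generate `m_R` together with
`m_𝒪` is surjective. -/
theorem surjective_of_gens [IsNoetherianRing 𝒪] [IsAdicComplete (maximalIdeal 𝒪) 𝒪]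
    [IsAdicComplete (maximalIdeal R) R]
    (hres : Function.Surjective (residue R ∘ algebraMap 𝒪 R)) (r : ℕ) (x : Fin r → R)
    (γ : MvPowerSeries (Fin r) 𝒪 →ₐ[𝒪] R) (hγ : ∀ i, γ (MvPowerSeries.X i) = x i)
    (hgen : maximalIdeal R ≤
      Ideal.span (Set.range x) ⊔ (maximalIdeal 𝒪).map (algebraMap 𝒪 R)) :
    Function.Surjective γ := by
  haveI : IsAdicComplete (maximalIdeal (MvPowerSeries (Fin r) 𝒪)) (MvPowerSeries (Fin r) 𝒪) :=
    Limit.isAdicComplete_mvPowerSeries_fin 𝒪 r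
  have hloc : IsLocalHom (γ : MvPowerSeries (Fin r) 𝒪 →+* R) := Univ.isLocalHom_of_res_surj hres γ
  have hmap : (maximalIdeal (MvPowerSeries (Fin r) 𝒪)).map
      (γ : MvPowerSeries (Fin r) 𝒪 →+* R) = maximalIdeal R := by
    apply le_antisymm
    · rw [Ideal.map_le_iff_le_comap]
      intro f hf
      rw [Ideal.mem_comap, mem_maximalIdeal, mem_nonunits_iff]
      rw [mem_maximalIdeal, mem_nonunits_iff] at hf
      exact fun h => hf (hloc.map_nonunit f h)
    · refine hgen.trans (sup_le ?_ ?_)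
      · rw [Ideal.span_le]
        rintro _ ⟨i, rfl⟩
        rw [← hγ i]
        exact Ideal.mem_map_of_mem _ (X_mem_maximalIdeal r i)
      · rw [Ideal.map_le_iff_le_comap]
        intro c hc
        rw [Ideal.mem_comap, ← γ.commutes c]
        exact Ideal.mem_map_of_mem _ (algebraMap_mem_maximalIdeal_mvPowerSeries r hc)
  haveI haus : IsHausdorff ((maximalIdeal (MvPowerSeries (Fin r) 𝒪)).map
      (γ : MvPowerSeries (Fin r) 𝒪 →+* R)) R := by
    rw [hmap]; infer_instance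
  have hsurj : Function.Surjective ((Ideal.Quotient.mk
      ((maximalIdeal (MvPowerSeries (Fin r) 𝒪)).map (γ : MvPowerSeries (Fin r) 𝒪 →+* R))).comp
      (γ : MvPowerSeries (Fin r) 𝒪 →+* R)) := by
    intro y
    obtain ⟨a, rfl⟩ := Ideal.Quotient.mk_surjective y
    obtain ⟨c, hc⟩ := H55.exists_scalar_sub_mem hres a
    refine ⟨algebraMap 𝒪 _ c, ?_⟩
    rw [RingHom.comp_apply, Ideal.Quotient.eq, hmap]
    have h1 : (γ : MvPowerSeries (Fin r) 𝒪 →+* R) (algebraMap 𝒪 _ c) = algebraMap 𝒪 R c :=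
      γ.commutes c
    rw [h1]
    have := (maximalIdeal R).neg_mem hc
    simpa using this
  exact surjective_of_mk_map_comp_surjective (γ : MvPowerSeries (Fin r) 𝒪 →+* R) hsurj

/-- Nakayama: generation modulo `m_R ^ 2` suffices. -/
theorem le_of_le_sup_sq [IsNoetherianRing R] (J : Ideal R)
    (h : maximalIdeal R ≤ J ⊔ maximalIdeal R ^ 2) : maximalIdeal R ≤ J := by
  refine Submodule.le_of_le_smul_of_le_jacobson_bot (I := maximalIdeal R) (N := J)
    (N' := maximalIdeal R) (IsNoetherian.noetherian _) ?_ ?_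
  · rw [IsLocalRing.jacobson_eq_maximalIdeal ⊥ bot_ne_top]
  · rw [Ideal.smul_eq_mul, ← pow_two]
    exact h

end Surj

section Univ

variable {𝒪 : Type} [CommRing 𝒪] [IsDomain 𝒪] [IsDiscreteValuationRing 𝒪]
  [IsAdicComplete (maximalIdeal 𝒪) 𝒪] [Finite (ResidueField 𝒪)]
variable {ρbar : ResidualGaloisRep (ResidueField 𝒪)} {𝒟 : Cond 𝒪}

/-- `k[ε]` is complete. -/
theorem isAdicComplete_dualNumber :
    IsAdicComplete (maximalIdeal (DualNumber (ResidueField 𝒪))) (DualNumber (ResidueField 𝒪)) := by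
  letI := dualNumberAlgebra 𝒪
  haveI := isLocalHom_algebraMap_dualNumber 𝒪
  haveI := finite_dualNumber 𝒪
  haveI : Module.Finite 𝒪 (DualNumber (ResidueField 𝒪)) := Module.Finite.of_finite
  exact IsLocalRing.isAdicComplete_of_module_finite (𝒪 := 𝒪)

/-- Matrix form of the base change of the universal deformation along `φ : R → k[ε]`. -/
theorem exists_mat_baseChange (DQ : GaloisRep.DeformationRingData 𝒪 ρbar 𝒟)
    {rbar : GQ → M2 (ResidueField 𝒪)} (hbar : IsMatOfRes ρbar rbar) :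
    ∃ r : GQ →* M2 DQ.R, IsMatOf DQ.ρ r ∧ IsLift 𝒪 rbar r :=
  exists_isLift_of_residual_isEquiv hbar DQ.ρ DQ.residual_isEquiv

/-- The first-order deformation attached to a homomorphism `R → k[ε]`. -/
theorem exists_tsub_of_algHom (hst : StableDual 𝒪 𝒟)
    (DQ : GaloisRep.DeformationRingData 𝒪 ρbar 𝒟)
    (φ : letI := dualNumberAlgebra 𝒪; DQ.R →ₐ[𝒪] DualNumber (ResidueField 𝒪)) :
    letI := dualNumberAlgebra 𝒪
    ∃ (hφ : IsLocalHom (φ : DQ.R →+* DualNumber (ResidueField 𝒪))) (x : TSub 𝒪 ρbar 𝒟),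
      x.1 = DQ.ρ.baseChangeAlong (φ : DQ.R →+* DualNumber (ResidueField 𝒪)) hφ := by
  letI := dualNumberAlgebra 𝒪
  letI := resDualNumberAlgebra 𝒪
  haveI := isLocalHom_algebraMap_dualNumber 𝒪
  haveI := finite_dualNumber 𝒪
  have hφ : IsLocalHom (φ : DQ.R →+* DualNumber (ResidueField 𝒪)) :=
    Univ.isLocalHom_of_res_surj (res_surj_dualNumber 𝒪) φ
  obtain ⟨rbar, hbar⟩ := exists_isMatOfRes ρbar
  obtain ⟨r, hr, hl⟩ := exists_mat_baseChange DQ hbar
  have hmat : IsMatOf (DQ.ρ.baseChangeAlong (φ : DQ.R →+* DualNumber (ResidueField 𝒪)) hφ)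
      (fun σ => (r σ).map φ) := hr.baseChangeAlong (φ : DQ.R →+* DualNumber (ResidueField 𝒪)) hφ
  have hl' : IsLift 𝒪 rbar (fun σ => (r σ).map φ) := Univ.IsLift.map φ hφ hl
  have hD : 𝒟 (DQ.ρ.baseChangeAlong (φ : DQ.R →+* DualNumber (ResidueField 𝒪)) hφ) :=
    hst DQ.R DQ.residue_surjective DQ.ρ DQ.isOfType φ hφ
  refine ⟨hφ, ⟨_, hD, ?_⟩, rfl⟩
  rw [IsMatOfRes.isEquiv_iff hmat.residual
    (IsMatOfRes.baseChange (ResidueField (DualNumber (ResidueField 𝒪))) hbar)]
  refine ⟨1, fun σ => ?_⟩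
  rw [Units.val_one, one_mul, mul_one]
  refine (hl' σ).trans ?_
  ext i j
  simp only [Matrix.map_apply]
  obtain ⟨c, hc⟩ := residue_surjective (rbar σ i j)
  rw [← hc, ResidueField.map_residue]
  rfl

/-- The map from homomorphisms `R → k[ε]` to classes of first-order deformations is injective. -/
theorem card_algHom_le (hst : StableDual 𝒪 𝒟)
    (DQ : GaloisRep.DeformationRingData 𝒪 ρbar 𝒟) :
    letI := dualNumberAlgebra 𝒪
    ∃ F : (DQ.R →ₐ[𝒪] DualNumber (ResidueField 𝒪)) → Quotient (TSetoid 𝒪 ρbar 𝒟),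
      Function.Injective F := by
  letI := dualNumberAlgebra 𝒪
  letI := resDualNumberAlgebra 𝒪
  haveI := isLocalHom_algebraMap_dualNumber 𝒪
  haveI := finite_dualNumber 𝒪
  haveI := isAdicComplete_dualNumber (𝒪 := 𝒪)
  choose hloc G hG using exists_tsub_of_algHom (ρbar := ρbar) hst DQ
  refine ⟨fun φ => Quotient.mk (TSetoid 𝒪 ρbar 𝒟) (G φ), fun φ ψ h => ?_⟩
  have h1 : (G φ).1.IsEquiv (G ψ).1 := Quotient.exact h
  rw [hG φ, hG ψ] at h1
  -- residual condition for `ψ` in the form needed by the universal property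
  obtain ⟨rbar, hbar⟩ := exists_isMatOfRes ρbar
  obtain ⟨r, hr, hl⟩ := exists_mat_baseChange DQ hbar
  have hmat : IsMatOf (DQ.ρ.baseChangeAlong (ψ : DQ.R →+* DualNumber (ResidueField 𝒪)) (hloc ψ))
      (fun σ => (r σ).map ψ) :=
    hr.baseChangeAlong (ψ : DQ.R →+* DualNumber (ResidueField 𝒪)) (hloc ψ)
  have hl' : IsLift 𝒪 rbar (fun σ => (r σ).map ψ) := Univ.IsLift.map ψ (hloc ψ) hl
  have hres := residual_isEquiv_of_isLift hbar hmat hl'
  have hD : 𝒟 (DQ.ρ.baseChangeAlong (ψ : DQ.R →+* DualNumber (ResidueField 𝒪)) (hloc ψ)) :=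
    hst DQ.R DQ.residue_surjective DQ.ρ DQ.isOfType ψ (hloc ψ)
  have huniv := DQ.universal (DualNumber (ResidueField 𝒪)) (res_surj_dualNumber 𝒪)
    (DQ.ρ.baseChangeAlong (ψ : DQ.R →+* DualNumber (ResidueField 𝒪)) (hloc ψ)) hD hres
  exact huniv.unique ⟨hloc φ, h1⟩ ⟨hloc ψ, ⟨GaloisRepAdic.Equiv.refl _⟩⟩

end Univ

section Cot

variable {𝒪 : Type} [CommRing 𝒪] [IsLocalRing 𝒪] [Finite (ResidueField 𝒪)]
variable {R : Type} [CommRing R] [IsLocalRing R] [Algebra 𝒪 R] [IsLocalHom (algebraMap 𝒪 R)]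

/-- The relative cotangent space of a noetherian local ring with finite residue field is
finite. -/
theorem finite_relCot [IsNoetherianRing R]
    (hres : Function.Surjective (residue R ∘ algebraMap 𝒪 R)) : Finite (H55.RelCot 𝒪 R) := by
  haveI : Finite (ResidueField R) :=
    Fermat.Agent.S53.H50.finite_residueField_of_surjective 𝒪 R hres
  haveI : Finite (R ⧸ maximalIdeal R ^ 2) := Fermat.Agent.S53.H50.finite_quot R 2
  let g : (R ⧸ maximalIdeal R ^ 2) → H55.RelCot 𝒪 R := fun q =>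
    Submodule.Quotient.mk (Function.surjInv Ideal.Quotient.mk_surjective q)
  apply Finite.of_surjective g
  intro v
  obtain ⟨d, rfl⟩ := Submodule.Quotient.mk_surjective _ v
  refine ⟨Ideal.Quotient.mk _ d, ?_⟩
  show Submodule.Quotient.mk _ = Submodule.Quotient.mk d
  rw [Submodule.Quotient.eq]
  apply H55.sq_le_relSub
  rw [← Ideal.Quotient.eq]
  exact Function.surjInv_eq _ _

/-- The relative cotangent space is no bigger than any finite set into which the homomorphisms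
to `k[ε]` inject. -/
theorem card_relCot_le_of_injective [IsNoetherianRing R]
    (hres : Function.Surjective (residue R ∘ algebraMap 𝒪 R)) {Q : Type*} [Finite Q]
    (F : (letI := dualNumberAlgebra 𝒪; R →ₐ[𝒪] DualNumber (ResidueField 𝒪)) → Q)
    (hF : Function.Injective F) : Nat.card (H55.RelCot 𝒪 R) ≤ Nat.card Q := by
  letI := dualNumberAlgebra 𝒪
  letI := H55.relCotModule hres
  haveI := finite_relCot hres
  have b := Module.finBasis (ResidueField 𝒪) (H55.RelCot 𝒪 R)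
  rw [Nat.card_congr b.toDualEquiv.toEquiv]
  exact Nat.card_le_card_of_injective _ (hF.comp (H55.tangentHom_injective hres))

/-- A bound `|k|^r` on the relative cotangent space gives `r` generators of `m_R` modulo
`m_𝒪 R + m_R ^ 2`. -/
theorem exists_gens_of_card_le [IsNoetherianRing R]
    (hres : Function.Surjective (residue R ∘ algebraMap 𝒪 R)) (r : ℕ)
    (hcard : Nat.card (H55.RelCot 𝒪 R) ≤ Nat.card (ResidueField 𝒪) ^ r) :
    ∃ x : Fin r → R, (∀ i, x i ∈ maximalIdeal R) ∧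
      maximalIdeal R ≤ Ideal.span (Set.range x) ⊔ (maximalIdeal 𝒪).map (algebraMap 𝒪 R) ⊔
        maximalIdeal R ^ 2 := by
  classical
  letI := H55.relCotModule hres
  haveI := finite_relCot hres
  haveI : Module.Finite (ResidueField 𝒪) (H55.RelCot 𝒪 R) := Module.Finite.of_finite
  have hd : Module.finrank (ResidueField 𝒪) (H55.RelCot 𝒪 R) ≤ r := by
    rw [Module.natCard_eq_pow_finrank (K := ResidueField 𝒪)] at hcard
    exact (Nat.pow_le_pow_iff_right Finite.one_lt_card).1 hcard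
  let b := Module.finBasis (ResidueField 𝒪) (H55.RelCot 𝒪 R)
  let g : Fin r → H55.RelCot 𝒪 R := fun i =>
    if h : i.val < Module.finrank (ResidueField 𝒪) (H55.RelCot 𝒪 R) then b ⟨i.val, h⟩ else 0
  have hspan : Submodule.span (ResidueField 𝒪) (Set.range g) = ⊤ := by
    rw [eq_top_iff, ← b.span_eq]
    apply Submodule.span_mono
    rintro _ ⟨j, rfl⟩
    refine ⟨⟨j.val, lt_of_lt_of_le j.isLt hd⟩, ?_⟩
    simp [g]
  have h1 : ∀ i, ∃ y : R, y ∈ maximalIdeal R ∧
      (Submodule.Quotient.mk y : H55.RelCot 𝒪 R) = g i := by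
    intro i
    obtain ⟨d, hd⟩ := Submodule.Quotient.mk_surjective _ (g i)
    obtain ⟨c, hc⟩ := H55.exists_scalar_sub_mem hres d
    refine ⟨d - algebraMap 𝒪 R c, hc, ?_⟩
    rw [Submodule.Quotient.mk_sub, H55.mk_algebraMap_eq_zero, sub_zero, hd]
  choose x hx1 hx2 using h1
  refine ⟨x, hx1, fun z hz => ?_⟩
  have hz' : (Submodule.Quotient.mk z : H55.RelCot 𝒪 R) ∈
      Submodule.span (ResidueField 𝒪) (Set.range g) := by
    rw [hspan]; trivial
  obtain ⟨c, hc⟩ := (Submodule.mem_span_range_iff_exists_fun _).1 hz'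
  have h2 : ∀ i, ∃ a : 𝒪, residue 𝒪 a = c i := fun i => residue_surjective (c i)
  choose a ha using h2
  set w : R := z - ∑ i, a i • x i with hw
  have hwmem : w ∈ H55.relSub 𝒪 R := by
    rw [← Submodule.Quotient.mk_eq_zero, hw, Submodule.Quotient.mk_sub, sub_eq_zero, ← hc]
    have : (Submodule.Quotient.mk (∑ i, a i • x i) : H55.RelCot 𝒪 R) =
        ∑ i, (Submodule.Quotient.mk (a i • x i) : H55.RelCot 𝒪 R) :=
      map_sum (Submodule.mkQ (H55.relSub 𝒪 R)) _ _
    rw [this]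
    refine Finset.sum_congr rfl fun i _ => ?_
    rw [← ha i, ← hx2 i]
    exact H55.residue_smul_mk hres (a i) (x i)
  obtain ⟨s, hs, c₀, hsc⟩ := H55.mem_relSub_iff.1 hwmem
  have hsum : ∑ i, a i • x i ∈ Ideal.span (Set.range x) := by
    refine Ideal.sum_mem _ fun i _ => ?_
    rw [Algebra.smul_def]
    exact Ideal.mul_mem_left _ _ (Ideal.subset_span ⟨i, rfl⟩)
  have hsm : s ∈ maximalIdeal R := Ideal.pow_le_self two_ne_zero hs
  have hsumm : ∑ i, a i • x i ∈ maximalIdeal R := by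
    refine Ideal.sum_mem _ fun i _ => ?_
    rw [Algebra.smul_def]
    exact Ideal.mul_mem_left _ _ (hx1 i)
  have hc₀ : algebraMap 𝒪 R c₀ ∈ maximalIdeal R := by
    have e : algebraMap 𝒪 R c₀ = z - ∑ i, a i • x i - s := by
      rw [← hw, ← hsc]; ring
    rw [e]
    exact Ideal.sub_mem _ (Ideal.sub_mem _ hz hsumm) hsm
  have hc₀' : c₀ ∈ maximalIdeal 𝒪 := by
    rw [mem_maximalIdeal, mem_nonunits_iff] at hc₀ ⊢
    exact fun h => hc₀ (h.map (algebraMap 𝒪 R))
  have e : z = ∑ i, a i • x i + algebraMap 𝒪 R c₀ + s := by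
    have : w = s + algebraMap 𝒪 R c₀ := hsc.symm
    rw [hw] at this
    linear_combination this
  rw [e]
  exact Ideal.add_mem _ (Ideal.mem_sup_left (Ideal.add_mem _ (Ideal.mem_sup_left hsum)
    (Ideal.mem_sup_right (Ideal.mem_map_of_mem _ hc₀')))) (Ideal.mem_sup_right hs)

end Cot

/-- **Package T-A.** The tangent bound gives a surjection `𝒪⟦X₁,…,X_r⟧ ↠ R`. -/
theorem surj : Stmt_surj := by
  intro 𝒪 _ _ _ _ _ ρbar 𝒟 r hst htan DQ
  obtain ⟨hfin, hcard⟩ := htan
  haveI := hfin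
  obtain ⟨F, hF⟩ := card_algHom_le hst DQ
  have h1 : Nat.card (H55.RelCot 𝒪 DQ.R) ≤ Nat.card (Quotient (TSetoid 𝒪 ρbar 𝒟)) :=
    card_relCot_le_of_injective DQ.residue_surjective F hF
  obtain ⟨x, hx, hgen⟩ := exists_gens_of_card_le DQ.residue_surjective r (h1.trans hcard)
  obtain ⟨γ, hγ⟩ := exists_eval (𝒪 := 𝒪) r x hx
  exact ⟨γ, surjective_of_gens DQ.residue_surjective r x γ hγ (le_of_le_sup_sq _ hgen)⟩

end Fermat.Agent.S56.H50
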