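import Fermat.Agent.S56.Defs
import Fermat.Agent.S53.Tangent

set_option autoImplicit false

/-!
# Cluster T / S56: top-level packages (exact statements)

`S56 ⟸ Stmt_surj ∧ Stmt_stable_SO ∧ Stmt_stable_Fl ∧ Stmt_TW_SO ∧ Stmt_TW_Fl` (see `Wiring.lean`).

* `Stmt_surj`      (pkg T-A, commutative algebra + universal property): a bound `|k|^r` on the number of
                   first-order deformations of type `𝒟` gives a surjection `𝒪⟦X₁..X_r⟧ ↠ R` for every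
                   universal deformation ring `R` of type `𝒟`.
* `Stmt_stable_*`  (pkg T-S): the two conditions of S56 are stable under base change to `k[ε]`.
* `Stmt_TW_*`      (pkg T-N, number theory): existence of Taylor-Wiles families with the tangent bound.
-/

noncomputable section

namespace Fermat.Agent.S56

open Polynomial IsLocalRing Fermat.Agent.S53

/-- The type of deformation conditions. -/
abbrev Cond (𝒪 : Type) [CommRing 𝒪] : Type 1 :=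
  ∀ ⦃A : Type⦄ [CommRing A] [IsLocalRing A] [Algebra 𝒪 A], GaloisRepAdic A → Prop

/-- Stability of a condition under base change from a complete noetherian local `𝒪`-algebra to the
dual numbers `k[ε]`. -/
def StableDual (𝒪 : Type) [CommRing 𝒪] [IsLocalRing 𝒪] (𝒟 : Cond 𝒪) : Prop :=
  letI := dualNumberAlgebra 𝒪
  ∀ (R : Type) [CommRing R] [IsLocalRing R] [IsNoetherianRing R]
    [IsAdicComplete (maximalIdeal R) R] [Algebra 𝒪 R] [IsLocalHom (algebraMap 𝒪 R)],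
    Function.Surjective (IsLocalRing.residue R ∘ algebraMap 𝒪 R) →
    ∀ ρ : GaloisRepAdic R, 𝒟 ρ →
      ∀ (φ : R →ₐ[𝒪] DualNumber (ResidueField 𝒪))
        (hφ : IsLocalHom (φ : R →+* DualNumber (ResidueField 𝒪))),
        𝒟 (ρ.baseChangeAlong (φ : R →+* DualNumber (ResidueField 𝒪)) hφ)

/-- The tangent bound: the set of first-order deformations of type `𝒟` modulo equivalence is finite
of cardinality at most `|k|^r`.  (`TSetoid` is the setoid of `GaloisRep.TangentFinite`.) -/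
def TangentLE (𝒪 : Type) [CommRing 𝒪] [IsLocalRing 𝒪]
    (ρbar : ResidualGaloisRep (ResidueField 𝒪)) (𝒟 : Cond 𝒪) (r : ℕ) : Prop :=
  Finite (Quotient (TSetoid 𝒪 ρbar 𝒟)) ∧
    Nat.card (Quotient (TSetoid 𝒪 ρbar 𝒟)) ≤ Nat.card (ResidueField 𝒪) ^ r

/-- **Package T-A.** Tangent bound ⟹ `𝒪⟦X₁,…,X_r⟧ ↠ R`. -/
def Stmt_surj : Prop :=
  ∀ (𝒪 : Type) [CommRing 𝒪] [IsDomain 𝒪] [IsDiscreteValuationRing 𝒪]
    [IsAdicComplete (maximalIdeal 𝒪) 𝒪] [Finite (ResidueField 𝒪)]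
    (ρbar : ResidualGaloisRep (ResidueField 𝒪)) (𝒟 : Cond 𝒪) (r : ℕ),
    StableDual 𝒪 𝒟 → TangentLE 𝒪 ρbar 𝒟 r →
    ∀ DQ : GaloisRep.DeformationRingData 𝒪 ρbar 𝒟,
      ∃ γ : MvPowerSeries (Fin r) 𝒪 →ₐ[𝒪] DQ.R, Function.Surjective γ

/-- **Package T-S (strict ordinary).** -/
def Stmt_stable_SO : Prop :=
  ∀ (𝒪 : Type) [CommRing 𝒪] [IsDomain 𝒪] [IsDiscreteValuationRing 𝒪]
    [IsAdicComplete (maximalIdeal 𝒪) 𝒪] [Finite (ResidueField 𝒪)]
    (p : ℕ) [Fact p.Prime] (Smin T : Finset ℕ), StableDual 𝒪 (condSO 𝒪 p Smin T)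

/-- **Package T-S (flat).** -/
def Stmt_stable_Fl : Prop :=
  ∀ (𝒪 : Type) [CommRing 𝒪] [IsDomain 𝒪] [IsDiscreteValuationRing 𝒪]
    [IsAdicComplete (maximalIdeal 𝒪) 𝒪] [Finite (ResidueField 𝒪)]
    (p : ℕ) [Fact p.Prime] (Smin T : Finset ℕ), StableDual 𝒪 (condFl 𝒪 p Smin T)

/-- The standing hypotheses of S56 on `(p, ρbar, S, Smin)`. -/
structure Hyp (𝒪 : Type) [CommRing 𝒪] [IsLocalRing 𝒪] (p : ℕ)
    (ρbar : ResidualGaloisRep (ResidueField 𝒪)) (S Smin : Finset ℕ) : Prop where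
  hp2 : p ≠ 2
  hp𝒪 : (p : 𝒪) ∈ maximalIdeal 𝒪
  habs : ρbar.IsAbsolutelyIrreducible
  hdet : (GaloisRepAdic.ofResidualGaloisRep ρbar).DetIsCyclotomic p
  hsplit : ∀ σ : AlgebraicClosure ℚ ≃ₐ[ℚ] AlgebraicClosure ℚ,
      ∃ α β : ResidueField 𝒪, LinearMap.charpoly (ρbar.ρ σ) = (X - C α) * (X - C β)
  hTW : ∀ (K : Type) [Field K] [Algebra (ResidueField 𝒪) K]
      (G : Subgroup (AlgebraicClosure ℚ ≃ₐ[ℚ] AlgebraicClosure ℚ)), G.index = 2 →
      ∀ V : Submodule K (ρbar.baseChange K).V,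
        (∀ σ ∈ G, ∀ x ∈ V, (ρbar.baseChange K).ρ σ x ∈ V) → V = ⊥ ∨ V = ⊤
  hpSmin : p ∈ Smin
  hSmin : Smin ⊆ S
  hS : ∀ q ∈ S, q.Prime
  hmin : ∀ q : ℕ, q.Prime → q ≠ p → (q ∈ Smin ↔ ¬ ρbar.IsUnramifiedAt q)

/-- **Package T-N (strict ordinary).** Taylor-Wiles families with the tangent bound. -/
def Stmt_TW_SO : Prop :=
  ∀ (𝒪 : Type) [CommRing 𝒪] [IsDomain 𝒪] [IsDiscreteValuationRing 𝒪]
    [IsAdicComplete (maximalIdeal 𝒪) 𝒪] [Finite (ResidueField 𝒪)]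
    (p : ℕ) [Fact p.Prime] (ρbar : ResidualGaloisRep (ResidueField 𝒪)) (S Smin : Finset ℕ),
    Hyp 𝒪 p ρbar S Smin →
    ∃ r : ℕ, ∀ n : ℕ, ∃ qv : Fin r → ℕ, IsTWFamily ρbar p n S qv ∧
      TangentLE 𝒪 ρbar (condSO 𝒪 p Smin (Finset.univ.image qv)) r

/-- **Package T-N (flat).** Taylor-Wiles families with the tangent bound. -/
def Stmt_TW_Fl : Prop :=
  ∀ (𝒪 : Type) [CommRing 𝒪] [IsDomain 𝒪] [IsDiscreteValuationRing 𝒪]
    [IsAdicComplete (maximalIdeal 𝒪) 𝒪] [Finite (ResidueField 𝒪)]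
    (p : ℕ) [Fact p.Prime] (ρbar : ResidualGaloisRep (ResidueField 𝒪)) (S Smin : Finset ℕ),
    Hyp 𝒪 p ρbar S Smin →
    ∃ r : ℕ, ∀ n : ℕ, ∃ qv : Fin r → ℕ, IsTWFamily ρbar p n S qv ∧
      TangentLE 𝒪 ρbar (condFl 𝒪 p Smin (Finset.univ.image qv)) r

end Fermat.Agent.S56

end
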