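import Mathlib

/-!
# S56, leaf LOC-TW, part (ii): the decomposition group modulo inertia is cyclic

`B` a ring with an action of `Γ`, `𝔓` a maximal ideal with finite residue field of
characteristic `q`, `D'` a finite subgroup of `Γ` stabilising `𝔓`.  Then there is `φ ∈ D'` acting
on the residue field as `x ↦ x ^ (q ^ a)` such that every element of `D'` is a power of `φ`
modulo inertia.
-/

set_option autoImplicit false
set_option linter.unusedSectionVars false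
set_option linter.style.haveILetI false

namespace Fermat.Agent.S56.H9

section frob

variable {B : Type*} [CommRing B] {Γ : Type*} [Group Γ] [MulSemiringAction Γ B]
  (𝔓 : Ideal B) [h𝔓 : 𝔓.IsMaximal] (q : ℕ) [hq : Fact q.Prime] [hchar : CharP (B ⧸ 𝔓) q]
  [hfin : Finite (B ⧸ 𝔓)]

/-- The automorphism of the residue field induced by an element stabilising `𝔓`. -/
noncomputable def resRingEquiv (σ : Γ) (hσ : ∀ x, σ • x ∈ 𝔓 ↔ x ∈ 𝔓) :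
    (B ⧸ 𝔓) ≃+* (B ⧸ 𝔓) :=
  Ideal.quotientEquiv 𝔓 𝔓 (MulSemiringAction.toRingEquiv Γ B σ) (by
    ext x
    constructor
    · intro hx
      have : x = (MulSemiringAction.toRingEquiv Γ B σ) (σ⁻¹ • x) := by
        simp
      rw [this]
      refine Ideal.mem_map_of_mem _ ?_
      rw [← hσ, smul_inv_smul]
      exact hx
    · intro hx
      rw [Ideal.map_coe] at hx
      have h2 : Ideal.map (MulSemiringAction.toRingEquiv Γ B σ) 𝔓 ≤ 𝔓 := by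
        rw [Ideal.map_le_iff_le_comap]
        intro y hy
        exact (hσ y).2 hy
      exact h2 hx)

@[simp]
lemma resRingEquiv_mk (σ : Γ) (hσ : ∀ x, σ • x ∈ 𝔓 ↔ x ∈ 𝔓) (x : B) :
    resRingEquiv 𝔓 σ hσ (Ideal.Quotient.mk 𝔓 x) = Ideal.Quotient.mk 𝔓 (σ • x) := rfl

attribute [local instance] ZMod.algebra

/-- The same as an algebra automorphism over the prime field. -/
noncomputable def resAlgEquiv (σ : Γ) (hσ : ∀ x, σ • x ∈ 𝔓 ↔ x ∈ 𝔓) :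
    (B ⧸ 𝔓) ≃ₐ[ZMod q] (B ⧸ 𝔓) :=
  AlgEquiv.ofRingEquiv (f := resRingEquiv 𝔓 σ hσ) (fun z => by
    have h : ((resRingEquiv 𝔓 σ hσ : (B ⧸ 𝔓) →+* (B ⧸ 𝔓))).comp (algebraMap (ZMod q) (B ⧸ 𝔓))
        = algebraMap (ZMod q) (B ⧸ 𝔓) := Subsingleton.elim _ _
    exact congrArg (fun f : ZMod q →+* (B ⧸ 𝔓) => f z) h)

lemma resAlgEquiv_mk (σ : Γ) (hσ : ∀ x, σ • x ∈ 𝔓 ↔ x ∈ 𝔓) (x : B) :
    resAlgEquiv 𝔓 q σ hσ (Ideal.Quotient.mk 𝔓 x) = Ideal.Quotient.mk 𝔓 (σ • x) := rfl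

/-- The action of a subgroup of the stabiliser on the residue field. -/
noncomputable def resHom (D' : Subgroup Γ) (hD' : ∀ σ ∈ D', ∀ x, σ • x ∈ 𝔓 ↔ x ∈ 𝔓) :
    D' →* ((B ⧸ 𝔓) ≃ₐ[ZMod q] (B ⧸ 𝔓)) where
  toFun σ := resAlgEquiv 𝔓 q (σ : Γ) (hD' σ σ.2)
  map_one' := by
    ext y
    obtain ⟨x, rfl⟩ := Ideal.Quotient.mk_surjective y
    rw [resAlgEquiv_mk]
    simp
  map_mul' σ τ := by
    ext y
    obtain ⟨x, rfl⟩ := Ideal.Quotient.mk_surjective y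
    rw [resAlgEquiv_mk, AlgEquiv.mul_apply, resAlgEquiv_mk, resAlgEquiv_mk]
    simp [mul_smul]

lemma resHom_mk (D' : Subgroup Γ) (hD' : ∀ σ ∈ D', ∀ x, σ • x ∈ 𝔓 ↔ x ∈ 𝔓) (σ : D') (x : B) :
    resHom 𝔓 q D' hD' σ (Ideal.Quotient.mk 𝔓 x) = Ideal.Quotient.mk 𝔓 ((σ : Γ) • x) := rfl

/-- The decomposition group modulo inertia is cyclic, generated by a power of Frobenius. -/
theorem exists_frob_generator (D' : Subgroup Γ) [Finite D']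
    (hD' : ∀ σ ∈ D', ∀ x, σ • x ∈ 𝔓 ↔ x ∈ 𝔓) :
    ∃ φ ∈ D', ∃ a : ℕ, (∀ x, φ • x - x ^ (q ^ a) ∈ 𝔓) ∧
      ∀ g ∈ D', ∃ n : ℕ, (φ ^ n)⁻¹ * g ∈ 𝔓.inertia Γ := by
  letI : Field (B ⧸ 𝔓) := Ideal.Quotient.field 𝔓
  set Ψ := resHom 𝔓 q D' hD' with hΨ
  have hcyc : IsCyclic (D' ⧸ Ψ.ker) :=
    isCyclic_of_injective (QuotientGroup.kerLift Ψ) (QuotientGroup.kerLift_injective Ψ)
  obtain ⟨g₀, hg₀⟩ := hcyc.exists_generator
  obtain ⟨φ, rfl⟩ := QuotientGroup.mk_surjective g₀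
  obtain ⟨a, ha⟩ := (FiniteField.bijective_frobeniusAlgEquivOfAlgebraic_pow (ZMod q)
    (B ⧸ 𝔓)).2 (Ψ φ)
  refine ⟨φ, φ.2, a, ?_, ?_⟩
  · intro x
    rw [← Ideal.Quotient.eq, map_pow, ← resHom_mk 𝔓 q D' hD' φ x, ← hΨ, ← ha]
    simp only [AlgEquiv.coe_pow, FiniteField.coe_frobeniusAlgEquivOfAlgebraic_iterate,
      ZMod.card]
  · intro g hg
    have hmem := hg₀ (QuotientGroup.mk ⟨g, hg⟩)
    obtain ⟨n, hn⟩ := (mem_powers_iff_mem_zpowers).2 hmem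
    refine ⟨n, ?_⟩
    have hn' : (QuotientGroup.mk (φ ^ n) : D' ⧸ Ψ.ker) = QuotientGroup.mk ⟨g, hg⟩ := hn
    rw [QuotientGroup.eq] at hn'
    have h1 : Ψ ((φ ^ n)⁻¹ * ⟨g, hg⟩) = 1 := hn'
    intro x
    have h2 := congrArg (fun f : (B ⧸ 𝔓) ≃ₐ[ZMod q] (B ⧸ 𝔓) => f (Ideal.Quotient.mk 𝔓 x)) h1
    simp only [hΨ, resHom_mk, AlgEquiv.one_apply] at h2
    rw [Ideal.Quotient.eq] at h2
    exact h2

end frob

end Fermat.Agent.S56.H9
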