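import Mathlib
import Fermat.Agent.Lib.FrobExists

/-!
# S56, leaf LOC-TW, part (iii-a): the prime of a number field cut out by a place of `ℚ̄`
-/

set_option autoImplicit false
set_option linter.unusedSectionVars false
set_option linter.style.haveILetI false

namespace Fermat.Agent.S56.H9

open NumberField

local notation "Qbar" => AlgebraicClosure ℚ

section primeAt

variable (A : ValuationSubring Qbar) (F : IntermediateField ℚ Qbar) [NumberField F]

/-- The inclusion of the integers of `F` into `ℚ̄`. -/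
noncomputable def intIncl : 𝓞 F →+* Qbar :=
  (algebraMap F Qbar).comp (algebraMap (𝓞 F) F)

lemma intIncl_apply (x : 𝓞 F) : intIncl F x = (((x : F)) : Qbar) := rfl

lemma intIncl_injective : Function.Injective (intIncl F) :=
  (algebraMap F Qbar).injective.comp RingOfIntegers.coe_injective

lemma isIntegral_intIncl (x : 𝓞 F) : IsIntegral ℤ (intIncl F x) := by
  have h : IsIntegral ℤ (x : F) := x.2
  exact h.map (IsScalarTower.toAlgHom ℤ F Qbar)

lemma valuation_intIncl_le_one (x : 𝓞 F) : A.valuation (intIncl F x) ≤ 1 :=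
  Fermat.Agent.Lib.FrobExists.valuation_le_one_of_isIntegral A _ (isIntegral_intIncl F x)

/-- The prime of `𝓞 F` cut out by the valuation subring `A` of `ℚ̄`. -/
def primeAt : Ideal (𝓞 F) where
  carrier := {x | A.valuation (intIncl F x) < 1}
  add_mem' := fun {x y} hx hy => by
    show A.valuation (intIncl F (x + y)) < 1
    rw [map_add]
    exact lt_of_le_of_lt (A.valuation.map_add _ _) (max_lt hx hy)
  zero_mem' := by
    show A.valuation (intIncl F 0) < 1
    rw [map_zero, map_zero]
    exact zero_lt_one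
  smul_mem' := fun c x hx => by
    show A.valuation (intIncl F (c • x)) < 1
    rw [smul_eq_mul, map_mul, map_mul]
    calc A.valuation (intIncl F c) * A.valuation (intIncl F x)
        ≤ 1 * A.valuation (intIncl F x) := mul_le_mul_left (valuation_intIncl_le_one A F c) _
      _ = A.valuation (intIncl F x) := one_mul _
      _ < 1 := hx

lemma mem_primeAt (x : 𝓞 F) : x ∈ primeAt A F ↔ A.valuation (intIncl F x) < 1 := Iff.rfl

instance primeAt_isPrime : (primeAt A F).IsPrime := by
  refine ⟨?_, ?_⟩
  · intro h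
    have h1 : (1 : 𝓞 F) ∈ primeAt A F := by
      rw [h]; exact Submodule.mem_top
    rw [mem_primeAt, map_one, map_one] at h1
    exact lt_irrefl _ h1
  · intro x y hxy
    rw [mem_primeAt, map_mul, map_mul] at hxy
    by_contra hcon
    rw [not_or] at hcon
    have hx : A.valuation (intIncl F x) = 1 :=
      le_antisymm (valuation_intIncl_le_one A F x) (not_lt.mp hcon.1)
    have hy : A.valuation (intIncl F y) = 1 :=
      le_antisymm (valuation_intIncl_le_one A F y) (not_lt.mp hcon.2)
    rw [hx, hy, one_mul] at hxy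
    exact lt_irrefl _ hxy

lemma natCast_mem_primeAt {q : ℕ} (hA : (q : Qbar) ∈ A.nonunits) : (q : 𝓞 F) ∈ primeAt A F := by
  rw [mem_primeAt, map_natCast]
  exact A.mem_nonunits_iff.mp hA

lemma primeAt_ne_bot {q : ℕ} (hq : q ≠ 0) (hA : (q : Qbar) ∈ A.nonunits) : primeAt A F ≠ ⊥ := by
  intro h
  have h1 := natCast_mem_primeAt A F hA
  rw [h, Ideal.mem_bot] at h1
  exact hq (Nat.cast_eq_zero.1 h1)

lemma primeAt_isMaximal {q : ℕ} (hq : q ≠ 0) (hA : (q : Qbar) ∈ A.nonunits) :
    (primeAt A F).IsMaximal :=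
  Ideal.IsPrime.isMaximal inferInstance (primeAt_ne_bot A F hq hA)

lemma finite_quotient_primeAt {q : ℕ} (hq : q ≠ 0) (hA : (q : Qbar) ∈ A.nonunits) :
    Finite (𝓞 F ⧸ primeAt A F) :=
  Ideal.finiteQuotientOfFreeOfNeBot _ (primeAt_ne_bot A F hq hA)

lemma charP_quotient_primeAt {q : ℕ} (hq : q.Prime) (hA : (q : Qbar) ∈ A.nonunits) :
    CharP (𝓞 F ⧸ primeAt A F) q := by
  haveI : Nontrivial (𝓞 F ⧸ primeAt A F) :=
    Ideal.Quotient.nontrivial_iff.2 (Ideal.IsPrime.ne_top inferInstance)
  have h0 : ((q : ℕ) : 𝓞 F ⧸ primeAt A F) = 0 := by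
    rw [← map_natCast (Ideal.Quotient.mk (primeAt A F)), Ideal.Quotient.eq_zero_iff_mem]
    exact natCast_mem_primeAt A F hA
  exact (CharP.charP_iff_prime_eq_zero hq).2 h0

end primeAt

end Fermat.Agent.S56.H9
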