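import Fermat.Agent.S56.Assembly
import Fermat.Agent.S05.H95_Inertia

set_option autoImplicit false

/-!
# Cluster T / S56: the small leaves AD0-basic and TATE-basic (helper47)
-/

noncomputable section

namespace Fermat.Agent.S56.H47

open Polynomial IsLocalRing CategoryTheory groupCohomology ExtCitation Module

/-! ### AD0-basic -/

theorem ad0Val_ρ_apply {k : Type} [Field k] (ρbar : ResidualGaloisRep k) (g : GQ)
    (f : ad0 ρbar) :
    ad0Val ρbar ((ad0 ρbar).ρ g f) = ρbar.ρ g ∘ₗ ad0Val ρbar f ∘ₗ ρbar.ρ g⁻¹ := rfl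

theorem ad0Val_injective {k : Type} [Field k] (ρbar : ResidualGaloisRep k) :
    Function.Injective (ad0Val ρbar) :=
  Subtype.val_injective

theorem ad0_ρ_eq_one {k : Type} [Field k] (ρbar : ResidualGaloisRep k) (g : GQ)
    (h : ρbar.ρ g = 1) : (ad0 ρbar).ρ g = 1 := by
  have h' : ρbar.ρ g⁻¹ = 1 := by
    have := map_mul ρbar.ρ g⁻¹ g
    rw [inv_mul_cancel, map_one, h, mul_one] at this
    exact this.symm
  refine LinearMap.ext fun f => ad0Val_injective ρbar ?_
  rw [ad0Val_ρ_apply, h, h']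
  rfl

theorem ad0_basic : Stmt_ad0_basic := by
  intro k _ ρbar
  refine ⟨?_, ?_, ?_⟩
  · change FiniteDimensional k (ad0Sub ρbar)
    infer_instance
  · intro m
    obtain ⟨L, hL, h⟩ := ρbar.factorsThroughFiniteLevel
    refine ⟨L, hL, fun s hs => ?_⟩
    have h1 : ρbar.ρ s = 1 := h s fun x hx =>
      (IntermediateField.mem_fixingSubgroup_iff L s).1 hs x hx
    rw [ad0_ρ_eq_one ρbar s h1]; rfl
  · intro q hq A hA g hg
    exact ad0_ρ_eq_one ρbar g (hq A hA g hg)

/-! ### TATE-basic -/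

/-- An automorphism fixing all `p`-th roots of unity has trivial cyclotomic character. -/
theorem cycloChar_eq_one_of_fix (p : ℕ) [Fact p.Prime] (σ : GQ)
    (h : ∀ t : AlgebraicClosure ℚ, t ^ p = 1 → σ t = t) : cycloChar p σ = 1 := by
  haveI : NeZero p := ⟨(Fact.out : p.Prime).ne_zero⟩
  haveI : Fact (1 < p) := ⟨(Fact.out : p.Prime).one_lt⟩
  have h1 := modularCyclotomicCharacter.unique (L := AlgebraicClosure ℚ)
    (card_rootsOfUnity_eq_self p) (σ : AlgebraicClosure ℚ ≃+* AlgebraicClosure ℚ)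
    (c := (1 : ZMod p)) (fun t ht => by
      rw [ZMod.val_one, pow_one]
      have ht' : (t : AlgebraicClosure ℚ) ^ p = 1 := by
        have := (mem_rootsOfUnity p t).1 ht
        rw [← Units.val_pow_eq_pow_val, this, Units.val_one]
      exact h t ht')
  refine Units.ext ?_
  rw [Units.val_one]
  exact h1.symm

theorem cycloK_eq_one_of_fix (p : ℕ) [Fact p.Prime] (k : Type) [Field k] [CharP k p] (σ : GQ)
    (h : ∀ t : AlgebraicClosure ℚ, t ^ p = 1 → σ t = t) : cycloK p k σ = 1 := by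
  unfold cycloK
  rw [MonoidHom.comp_apply, cycloChar_eq_one_of_fix p σ h, map_one]

/-- Inertia at `q ≠ p` fixes the `p`-th roots of unity. -/
theorem inertia_fix_root {p q : ℕ} (hp : p.Prime) (hq : q.Prime) (hpq : q ≠ p)
    (A : ValuationSubring (AlgebraicClosure ℚ)) (hA : A.LiesOverPrime q) (σ : GQ)
    (hσ : σ ∈ A.inertiaSubgroupIn ℚ) (t : AlgebraicClosure ℚ) (ht : t ^ p = 1) : σ t = t := by
  by_contra hne
  have hvt : A.valuation t = 1 := by
    have h1 : A.valuation t ^ p = 1 := by rw [← map_pow, ht, map_one]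
    exact (pow_eq_one_iff_of_nonneg zero_le hp.ne_zero).1 h1
  have htA : t ∈ A := (A.valuation_le_one_iff t).1 hvt.le
  have ht0 : t ≠ 0 := by
    rintro rfl
    rw [zero_pow hp.ne_zero] at ht
    exact zero_ne_one ht
  have h1 : σ t - t ∈ A.nonunits := S05.H95.sub_mem_nonunits_of_mem_inertia A hσ htA
  have hz : (σ t * t⁻¹) ^ p = 1 := by
    rw [mul_pow, ← map_pow, ht, map_one, inv_pow, ht, inv_one, mul_one]
  have hz1 : σ t * t⁻¹ ≠ 1 := by
    intro h
    apply hne
    have := congrArg (· * t) h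
    simpa [ht0] using this
  have hzprim : IsPrimitiveRoot (σ t * t⁻¹) p := by
    haveI : Fact p.Prime := ⟨hp⟩
    have ho : orderOf (σ t * t⁻¹) = p := orderOf_eq_prime hz hz1
    rw [← ho]
    exact IsPrimitiveRoot.orderOf _
  have hsum : ∑ i ∈ Finset.range p, (σ t * t⁻¹) ^ i = 0 := hzprim.geom_sum_eq_zero hp.one_lt
  have hv : A.valuation (σ t * t⁻¹ - 1) < 1 := by
    have h2 : σ t * t⁻¹ - 1 = (σ t - t) * t⁻¹ := by
      field_simp
    rw [h2, map_mul, map_inv₀, hvt, inv_one, mul_one]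
    exact (A.mem_nonunits_iff).1 h1
  have hzA : σ t * t⁻¹ ∈ A := by
    have : σ t * t⁻¹ = (σ t * t⁻¹ - 1) + 1 := by ring
    rw [this]
    exact A.add_mem _ _ ((A.valuation_le_one_iff _).1 hv.le) A.one_mem
  have hvi : ∀ i : ℕ, A.valuation ((σ t * t⁻¹) ^ i - 1) < 1 := by
    intro i
    have h3 : (σ t * t⁻¹) ^ i - 1 = (σ t * t⁻¹ - 1) * ∑ j ∈ Finset.range i, (σ t * t⁻¹) ^ j :=
      (mul_geom_sum _ _).symm
    rw [h3, map_mul]
    have h4 : A.valuation (∑ j ∈ Finset.range i, (σ t * t⁻¹) ^ j) ≤ 1 :=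
      (A.valuation_le_one_iff _).2 (A.sum_mem fun j _ => A.pow_mem hzA j)
    calc A.valuation (σ t * t⁻¹ - 1) * A.valuation (∑ j ∈ Finset.range i, (σ t * t⁻¹) ^ j)
        ≤ A.valuation (σ t * t⁻¹ - 1) := mul_le_of_le_one_right' h4
      _ < 1 := hv
  have hvp : A.valuation ((p : ℕ) : AlgebraicClosure ℚ) < 1 := by
    have h5 : ((p : ℕ) : AlgebraicClosure ℚ) =
        - ∑ i ∈ Finset.range p, ((σ t * t⁻¹) ^ i - 1) := by
      rw [Finset.sum_sub_distrib, hsum]
      simp
    rw [h5, Valuation.map_neg]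
    exact Valuation.map_sum_lt _ one_ne_zero (fun i _ => hvi i)
  have hvq : A.valuation ((q : ℕ) : AlgebraicClosure ℚ) < 1 := (A.mem_nonunits_iff).1 hA
  have hcop : Nat.Coprime p q := (Nat.coprime_primes hp hq).2 (Ne.symm hpq)
  have hbez : (p : ℤ) * Int.gcdA p q + (q : ℤ) * Int.gcdB p q = 1 := by
    have := Int.gcd_eq_gcd_ab p q
    rw [← this]
    exact_mod_cast hcop
  have hint : ∀ a : ℤ, A.valuation ((a : ℤ) : AlgebraicClosure ℚ) ≤ 1 := fun a =>
    (A.valuation_le_one_iff _).2 (intCast_mem A a)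
  have h6 : (1 : AlgebraicClosure ℚ) =
      ((p : ℕ) : AlgebraicClosure ℚ) * ((Int.gcdA p q : ℤ) : AlgebraicClosure ℚ) +
        ((q : ℕ) : AlgebraicClosure ℚ) * ((Int.gcdB p q : ℤ) : AlgebraicClosure ℚ) := by
    exact_mod_cast hbez.symm
  have h7 : A.valuation (1 : AlgebraicClosure ℚ) < 1 := by
    rw [h6]
    refine lt_of_le_of_lt (Valuation.map_add _ _ _) (max_lt ?_ ?_)
    · rw [map_mul]
      exact lt_of_le_of_lt (mul_le_of_le_one_right' (hint _)) hvp
    · rw [map_mul]
      exact lt_of_le_of_lt (mul_le_of_le_one_right' (hint _)) hvq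
  rw [map_one] at h7
  exact lt_irrefl _ h7

theorem tateDual_ρ_apply (p : ℕ) [Fact p.Prime] {k : Type} [Field k] [CharP k p]
    (M : Rep.{0} k GQ) (g : GQ) (f : Module.Dual k M) :
    (tateDual p M).ρ g f = (cycloK p k g : k) • (f ∘ₗ M.ρ g⁻¹) := rfl

theorem tateDual_ρ_eq_one (p : ℕ) [Fact p.Prime] {k : Type} [Field k] [CharP k p]
    (M : Rep.{0} k GQ) (g : GQ) (h1 : M.ρ g = 1) (h2 : cycloK p k g = 1) :
    (tateDual p M).ρ g = 1 := by
  have h' : M.ρ g⁻¹ = 1 := by
    have := map_mul M.ρ g⁻¹ g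
    rw [inv_mul_cancel, map_one, h1, mul_one] at this
    exact this.symm
  refine LinearMap.ext fun f => ?_
  rw [tateDual_ρ_apply, h', h2, Units.val_one, one_smul]
  rfl

/-- A smooth finite-dimensional representation is fixed by an open subgroup. -/
theorem exists_field_of_smooth {k : Type} [Field k] (M : Rep.{0} k GQ) [FiniteDimensional k M]
    (hsm : IsSmoothRep M) :
    ∃ F : IntermediateField ℚ (AlgebraicClosure ℚ), FiniteDimensional ℚ F ∧
      ∀ s ∈ F.fixingSubgroup, M.ρ s = 1 := by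
  classical
  let b := Module.finBasis k M
  choose F hF hfix using fun i => hsm (b i)
  haveI : ∀ i, FiniteDimensional ℚ (F i) := hF
  refine ⟨⨆ i, F i, IntermediateField.finiteDimensional_iSup_of_finite, fun s hs => ?_⟩
  refine b.ext fun i => ?_
  have hsi : s ∈ (F i).fixingSubgroup :=
    IntermediateField.fixingSubgroup_antitone (le_iSup F i) hs
  rw [hfix i s hsi]
  rfl

theorem tate_basic : Stmt_tate_basic := by
  intro p _ k _ _ M _ hsm
  have hp : p.Prime := Fact.out
  refine ⟨?_, ?_, ?_⟩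
  · change FiniteDimensional k (Module.Dual k M)
    infer_instance
  · intro f
    obtain ⟨F, hF, hfix⟩ := exists_field_of_smooth M hsm
    haveI := hF
    haveI : NeZero p := ⟨hp.ne_zero⟩
    haveI : NeZero (p : AlgebraicClosure ℚ) := ⟨Nat.cast_ne_zero.mpr hp.ne_zero⟩
    obtain ⟨ζ, hζ⟩ := HasEnoughRootsOfUnity.exists_primitiveRoot (AlgebraicClosure ℚ) p
    have hζint : IsIntegral ℚ ζ := hζ.isIntegral hp.pos |>.tower_top (R := ℤ)
    haveI : FiniteDimensional ℚ (IntermediateField.adjoin ℚ {ζ}) :=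
      IntermediateField.adjoin.finiteDimensional hζint
    refine ⟨F ⊔ IntermediateField.adjoin ℚ {ζ}, IntermediateField.finiteDimensional_sup _ _,
      fun s hs => ?_⟩
    have hs1 : s ∈ F.fixingSubgroup := IntermediateField.fixingSubgroup_antitone le_sup_left hs
    have hs2 : s ∈ (IntermediateField.adjoin ℚ {ζ}).fixingSubgroup :=
      IntermediateField.fixingSubgroup_antitone le_sup_right hs
    have hsζ : s ζ = ζ := (IntermediateField.mem_fixingSubgroup_iff _ s).1 hs2 ζ
      (IntermediateField.mem_adjoin_simple_self ℚ ζ)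
    have hχ : cycloK p k s = 1 := by
      refine cycloK_eq_one_of_fix p k s fun t ht => ?_
      obtain ⟨i, -, rfl⟩ := hζ.eq_pow_of_pow_eq_one ht
      rw [map_pow, hsζ]
    rw [tateDual_ρ_eq_one p M s (hfix s hs1) hχ]
    rfl
  · intro q hq hqp hur A hA g hg
    refine tateDual_ρ_eq_one p M g (hur A hA g hg) ?_
    exact cycloK_eq_one_of_fix p k g fun t ht => inertia_fix_root hp hq hqp A hA g hg t ht

end Fermat.Agent.S56.H47

end
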