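import Fermat.Agent.S56.Selmer

set_option autoImplicit false

/-!
# Cluster T / S56: number-theoretic leaves (exact statements)

Notation: `k` finite field of characteristic `p` (odd), `M = ad⁰ ρbar`, `M' = M.dualTwist (cycloK p k)`,
`Sg` a finite set of primes, `extArithLoc Sg` the localisation maps of the prelude (`Unit ⊕ Sg`).

A leaf is DONE when `theorem … : Stmt_* := …` is landed sorry-free.
-/

noncomputable section

namespace Fermat.Agent.S56

open Polynomial IsLocalRing CategoryTheory groupCohomology ExtCitation Fermat.Agent.S53 Module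

/-- Restriction `H¹(G_ℚ, M) → H¹(G_{ℚ_q}, M)`. -/
def resAt {k : Type} [Field k] (M : Rep k GQ) (q : Nat.Primes) : H1 M →ₗ[k] H1 (locRep M q) :=
  (groupCohomology.map (primeLocalToGlobal q) (𝟙 (Rep.res (primeLocalToGlobal q) M)) 1).hom

/-- Restriction `H¹(G_ℚ, M) → H¹(G_ℝ, M)`. -/
def resInf {k : Type} [Field k] (M : Rep k GQ) : H1 M →ₗ[k] H1 (Rep.res archimedeanLoc M) :=
  (groupCohomology.map archimedeanLoc (𝟙 (Rep.res archimedeanLoc M)) 1).hom

/-- The Tate dual `M* (1)` of a `k`-representation, `k` of characteristic `p`. -/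
abbrev tateDual (p : ℕ) [Fact p.Prime] {k : Type} [Field k] [CharP k p] (M : Rep k GQ) : Rep k GQ :=
  M.dualTwist (cycloK p k)

/-- A family of local pairings, one for the real place and one for each prime. -/
structure LocalPairings (p : ℕ) [Fact p.Prime] {k : Type} [Field k] [CharP k p] (M : Rep k GQ) where
  /-- the pairing at the real place -/
  inf : H1 (Rep.res archimedeanLoc M) →ₗ[k] H1 (Rep.res archimedeanLoc (tateDual p M)) →ₗ[k] k
  /-- the pairing at the prime `q` -/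
  atp : ∀ q : Nat.Primes, H1 (locRep M q) →ₗ[k] H1 (locRep (tateDual p M) q) →ₗ[k] k

/-- The family of pairings indexed by `extArithIndex Sg`. -/
def LocalPairings.fam {p : ℕ} [Fact p.Prime] {k : Type} [Field k] [CharP k p] {M : Rep k GQ}
    (P : LocalPairings p M) (Sg : Finset Nat.Primes) :
    ∀ v : extArithIndex Sg, H1 (Rep.res (extArithLoc Sg v) M) →ₗ[k]
      H1 (Rep.res (extArithLoc Sg v) (tateDual p M)) →ₗ[k] k
  | Sum.inl _ => P.inf
  | Sum.inr q => P.atp q.1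

/-- **Package GW** (Greenberg-Wiles inequality; from S55-land).  There are local pairings, perfect on
the right on continuous classes at the Taylor-Wiles primes (`q ≡ 1 mod p`, `M` unramified at
`q`), such that for every finite `Sg ∋ p` outside of which `M` is unramified and all local
conditions `L ≤` continuous classes, the Greenberg-Wiles inequality holds (prelude vocabulary
`IsGreenbergWilesLeDatumAdm`).  Reduced to sub-packages in `GW/Defs.lean`, `GW/Reduce.lean`. -/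
def Stmt_GW : Prop :=
  ∀ (p : ℕ) [Fact p.Prime] (_hp2 : p ≠ 2) (k : Type) [Field k] [Finite k] [CharP k p]
    (M : Rep k GQ) [FiniteDimensional k M] (_hsm : IsSmoothRep M),
    ∃ P : LocalPairings p M,
      (∀ (q : Nat.Primes), (q : ℕ) % p = 1 → IsUnramifiedRepAt M (q : ℕ) →
        ∀ y : H1 (locRep (tateDual p M) q), y ∈ locH1 (tateDual p M) q →
        (∀ x ∈ locH1 M q, P.atp q x y = 0) → y = 0) ∧
      ∀ (Sg : Finset Nat.Primes), pPrime p ∈ Sg →
        (∀ q : Nat.Primes, q ∉ Sg → IsUnramifiedRepAt M (q : ℕ)) →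
        ∀ L : ∀ v : extArithIndex Sg, Submodule k (H1 (Rep.res (extArithLoc Sg v) M)),
          (∀ v, L v ≤ continuousH1 (extArithLoc Sg v) (Rep.res (extArithLoc Sg v) M)) →
          IsGreenbergWilesLeDatumAdm (extArithLoc Sg) M (tateDual p M) (P.fam Sg) L
            (continuousH1S Sg M) (continuousH1S Sg (tateDual p M))

/-- **Package TW-SELECT** (Chebotarev/Frobenius density + group theory, DDT Thm 2.49).
For a finite-dimensional space `Z` of continuous classes in `H¹(G_ℚ, ad⁰ ρbar (1))` and every `n`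
there is a Taylor-Wiles family of `dim Z` primes of level `n` such that no nonzero class of `Z`
is locally trivial at all of them. -/
def Stmt_TW_select : Prop :=
  ∀ (𝒪 : Type) [CommRing 𝒪] [IsDomain 𝒪] [IsDiscreteValuationRing 𝒪]
    [IsAdicComplete (maximalIdeal 𝒪) 𝒪] [Finite (ResidueField 𝒪)]
    (p : ℕ) [Fact p.Prime] [CharP (ResidueField 𝒪) p]
    (ρbar : ResidualGaloisRep (ResidueField 𝒪)) (S Smin : Finset ℕ),
    Hyp 𝒪 p ρbar S Smin →
    ∀ (Z : Submodule (ResidueField 𝒪) (H1 (tateDual p (ad0 ρbar)))) [Module.Finite (ResidueField 𝒪) Z],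
      Z ≤ continuousH1 (MonoidHom.id GQ) (tateDual p (ad0 ρbar)) →
      ∀ n : ℕ, ∃ qv : Fin (finrank (ResidueField 𝒪) Z) → ℕ, IsTWFamily ρbar p n S qv ∧
        ∀ ξ ∈ Z, (∀ q : Nat.Primes, (q : ℕ) ∈ Finset.univ.image qv →
          resAt (tateDual p (ad0 ρbar)) q ξ = 0) → ξ = 0

/-- **Leaf GLOB-h0.** `ad⁰ ρbar` and `ad⁰ ρbar (1)` have no invariants (Schur + `hTW` for `p = 3`). -/
def Stmt_glob_h0 : Prop :=
  ∀ (𝒪 : Type) [CommRing 𝒪] [IsDomain 𝒪] [IsDiscreteValuationRing 𝒪]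
    [IsAdicComplete (maximalIdeal 𝒪) 𝒪] [Finite (ResidueField 𝒪)]
    (p : ℕ) [Fact p.Prime] [CharP (ResidueField 𝒪) p]
    (ρbar : ResidualGaloisRep (ResidueField 𝒪)) (S Smin : Finset ℕ),
    Hyp 𝒪 p ρbar S Smin →
    finrank (ResidueField 𝒪) (ad0 ρbar).ρ.invariants = 0 ∧
      finrank (ResidueField 𝒪) (tateDual p (ad0 ρbar)).ρ.invariants = 0

/-- **Leaf LOC-inf.** At the real place: `H¹(G_ℝ, M) = 0` (`p` odd) and `h⁰(G_ℝ, ad⁰ ρbar) = 1`
(`ρbar` is odd because its determinant is cyclotomic). -/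
def Stmt_loc_inf : Prop :=
  ∀ (𝒪 : Type) [CommRing 𝒪] [IsDomain 𝒪] [IsDiscreteValuationRing 𝒪]
    [IsAdicComplete (maximalIdeal 𝒪) 𝒪] [Finite (ResidueField 𝒪)]
    (p : ℕ) [Fact p.Prime] (ρbar : ResidualGaloisRep (ResidueField 𝒪)) (S Smin : Finset ℕ),
    Hyp 𝒪 p ρbar S Smin →
    (∀ ξ : H1 (Rep.res archimedeanLoc (ad0 ρbar)), ξ = 0) ∧
      finrank (ResidueField 𝒪) (Rep.res archimedeanLoc (ad0 ρbar)).ρ.invariants = 1

/-- **Leaf LOC-TW-h0.** At a Taylor-Wiles prime `q` (unramified, Frobenius with distinct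
eigenvalues in `k`): `h⁰(ℚ_q, ad⁰ ρbar) = 1`. -/
def Stmt_loc_TW_h0 : Prop :=
  ∀ (k : Type) [Field k] [Finite k] (ρbar : ResidualGaloisRep k) (q : Nat.Primes),
    ρbar.IsUnramifiedAt (q : ℕ) →
    (∀ P : ValuationSubring (AlgebraicClosure ℚ), P.LiesOverPrime (q : ℕ) →
      ∀ φ : AlgebraicClosure ℚ ≃ₐ[ℚ] AlgebraicClosure ℚ, P.IsFrobeniusAt φ (q : ℕ) →
        ∃ α β : k, α ≠ β ∧ LinearMap.charpoly (ρbar.ρ φ) = (X - C α) * (X - C β)) →
    finrank k (locRep (ad0 ρbar) q).ρ.invariants = 1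

/-- The shape of a local bound at the prime `q` for a family of conditions `𝒟 T`:
a subspace `W` of continuous local classes, of dimension `≤ h⁰ + δ`, containing the local
restriction of the class of every first-order deformation of type `𝒟 T`, for every `T`. -/
def LocalBound {𝒪 : Type} [CommRing 𝒪] [IsLocalRing 𝒪]
    (ρbar : ResidualGaloisRep (ResidueField 𝒪)) (𝒟 : Finset ℕ → Cond 𝒪) (q : Nat.Primes)
    (δ : ℕ) : Prop :=
  ∃ W : Submodule (ResidueField 𝒪) (H1 (locRep (ad0 ρbar) q)),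
    W ≤ locH1 (ad0 ρbar) q ∧ Module.Finite (ResidueField 𝒪) W ∧
    finrank (ResidueField 𝒪) W ≤ finrank (ResidueField 𝒪) (locRep (ad0 ρbar) q).ρ.invariants + δ ∧
    ∀ (T : Finset ℕ) (x : TSub 𝒪 ρbar (𝒟 T)) (ξ : H1 (ad0 ρbar)),
      IsClassOf x ξ → resAt (ad0 ρbar) q ξ ∈ W

/-- **Leaf LOC-p-SO.** Strict ordinary at `p`: `dim L_p ≤ h⁰ + 1`. -/
def Stmt_loc_p_SO : Prop :=
  ∀ (𝒪 : Type) [CommRing 𝒪] [IsDomain 𝒪] [IsDiscreteValuationRing 𝒪]
    [IsAdicComplete (maximalIdeal 𝒪) 𝒪] [Finite (ResidueField 𝒪)]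
    (p : ℕ) [Fact p.Prime] (ρbar : ResidualGaloisRep (ResidueField 𝒪)) (S Smin : Finset ℕ),
    Hyp 𝒪 p ρbar S Smin → LocalBound ρbar (condSO 𝒪 p Smin) (pPrime p) 1

/-- **Leaf LOC-p-FL** (the mountain). Flat at `p`: `dim L_p ≤ h⁰ + 1`. -/
def Stmt_loc_p_Fl : Prop :=
  ∀ (𝒪 : Type) [CommRing 𝒪] [IsDomain 𝒪] [IsDiscreteValuationRing 𝒪]
    [IsAdicComplete (maximalIdeal 𝒪) 𝒪] [Finite (ResidueField 𝒪)]
    (p : ℕ) [Fact p.Prime] (ρbar : ResidualGaloisRep (ResidueField 𝒪)) (S Smin : Finset ℕ),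
    Hyp 𝒪 p ρbar S Smin → LocalBound ρbar (condFl 𝒪 p Smin) (pPrime p) 1

/-- **Leaf LOC-min.** At `q ∈ Smin`, `q ≠ p` (unipotent inertia): `dim L_q ≤ h⁰`; for both
families of conditions. -/
def Stmt_loc_min : Prop :=
  ∀ (𝒪 : Type) [CommRing 𝒪] [IsDomain 𝒪] [IsDiscreteValuationRing 𝒪]
    [IsAdicComplete (maximalIdeal 𝒪) 𝒪] [Finite (ResidueField 𝒪)]
    (p : ℕ) [Fact p.Prime] (ρbar : ResidualGaloisRep (ResidueField 𝒪)) (S Smin : Finset ℕ),
    Hyp 𝒪 p ρbar S Smin → ∀ q : Nat.Primes, (q : ℕ) ∈ Smin → (q : ℕ) ≠ p →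
      LocalBound ρbar (condSO 𝒪 p Smin) q 0 ∧ LocalBound ρbar (condFl 𝒪 p Smin) q 0

/-- **Leaf UNR.** A continuous class unramified outside `Sg ∪ {q}` which is locally trivial at `q`
is unramified outside `Sg` (`M` unramified at `q`). -/
def Stmt_unr_of_res_zero : Prop :=
  ∀ (k : Type) [Field k] [Finite k] (M : Rep k GQ) [FiniteDimensional k M] (_hsm : IsSmoothRep M)
    (Sg Sg' : Finset Nat.Primes) (_hle : Sg ⊆ Sg')
    (_hur : ∀ q ∈ Sg', q ∉ Sg → IsUnramifiedRepAt M (q : ℕ)) (ξ : H1 M),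
    ξ ∈ continuousH1S Sg' M → (∀ q ∈ Sg', q ∉ Sg → resAt M q ξ = 0) → ξ ∈ continuousH1S Sg M

end Fermat.Agent.S56

end
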