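import Mathlib
import Fermat.Agent.S56.LeavesNT
import Fermat.Agent.Lib.LocalGlobalDense
import Fermat.Agent.Lib.FrobExists

/-!
# Cluster T leaf LOC-TW-h0 (helper59)

At a Taylor-Wiles prime `q` (unramified, Frobenius with distinct eigenvalues in `k`) the local
invariants of `ad⁰ ρbar` are one-dimensional.
-/

set_option autoImplicit false
set_option linter.unusedSectionVars false
set_option linter.unusedVariables false
set_option linter.style.haveILetI false

noncomputable section

namespace Fermat.Agent.S56.H59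

open Polynomial Module ExtCitation

/-- The place `padicPlace q` lies over `q`. -/
theorem padicPlace_liesOverPrime (q : ℕ) [Fact q.Prime] : (padicPlace q).LiesOverPrime q := by
  have hq : (q : ℕ).Prime := Fact.out
  show (q : AlgebraicClosure ℚ) ∈ (padicPlace q).nonunits
  rw [ValuationSubring.mem_nonunits_iff_or]
  right
  intro hmem
  rw [← Fermat.Agent.Lib.LocalGlobalDense.absQ_le_one_iff, map_inv₀,
    Fermat.Agent.Lib.LocalGlobalDense.absQ_natCast_self, inv_inv] at hmem
  have : (1 : ℝ) < q := by exact_mod_cast hq.one_lt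
  linarith

/-- A Frobenius element commutes with every element of the decomposition group, modulo
inertia. -/
theorem commutator_mem_inertia {K L : Type*} [Field K] [Field L] [Algebra K L]
    (A : ValuationSubring L) (q : ℕ) (σ₀ σ : L ≃ₐ[K] L) (h₀ : A.IsFrobeniusAt σ₀ q)
    (hσ : σ ∈ A.decompositionSubgroup K) :
    σ * σ₀ * σ⁻¹ * σ₀⁻¹ ∈ A.inertiaSubgroupIn K := by
  obtain ⟨hσ₀, hfrob⟩ := h₀
  let g : A.decompositionSubgroup K := ⟨σ, hσ⟩
  let f : A.decompositionSubgroup K := ⟨σ₀, hσ₀⟩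
  refine ⟨g * f * g⁻¹ * f⁻¹, ?_, rfl⟩
  show g * f * g⁻¹ * f⁻¹ ∈ A.inertiaSubgroup K
  rw [ValuationSubring.inertiaSubgroup, MonoidHom.mem_ker]
  ext x
  show (g * f * g⁻¹ * f⁻¹) • x = x
  rw [mul_smul, mul_smul, mul_smul]
  have h1 : f • (g⁻¹ • (f⁻¹ • x)) = g⁻¹ • x := by
    rw [hfrob, ← smul_pow', ← hfrob, smul_inv_smul]
  rw [h1, smul_inv_smul]

section LinAlg

variable {k V : Type*} [Field k] [AddCommGroup V] [Module k V] [Module.Finite k V]

/-- An eigenbasis for an endomorphism of a plane whose characteristic polynomial has two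
distinct roots. -/
theorem exists_eigenbasis (hV : finrank k V = 2) (T : Module.End k V) (α β : k) (hαβ : α ≠ β)
    (hT : LinearMap.charpoly T = (X - C α) * (X - C β)) :
    ∃ b : Basis (Fin 2) k V, T (b 0) = α • b 0 ∧ T (b 1) = β • b 1 := by
  have hα : T.HasEigenvalue α := by
    rw [Module.End.hasEigenvalue_iff_isRoot_charpoly, hT]; simp
  have hβ : T.HasEigenvalue β := by
    rw [Module.End.hasEigenvalue_iff_isRoot_charpoly, hT]; simp
  obtain ⟨e₁, he₁⟩ := hα.exists_hasEigenvector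
  obtain ⟨e₂, he₂⟩ := hβ.exists_hasEigenvector
  have hli : LinearIndependent k ![e₁, e₂] := by
    refine Module.End.eigenvectors_linearIndependent' T ![α, β] ?_ ![e₁, e₂] ?_
    · intro i j hij
      fin_cases i <;> fin_cases j <;> simp_all
    · intro i
      fin_cases i
      · exact he₁
      · exact he₂
  refine ⟨basisOfLinearIndependentOfCardEqFinrank hli (by simp [hV]), ?_, ?_⟩
  · rw [coe_basisOfLinearIndependentOfCardEqFinrank]
    exact he₁.apply_eq_smul
  · rw [coe_basisOfLinearIndependentOfCardEqFinrank]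
    exact he₂.apply_eq_smul

/-- Trace of an endomorphism that is diagonal in a basis of a plane. -/
theorem trace_of_diag (b : Basis (Fin 2) k V) (f : Module.End k V) (a d : k)
    (h0 : f (b 0) = a • b 0) (h1 : f (b 1) = d • b 1) : LinearMap.trace k V f = a + d := by
  rw [LinearMap.trace_eq_matrix_trace k b f, Matrix.trace_fin_two, LinearMap.toMatrix_apply,
    LinearMap.toMatrix_apply, h0, h1]
  simp

/-- An endomorphism commuting with a diagonal endomorphism with distinct entries is diagonal. -/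
theorem diag_of_commute (b : Basis (Fin 2) k V) (T f : Module.End k V) (α β : k) (hαβ : α ≠ β)
    (h0 : T (b 0) = α • b 0) (h1 : T (b 1) = β • b 1) (hc : T ∘ₗ f = f ∘ₗ T) :
    ∃ a d : k, f (b 0) = a • b 0 ∧ f (b 1) = d • b 1 := by
  have hT : ∀ v : V, T v = (α * b.repr v 0) • b 0 + (β * b.repr v 1) • b 1 := by
    intro v
    conv_lhs => rw [← b.sum_repr v]
    rw [Fin.sum_univ_two, map_add, map_smul, map_smul, h0, h1, smul_smul, smul_smul,
      mul_comm α, mul_comm β]
  have hv : ∀ v : V, v = (b.repr v 0) • b 0 + (b.repr v 1) • b 1 := by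
    intro v
    conv_lhs => rw [← b.sum_repr v]
    rw [Fin.sum_univ_two]
  refine ⟨b.repr (f (b 0)) 0, b.repr (f (b 1)) 1, ?_, ?_⟩
  · have h2 : T (f (b 0)) = α • f (b 0) := by
      have := LinearMap.congr_fun hc (b 0)
      simp only [LinearMap.comp_apply] at this
      rw [this, h0, map_smul]
    have h3 := congrArg (fun v => b.repr v 1) h2
    simp only [hT (f (b 0)), map_add, map_smul, Finsupp.add_apply, Finsupp.smul_apply,
      Basis.repr_self, smul_eq_mul] at h3
    simp at h3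
    have h4 : b.repr (f (b 0)) 1 = 0 := by
      rcases h3 with h3 | h3
      · exact absurd h3.symm hαβ
      · exact h3
    conv_lhs => rw [hv (f (b 0))]
    rw [h4, zero_smul, add_zero]
  · have h2 : T (f (b 1)) = β • f (b 1) := by
      have := LinearMap.congr_fun hc (b 1)
      simp only [LinearMap.comp_apply] at this
      rw [this, h1, map_smul]
    have h3 := congrArg (fun v => b.repr v 0) h2
    simp only [hT (f (b 1)), map_add, map_smul, Finsupp.add_apply, Finsupp.smul_apply,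
      Basis.repr_self, smul_eq_mul] at h3
    simp at h3
    have h4 : b.repr (f (b 1)) 0 = 0 := by
      rcases h3 with h3 | h3
      · exact absurd h3 hαβ
      · exact h3
    conv_lhs => rw [hv (f (b 1))]
    rw [h4, zero_smul, zero_add]

/-- The trace-zero centraliser of an endomorphism of a plane with two distinct eigenvalues
is a line, spanned by an element which commutes with everything commuting with `T`. -/
theorem exists_generator (hV : finrank k V = 2) (T : Module.End k V) (α β : k) (hαβ : α ≠ β)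
    (hT : LinearMap.charpoly T = (X - C α) * (X - C β)) :
    ∃ f₀ : Module.End k V, f₀ ≠ 0 ∧ LinearMap.trace k V f₀ = 0 ∧
      (∀ s : Module.End k V, s * T = T * s → s * f₀ = f₀ * s) ∧
      ∀ f : Module.End k V, LinearMap.trace k V f = 0 → T ∘ₗ f = f ∘ₗ T →
        ∃ c : k, c • f₀ = f := by
  obtain ⟨b, h0, h1⟩ := exists_eigenbasis hV T α β hαβ hT
  have hsub : α - β ≠ 0 := sub_ne_zero.mpr hαβ
  refine ⟨(2 : k) • T - (α + β) • (1 : Module.End k V), ?_, ?_, ?_, ?_⟩
  · intro h
    have h2 := LinearMap.congr_fun h (b 0)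
    simp only [LinearMap.sub_apply, LinearMap.smul_apply, Module.End.one_apply, h0,
      LinearMap.zero_apply, smul_smul, ← sub_smul] at h2
    have h3 : (2 * α - (α + β)) = α - β := by ring
    rw [h3] at h2
    rcases smul_eq_zero.mp h2 with h4 | h4
    · exact hsub h4
    · exact b.ne_zero 0 h4
  · refine (trace_of_diag b _ (α - β) (β - α) ?_ ?_).trans (by ring)
    · simp only [LinearMap.sub_apply, LinearMap.smul_apply, Module.End.one_apply, h0,
        smul_smul, ← sub_smul]
      congr 1; ring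
    · simp only [LinearMap.sub_apply, LinearMap.smul_apply, Module.End.one_apply, h1,
        smul_smul, ← sub_smul]
      congr 1; ring
  · intro s hs
    rw [mul_sub, sub_mul, mul_smul_comm, smul_mul_assoc, hs, mul_smul_comm, smul_mul_assoc,
      mul_one, one_mul]
  · intro f hf hc
    obtain ⟨a, d, ha, hd⟩ := diag_of_commute b T f α β hαβ h0 h1 hc
    have htr := trace_of_diag b f a d ha hd
    rw [hf] at htr
    have hd' : d = -a := by linear_combination -htr
    refine ⟨a / (α - β), ?_⟩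
    apply b.ext
    intro i
    fin_cases i
    · show (a / (α - β)) • ((2 : k) • T - (α + β) • (1 : Module.End k V)) (b 0) = f (b 0)
      simp only [LinearMap.sub_apply, LinearMap.smul_apply, Module.End.one_apply, h0,
        smul_smul, ← sub_smul, ha]
      congr 1
      field_simp
      ring
    · show (a / (α - β)) • ((2 : k) • T - (α + β) • (1 : Module.End k V)) (b 1) = f (b 1)
      simp only [LinearMap.sub_apply, LinearMap.smul_apply, Module.End.one_apply, h1,
        smul_smul, ← sub_smul, hd, hd']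
      congr 1
      field_simp
      ring

end LinAlg

/-- `ρbar` of a commutator in inertia is trivial, so images commute. -/
theorem rho_commute_of_decomposition {k : Type} [Field k] (ρbar : ResidualGaloisRep k)
    (q : ℕ) (A : ValuationSubring (AlgebraicClosure ℚ)) (hA : A.LiesOverPrime q)
    (hunr : ρbar.IsUnramifiedAt q) (σ₀ σ : GQ) (h₀ : A.IsFrobeniusAt σ₀ q)
    (hσ : σ ∈ A.decompositionSubgroup ℚ) :
    ρbar.ρ σ * ρbar.ρ σ₀ = ρbar.ρ σ₀ * ρbar.ρ σ := by
  have h1 := hunr A hA _ (commutator_mem_inertia A q σ₀ σ h₀ hσ)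
  rw [map_mul, map_mul, map_mul] at h1
  have h2 : ρbar.ρ σ⁻¹ * ρbar.ρ σ = 1 := by rw [← map_mul, inv_mul_cancel, map_one]
  have h3 : ρbar.ρ σ₀⁻¹ * ρbar.ρ σ₀ = 1 := by rw [← map_mul, inv_mul_cancel, map_one]
  calc ρbar.ρ σ * ρbar.ρ σ₀
      = (ρbar.ρ σ * ρbar.ρ σ₀ * ρbar.ρ σ⁻¹ * ρbar.ρ σ₀⁻¹) * (ρbar.ρ σ₀ * ρbar.ρ σ) := by
        rw [mul_assoc (ρbar.ρ σ * ρbar.ρ σ₀ * ρbar.ρ σ⁻¹), ← mul_assoc (ρbar.ρ σ₀⁻¹), h3,
          one_mul, mul_assoc (ρbar.ρ σ * ρbar.ρ σ₀), h2, mul_one]
    _ = ρbar.ρ σ₀ * ρbar.ρ σ := by rw [h1, one_mul]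

/-- Invariance under the adjoint action is commutation. -/
theorem adRepr_eq_iff {k : Type} [Field k] (ρbar : ResidualGaloisRep k) (g : GQ)
    (f : Module.End k ρbar.V) :
    adRepr ρbar g f = f ↔ ρbar.ρ g * f = f * ρbar.ρ g := by
  rw [adRepr_apply]
  have h2 : ρbar.ρ g⁻¹ * ρbar.ρ g = 1 := by rw [← map_mul, inv_mul_cancel, map_one]
  have h3 : ρbar.ρ g * ρbar.ρ g⁻¹ = 1 := by rw [← map_mul, mul_inv_cancel, map_one]
  show ρbar.ρ g * (f * ρbar.ρ g⁻¹) = f ↔ _
  constructor
  · intro h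
    calc ρbar.ρ g * f = ρbar.ρ g * f * (ρbar.ρ g⁻¹ * ρbar.ρ g) := by rw [h2, mul_one]
      _ = (ρbar.ρ g * (f * ρbar.ρ g⁻¹)) * ρbar.ρ g := by simp only [mul_assoc]
      _ = f * ρbar.ρ g := by rw [h]
  · intro h
    calc ρbar.ρ g * (f * ρbar.ρ g⁻¹) = (ρbar.ρ g * f) * ρbar.ρ g⁻¹ := by simp only [mul_assoc]
      _ = f * (ρbar.ρ g * ρbar.ρ g⁻¹) := by rw [h, mul_assoc]
      _ = f := by rw [h3, mul_one]

/-- **Leaf LOC-TW-h0.** -/
theorem stmt_loc_TW_h0 : Fermat.Agent.S56.Stmt_loc_TW_h0 := by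
  intro k _ _ ρbar q hunr hfrob
  haveI : Fact (q : ℕ).Prime := ⟨q.2⟩
  have hP := padicPlace_liesOverPrime (q : ℕ)
  obtain ⟨σ₀, hσ₀⟩ :=
    Fermat.Agent.Lib.FrobExists.exists_isFrobeniusAt (q : ℕ) q.2 (padicPlace (q : ℕ)) hP
  obtain ⟨α, β, hαβ, hT⟩ := hfrob _ hP σ₀ hσ₀
  -- a local lift of the Frobenius, up to the kernel of `ρbar`
  obtain ⟨L, hL, hρL⟩ := ρbar.factorsThroughFiniteLevel
  haveI := hL
  obtain ⟨τ₀, hτ₀⟩ := Fermat.Agent.Lib.LocalGlobalDense.exists_local_lift_field (q : ℕ) σ₀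
    hσ₀.mem_decompositionSubgroup L
  have hτ₀' : ρbar.ρ (primeLocalToGlobal q τ₀) = ρbar.ρ σ₀ := by
    have h1 : ρbar.ρ (σ₀⁻¹ * primeLocalToGlobal q τ₀) = 1 := by
      apply hρL
      intro x hx
      show σ₀⁻¹ (primeLocalToGlobal q τ₀ x) = x
      have : primeLocalToGlobal q τ₀ x = σ₀ x := hτ₀ x hx
      rw [this]
      exact σ₀.symm_apply_apply x
    have h2 : ρbar.ρ σ₀ * ρbar.ρ (σ₀⁻¹ * primeLocalToGlobal q τ₀) = ρbar.ρ σ₀ := by
      rw [h1, mul_one]
    rw [← map_mul, mul_inv_cancel_left] at h2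
    exact h2
  -- every local element commutes with the Frobenius under `ρbar`
  have hcomm : ∀ τ : primeLocalGaloisGroup q,
      ρbar.ρ (primeLocalToGlobal q τ) * ρbar.ρ σ₀ = ρbar.ρ σ₀ * ρbar.ρ (primeLocalToGlobal q τ) :=
    fun τ => rho_commute_of_decomposition ρbar q (padicPlace (q : ℕ)) hP hunr σ₀ _ hσ₀
      (localGaloisToGlobal_mem_decompositionSubgroup (q : ℕ) τ)
  obtain ⟨f₀, hne, htr, hcen, hgen⟩ :=
    exists_generator ρbar.finrank_eq (ρbar.ρ σ₀) α β hαβ hT
  have hf₀mem : f₀ ∈ ad0Sub ρbar := htr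
  -- the underlying endomorphism of an element of the local representation
  let ι : (locRep (ad0 ρbar) q).V →ₗ[k] Module.End k ρbar.V := (ad0Sub ρbar).subtype
  have hι_inj : Function.Injective ι := (ad0Sub ρbar).injective_subtype
  have hι_tr : ∀ x : (locRep (ad0 ρbar) q).V, LinearMap.trace k ρbar.V (ι x) = 0 :=
    fun x => (show ad0Sub ρbar from x).2
  -- membership in the invariants
  have hinv_iff : ∀ x : (locRep (ad0 ρbar) q).V,
      x ∈ (locRep (ad0 ρbar) q).ρ.invariants ↔
        ∀ τ : primeLocalGaloisGroup q,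
          ρbar.ρ (primeLocalToGlobal q τ) * ι x = ι x * ρbar.ρ (primeLocalToGlobal q τ) := by
    intro x
    rw [Representation.mem_invariants]
    refine forall_congr' fun τ => ?_
    rw [← adRepr_eq_iff]
    constructor
    · intro h
      exact congrArg ι h
    · intro h
      exact hι_inj h
  let x₀ : (locRep (ad0 ρbar) q).V := (show ad0Sub ρbar from ⟨f₀, hf₀mem⟩)
  have hx₀ : ι x₀ = f₀ := rfl
  have hx₀inv : x₀ ∈ (locRep (ad0 ρbar) q).ρ.invariants := by
    rw [hinv_iff]
    intro τ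
    rw [hx₀]
    exact hcen _ (hcomm τ)
  rw [finrank_eq_one_iff']
  refine ⟨⟨x₀, hx₀inv⟩, ?_, ?_⟩
  · intro h
    apply hne
    have h1 : x₀ = 0 := congrArg Subtype.val h
    rw [← hx₀, h1, map_zero]
  · rintro ⟨x, hx⟩
    have hx' := (hinv_iff x).mp hx τ₀
    rw [hτ₀'] at hx'
    obtain ⟨c, hc⟩ := hgen (ι x) (hι_tr x) hx'
    refine ⟨c, ?_⟩
    apply Subtype.ext
    apply hι_inj
    show ι (c • x₀) = ι x
    rw [map_smul, hx₀, hc]

end Fermat.Agent.S56.H59
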