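import Fermat.Agent.S56.LeavesNT
import Fermat.Agent.S56.Dict.H74_Count

set_option autoImplicit false

/-!
# Cluster T / S56: assembly of the number-theoretic package `Stmt_TW_*` from the leaves

This file is formal: it combines the leaves of `LeavesNT.lean`, `LeavesLocal.lean`, `Selmer.lean`
into `Stmt_TW_SO` and `Stmt_TW_Fl` (Greenberg-Wiles count + killing of the dual Selmer group).
-/

noncomputable section

namespace Fermat.Agent.S56

open Polynomial IsLocalRing CategoryTheory groupCohomology ExtCitation Fermat.Agent.S53 Module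

/-- **Leaf AD0-basic.** `ad⁰ ρbar` is finite-dimensional, smooth, and unramified where `ρbar` is. -/
def Stmt_ad0_basic : Prop :=
  ∀ (k : Type) [Field k] (ρbar : ResidualGaloisRep k),
    FiniteDimensional k (ad0 ρbar) ∧ IsSmoothRep (ad0 ρbar) ∧
      ∀ q : ℕ, ρbar.IsUnramifiedAt q → IsUnramifiedRepAt (ad0 ρbar) q

/-- **Leaf TATE-basic.** The Tate dual of a finite-dimensional smooth representation is
finite-dimensional, smooth, and unramified at the primes `q ≠ p` where `M` is. -/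
def Stmt_tate_basic : Prop :=
  ∀ (p : ℕ) [Fact p.Prime] (k : Type) [Field k] [CharP k p] (M : Rep.{0} k GQ)
    [FiniteDimensional k M],
    IsSmoothRep M →
    FiniteDimensional k (tateDual p M) ∧ IsSmoothRep (tateDual p M) ∧
      ∀ q : ℕ, q.Prime → q ≠ p → IsUnramifiedRepAt M q → IsUnramifiedRepAt (tateDual p M) q

/-! ### Restriction of continuous classes -/

theorem resAt_H1π {k : Type} [Field k] (M : Rep.{0} k GQ) (q : Nat.Primes) (c : cocycles₁ M) :
    resAt M q ((H1π M).hom c) =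
      (H1π (locRep M q)).hom
        ((mapCocycles₁ (primeLocalToGlobal q) (𝟙 (Rep.res (primeLocalToGlobal q) M))).hom c) := by
  unfold resAt
  exact H1π_comp_map_apply (primeLocalToGlobal q) (𝟙 (Rep.res (primeLocalToGlobal q) M)) c

/-- The restriction of a continuous class is continuous. -/
theorem res_cont {k : Type} [Field k] (M : Rep.{0} k GQ) (q : Nat.Primes) (ξ : H1 M)
    (hξ : ξ ∈ continuousH1 (MonoidHom.id GQ) M) : resAt M q ξ ∈ locH1 M q := by
  obtain ⟨c, ⟨F, hF, hc⟩, rfl⟩ := (mem_continuousH1_iff _ M ξ).1 hξ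
  rw [resAt_H1π]
  refine H1π_mem_continuousH1 _ _ ⟨F, hF, fun g s hs => ?_⟩
  have := hc (primeLocalToGlobal q g) (primeLocalToGlobal q s) hs
  rw [← map_mul] at this
  exact this

theorem res_contS {k : Type} [Field k] (M : Rep.{0} k GQ) (Sg : Finset Nat.Primes)
    (q : Nat.Primes) (ξ : H1 M) (hξ : ξ ∈ continuousH1S Sg M) : resAt M q ξ ∈ locH1 M q :=
  res_cont M q ξ (continuousH1S_le_continuousH1 Sg M hξ)

/-! ### Local conditions indexed by `extArithIndex` -/

/-- Local conditions indexed by `extArithIndex Sg` from per-prime conditions; `⊥` at the real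
place. -/
def condFam {k : Type} [Field k] (M : Rep.{0} k GQ)
    (Wall : ∀ q : Nat.Primes, Submodule k (H1 (locRep M q))) (Sg : Finset Nat.Primes) :
    ∀ v : extArithIndex Sg, Submodule k (H1 (Rep.res (extArithLoc Sg v) M))
  | Sum.inl _ => ⊥
  | Sum.inr q => Wall q.1

theorem mem_selmerAdm_condFam_iff {k : Type} [Field k] (M : Rep.{0} k GQ)
    (Wall : ∀ q : Nat.Primes, Submodule k (H1 (locRep M q))) (Sg : Finset Nat.Primes)
    (adm : Submodule k (H1 M)) (ξ : H1 M) :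
    ξ ∈ selmerAdm (extArithLoc Sg) M (condFam M Wall Sg) adm ↔
      resInf M ξ = 0 ∧ (∀ q ∈ Sg, resAt M q ξ ∈ Wall q) ∧ ξ ∈ adm := by
  rw [mem_selmerAdm_iff]
  constructor
  · rintro ⟨h, hadm⟩
    refine ⟨?_, fun q hq => ?_, hadm⟩
    · have := h (Sum.inl ())
      exact (Submodule.mem_bot k).1 this
    · exact h (Sum.inr ⟨q, hq⟩)
  · rintro ⟨h1, h2, hadm⟩
    refine ⟨fun v => ?_, hadm⟩
    rcases v with u | q
    · exact (Submodule.mem_bot k).2 h1
    · exact h2 q.1 q.2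

theorem mem_dualSelmer_condFam_iff {p : ℕ} [Fact p.Prime] {k : Type} [Field k] [CharP k p]
    (M : Rep.{0} k GQ) (P : LocalPairings p M)
    (Wall : ∀ q : Nat.Primes, Submodule k (H1 (locRep M q))) (Sg : Finset Nat.Primes)
    (adm : Submodule k (H1 (tateDual p M))) (ξ : H1 (tateDual p M)) :
    ξ ∈ selmerAdm (extArithLoc Sg) (tateDual p M)
        (dualConditions (extArithLoc Sg) M (tateDual p M) (P.fam Sg) (condFam M Wall Sg)) adm ↔
      (∀ q ∈ Sg, ∀ x ∈ Wall q, P.atp q x (resAt (tateDual p M) q ξ) = 0) ∧ ξ ∈ adm := by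
  rw [mem_selmerAdm_iff]
  constructor
  · rintro ⟨h, hadm⟩
    refine ⟨fun q hq x hx => ?_, hadm⟩
    have := h (Sum.inr ⟨q, hq⟩)
    exact (mem_orthogonal_iff _ _ _).1 this x hx
  · rintro ⟨h2, hadm⟩
    refine ⟨fun v => ?_, hadm⟩
    rcases v with u | q
    · refine (mem_orthogonal_iff _ _ _).2 fun x hx => ?_
      have hx0 : x = 0 := (Submodule.mem_bot k).1 hx
      rw [hx0, map_zero]; rfl
    · exact (mem_orthogonal_iff _ _ _).2 fun x hx => h2 q.1 q.2 x hx

/-! ### The two sums of the Greenberg-Wiles formula -/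

theorem sum_condFam {k : Type} [Field k] (M : Rep.{0} k GQ)
    (Wall : ∀ q : Nat.Primes, Submodule k (H1 (locRep M q))) (Sg : Finset Nat.Primes) :
    ∑ v : extArithIndex Sg, finrank k (condFam M Wall Sg v) = ∑ q ∈ Sg, finrank k (Wall q) := by
  have h1 : ∑ v : extArithIndex Sg, finrank k (condFam M Wall Sg v) =
      ∑ u : Unit, finrank k (condFam M Wall Sg (Sum.inl u)) +
        ∑ q : ↥Sg, finrank k (condFam M Wall Sg (Sum.inr q)) :=
    Fintype.sum_sum_type (fun v : Unit ⊕ ↥Sg => finrank k (condFam M Wall Sg v))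
  rw [h1]
  have h2 : ∑ u : Unit, finrank k (condFam M Wall Sg (Sum.inl u)) = 0 := by
    refine Finset.sum_eq_zero fun u _ => ?_
    exact finrank_bot k _
  have h3 : ∑ q : ↥Sg, finrank k (condFam M Wall Sg (Sum.inr q)) =
      ∑ q ∈ Sg, finrank k (Wall q) :=
    Finset.sum_coe_sort Sg (fun q => finrank k (Wall q))
  rw [h2, h3, zero_add]

theorem sum_h0 {k : Type} [Field k] (M : Rep.{0} k GQ) (Sg : Finset Nat.Primes) :
    ∑ v : extArithIndex Sg, finrank k (Rep.res (extArithLoc Sg v) M).ρ.invariants =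
      finrank k (Rep.res archimedeanLoc M).ρ.invariants +
        ∑ q ∈ Sg, finrank k (locRep M q).ρ.invariants := by
  let f : extArithIndex Sg → ℕ := fun v => finrank k (Rep.res (extArithLoc Sg v) M).ρ.invariants
  have h1 : ∑ v : extArithIndex Sg, f v = ∑ u : Unit, f (Sum.inl u) + ∑ q : ↥Sg, f (Sum.inr q) :=
    Fintype.sum_sum_type (fun v : Unit ⊕ ↥Sg => f v)
  have h2 : ∑ u : Unit, f (Sum.inl u) = finrank k (Rep.res archimedeanLoc M).ρ.invariants := by
    rw [Fintype.sum_unique]; rfl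
  have h3 : ∑ q : ↥Sg, f (Sum.inr q) = ∑ q ∈ Sg, finrank k (locRep M q).ρ.invariants :=
    Finset.sum_coe_sort Sg (fun q => finrank k (locRep M q).ρ.invariants)
  rw [← h2, ← h3, ← h1]

section

variable {𝒪 : Type} [CommRing 𝒪] [IsLocalRing 𝒪]

theorem charP_residueField (p : ℕ) [Fact p.Prime] (hp𝒪 : (p : 𝒪) ∈ maximalIdeal 𝒪) :
    CharP (ResidueField 𝒪) p := by
  have h0 : ((p : ℕ) : ResidueField 𝒪) = 0 := by
    have := (IsLocalRing.residue_eq_zero_iff (p : 𝒪)).mpr hp𝒪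
    simpa using this
  exact (CharP.charP_iff_prime_eq_zero (Fact.out : p.Prime)).mpr h0

end

/-! ### The assembly -/

section Assembly

variable {𝒪 : Type} [CommRing 𝒪] [IsDomain 𝒪] [IsDiscreteValuationRing 𝒪]
  [IsAdicComplete (maximalIdeal 𝒪) 𝒪] [Finite (ResidueField 𝒪)]

/-- A Taylor-Wiles prime is congruent to `1` modulo `p`. -/
theorem mod_eq_one_of_pow_dvd {p n q : ℕ} (hp : p.Prime) (hq : q.Prime)
    (h : p ^ (n + 1) ∣ q - 1) : q % p = 1 := by
  have h1 : p ∣ q - 1 := dvd_trans (dvd_pow_self p (Nat.succ_ne_zero n)) h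
  obtain ⟨m, hm⟩ := h1
  have hq2 := hq.two_le
  have hq' : q = p * m + 1 := by omega
  rw [hq', Nat.mul_add_mod]
  exact Nat.mod_eq_of_lt hp.one_lt

/-- **Assembly (generic in the family of conditions).**  From the leaves: Taylor-Wiles families
with the tangent bound. -/
theorem assembly_core
    (hGW : Stmt_GW) (hTWsel : Stmt_TW_select) (hglob : Stmt_glob_h0) (hinf : Stmt_loc_inf)
    (hlocTW : Stmt_loc_TW) (hlocTWh0 : Stmt_loc_TW_h0) (hunr : Stmt_unr_of_res_zero)
    (hdex : Stmt_dict_exists) (hdinj : Stmt_dict_inj) (hdcont : Stmt_dict_cont)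
    (had0 : Stmt_ad0_basic) (htate : Stmt_tate_basic)
    (p : ℕ) [Fact p.Prime] (ρbar : ResidualGaloisRep (ResidueField 𝒪)) (S Smin : Finset ℕ)
    (hyp : Hyp 𝒪 p ρbar S Smin) (𝒟 : Finset ℕ → Cond 𝒪)
    (h𝒟det : ∀ (T : Finset ℕ) ⦃A : Type⦄ [CommRing A] [IsLocalRing A] [Algebra 𝒪 A]
      (ρ : GaloisRepAdic A), 𝒟 T ρ → ρ.DetIsCyclotomic p)
    (h𝒟unr : ∀ (T : Finset ℕ) ⦃A : Type⦄ [CommRing A] [IsLocalRing A] [Algebra 𝒪 A]
      (ρ : GaloisRepAdic A), 𝒟 T ρ → ∀ q : ℕ, q.Prime → q ∉ Smin ∪ T → ρ.IsUnramifiedAt q)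
    (hLB : ∀ q : Nat.Primes, (q : ℕ) ∈ Smin →
      LocalBound ρbar 𝒟 q (if (q : ℕ) = p then 1 else 0)) :
    ∃ r : ℕ, ∀ n : ℕ, ∃ qv : Fin r → ℕ, IsTWFamily ρbar p n S qv ∧
      TangentLE 𝒪 ρbar (𝒟 (Finset.univ.image qv)) r := by
  classical
  haveI hchar : CharP (ResidueField 𝒪) p := charP_residueField p hyp.hp𝒪
  obtain ⟨hMfd, hMsm, hMur⟩ := had0 (ResidueField 𝒪) ρbar
  haveI := hMfd
  obtain ⟨hM'fd, hM'sm, hM'ur⟩ := htate p (ResidueField 𝒪) (ad0 ρbar) hMsm
  haveI := hM'fd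
  obtain ⟨P, hperf, hGWP⟩ := hGW p hyp.hp2 (ResidueField 𝒪) (ad0 ρbar) hMsm
  obtain ⟨hh0, hh0'⟩ := hglob 𝒪 p ρbar S Smin hyp
  obtain ⟨hinf0, hinf1⟩ := hinf 𝒪 p ρbar S Smin hyp
  -- unramifiedness of `ρbar` outside `Smin`
  have hρur : ∀ q : ℕ, q.Prime → q ∉ Smin → ρbar.IsUnramifiedAt q := by
    intro q hq hqS
    have hqp : q ≠ p := fun h => hqS (h ▸ hyp.hpSmin)
    by_contra hcon
    exact hqS ((hyp.hmin q hq hqp).2 hcon)
  -- per-prime conditions
  let Wall : ∀ q : Nat.Primes, Submodule (ResidueField 𝒪) (H1 (locRep (ad0 ρbar) q)) := fun q =>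
    if h : (q : ℕ) ∈ Smin then Classical.choose (hLB q h) else locH1 (ad0 ρbar) q
  have hWall_in : ∀ (q : Nat.Primes) (h : (q : ℕ) ∈ Smin),
      Wall q = Classical.choose (hLB q h) := fun q h => dif_pos h
  have hWall_out : ∀ q : Nat.Primes, (q : ℕ) ∉ Smin → Wall q = locH1 (ad0 ρbar) q :=
    fun q h => dif_neg h
  have hWall_le : ∀ q : Nat.Primes, Wall q ≤ locH1 (ad0 ρbar) q := by
    intro q
    by_cases h : (q : ℕ) ∈ Smin
    · rw [hWall_in q h]; exact (Classical.choose_spec (hLB q h)).1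
    · rw [hWall_out q h]
  have hWall_rank : ∀ (q : Nat.Primes), (q : ℕ) ∈ Smin →
      finrank (ResidueField 𝒪) (Wall q) ≤
        finrank (ResidueField 𝒪) (locRep (ad0 ρbar) q).ρ.invariants +
          (if (q : ℕ) = p then 1 else 0) := by
    intro q h
    rw [hWall_in q h]; exact (Classical.choose_spec (hLB q h)).2.2.1
  have hWall_class : ∀ (q : Nat.Primes), (q : ℕ) ∈ Smin → ∀ (T : Finset ℕ)
      (x : TSub 𝒪 ρbar (𝒟 T)) (ξ : H1 (ad0 ρbar)), IsClassOf x ξ →
      resAt (ad0 ρbar) q ξ ∈ Wall q := by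
    intro q h T x ξ hx
    rw [hWall_in q h]; exact (Classical.choose_spec (hLB q h)).2.2.2 T x ξ hx
  -- the sets of primes
  have hpSg : ∀ T : Finset ℕ, pPrime p ∈ primesOf (Smin ∪ T) := fun T =>
    mem_primesOf.2 (Finset.mem_union_left _ hyp.hpSmin)
  have hurSg : ∀ T : Finset ℕ, ∀ q : Nat.Primes, q ∉ primesOf (Smin ∪ T) →
      IsUnramifiedRepAt (ad0 ρbar) (q : ℕ) := by
    intro T q hq
    refine hMur q (hρur q q.2 fun h => hq (mem_primesOf.2 (Finset.mem_union_left _ h)))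
  have hLle : ∀ (T : Finset ℕ) (v : extArithIndex (primesOf (Smin ∪ T))),
      condFam (ad0 ρbar) Wall (primesOf (Smin ∪ T)) v ≤
        continuousH1 (extArithLoc (primesOf (Smin ∪ T)) v)
          (Rep.res (extArithLoc (primesOf (Smin ∪ T)) v) (ad0 ρbar)) := by
    intro T v
    rcases v with u | q
    · exact bot_le
    · exact hWall_le q.1
  have hGWT := fun T : Finset ℕ => hGWP (primesOf (Smin ∪ T)) (hpSg T) (hurSg T)
    (condFam (ad0 ρbar) Wall (primesOf (Smin ∪ T))) (hLle T)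
  -- the dual Selmer group for `T = ∅`
  let Z : Submodule (ResidueField 𝒪) (H1 (tateDual p (ad0 ρbar))) :=
    selmerAdm (extArithLoc (primesOf (Smin ∪ ∅))) (tateDual p (ad0 ρbar))
      (dualConditions (extArithLoc (primesOf (Smin ∪ ∅))) (ad0 ρbar) (tateDual p (ad0 ρbar))
        (P.fam (primesOf (Smin ∪ ∅))) (condFam (ad0 ρbar) Wall (primesOf (Smin ∪ ∅))))
      (continuousH1S (primesOf (Smin ∪ ∅)) (tateDual p (ad0 ρbar)))
  haveI hZfin : Module.Finite (ResidueField 𝒪) Z := (hGWT ∅).finite_dualSelmer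
  have hZle : Z ≤ continuousH1 (MonoidHom.id GQ) (tateDual p (ad0 ρbar)) :=
    (selmerAdm_le_adm _ _ _ _).trans (continuousH1S_le_continuousH1 _ _)
  refine ⟨finrank (ResidueField 𝒪) Z, fun n => ?_⟩
  obtain ⟨qv, hqv, hkill⟩ := hTWsel 𝒪 p ρbar S Smin hyp Z hZle n
  refine ⟨qv, hqv, ?_⟩
  obtain ⟨-, hqv2, hqv3⟩ := hqv
  -- facts on the Taylor-Wiles primes
  have hT : ∀ q : Nat.Primes, (q : ℕ) ∈ Finset.univ.image qv →
      (q : ℕ) ∉ Smin ∧ (q : ℕ) ≠ p ∧ (q : ℕ) % p = 1 ∧ ρbar.IsUnramifiedAt (q : ℕ) ∧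
        finrank (ResidueField 𝒪) (locRep (ad0 ρbar) q).ρ.invariants = 1 := by
    intro q hq
    obtain ⟨i, -, hi⟩ := Finset.mem_image.1 hq
    obtain ⟨hi1, hi2, hi3⟩ := hqv2 i
    have hqS : (q : ℕ) ∉ Smin := fun h => hi2 (hyp.hSmin (hi ▸ h))
    have hur : ρbar.IsUnramifiedAt (q : ℕ) := hρur q q.2 hqS
    refine ⟨hqS, fun h => hqS (h ▸ hyp.hpSmin), ?_, hur, ?_⟩
    · rw [← hi]; exact mod_eq_one_of_pow_dvd (Fact.out : p.Prime) hi1 hi3
    · refine hlocTWh0 (ResidueField 𝒪) ρbar q hur ?_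
      rw [← hi]; exact hqv3 i
  -- the dual Selmer group for `T` vanishes
  have hsub : primesOf (Smin ∪ ∅) ⊆ primesOf (Smin ∪ Finset.univ.image qv) := by
    intro q hq
    rw [mem_primesOf] at hq ⊢
    rcases Finset.mem_union.1 hq with h | h
    · exact Finset.mem_union_left _ h
    · exact absurd h (Finset.notMem_empty _)
  have hnew : ∀ q ∈ primesOf (Smin ∪ Finset.univ.image qv), q ∉ primesOf (Smin ∪ ∅) →
      (q : ℕ) ∈ Finset.univ.image qv := by
    intro q hq hq0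
    rw [mem_primesOf] at hq hq0
    rcases Finset.mem_union.1 hq with h | h
    · exact absurd (Finset.mem_union_left _ h) hq0
    · exact h
  have hdual0 : ∀ ξ ∈ selmerAdm (extArithLoc (primesOf (Smin ∪ Finset.univ.image qv)))
      (tateDual p (ad0 ρbar))
      (dualConditions (extArithLoc (primesOf (Smin ∪ Finset.univ.image qv))) (ad0 ρbar)
        (tateDual p (ad0 ρbar)) (P.fam (primesOf (Smin ∪ Finset.univ.image qv)))
        (condFam (ad0 ρbar) Wall (primesOf (Smin ∪ Finset.univ.image qv))))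
      (continuousH1S (primesOf (Smin ∪ Finset.univ.image qv)) (tateDual p (ad0 ρbar))),
      ξ = 0 := by
    intro ξ hξ
    obtain ⟨hξ1, hξ2⟩ := (mem_dualSelmer_condFam_iff (ad0 ρbar) P Wall _ _ ξ).1 hξ
    have hres0 : ∀ q : Nat.Primes, (q : ℕ) ∈ Finset.univ.image qv →
        resAt (tateDual p (ad0 ρbar)) q ξ = 0 := by
      intro q hq
      obtain ⟨hqS, -, hq1, hur, -⟩ := hT q hq
      have hqSg : q ∈ primesOf (Smin ∪ Finset.univ.image qv) :=
        mem_primesOf.2 (Finset.mem_union_right _ hq)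
      refine hperf q hq1 (hMur q hur) _ (res_contS _ _ q ξ hξ2) fun x hx => ?_
      exact hξ1 q hqSg x (by rw [hWall_out q hqS]; exact hx)
    have hξ3 : ξ ∈ continuousH1S (primesOf (Smin ∪ ∅)) (tateDual p (ad0 ρbar)) := by
      refine hunr (ResidueField 𝒪) (tateDual p (ad0 ρbar)) hM'sm _ _ hsub ?_ ξ hξ2 ?_
      · intro q hq hq0
        obtain ⟨-, hqp, -, hur, -⟩ := hT q (hnew q hq hq0)
        exact hM'ur q q.2 hqp (hMur q hur)
      · intro q hq hq0
        exact hres0 q (hnew q hq hq0)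
    have hξZ : ξ ∈ Z :=
      (mem_dualSelmer_condFam_iff (ad0 ρbar) P Wall _ _ ξ).2
        ⟨fun q hq x hx => hξ1 q (hsub hq) x hx, hξ3⟩
    exact hkill ξ hξZ fun q hq => hres0 q hq
  -- all classes lie in the Selmer group
  have hclassSel : ∀ (x : TSub 𝒪 ρbar (𝒟 (Finset.univ.image qv))) (ξ : H1 (ad0 ρbar)),
      IsClassOf x ξ →
      ξ ∈ selmerAdm (extArithLoc (primesOf (Smin ∪ Finset.univ.image qv))) (ad0 ρbar)
        (condFam (ad0 ρbar) Wall (primesOf (Smin ∪ Finset.univ.image qv)))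
        (continuousH1S (primesOf (Smin ∪ Finset.univ.image qv)) (ad0 ρbar)) := by
    intro x ξ hx
    have hcont : ξ ∈ continuousH1S (primesOf (Smin ∪ Finset.univ.image qv)) (ad0 ρbar) := by
      refine hdcont 𝒪 ρbar (𝒟 (Finset.univ.image qv)) _ x ξ ?_ hx
      intro q hq
      letI := dualNumberAlgebra 𝒪
      exact h𝒟unr _ x.1 x.2.1 q q.2 (fun h => hq (mem_primesOf.2 h))
    refine (mem_selmerAdm_condFam_iff _ _ _ _ ξ).2 ⟨hinf0 _, fun q hq => ?_, hcont⟩
    by_cases h : (q : ℕ) ∈ Smin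
    · exact hWall_class q h _ x ξ hx
    · rw [hWall_out q h]; exact res_contS _ _ q ξ hcont
  refine Dict.tangentLE_of_classes ρbar (𝒟 (Finset.univ.image qv)) _
    (hdex 𝒪 p ρbar (𝒟 (Finset.univ.image qv)) hyp.hp2 hyp.hp𝒪 hyp.hdet (h𝒟det _))
    (hdinj 𝒪 ρbar (𝒟 (Finset.univ.image qv))) _ (hGWT (Finset.univ.image qv)).finite_selmer
    hclassSel ?_
  -- the count
  have hle := (hGWT (Finset.univ.image qv)).le
  unfold greenbergWilesLeAdm at hle
  rw [sum_h0, sum_condFam] at hle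
  have hdualrank : finrank (ResidueField 𝒪)
      (selmerAdm (extArithLoc (primesOf (Smin ∪ Finset.univ.image qv)))
      (tateDual p (ad0 ρbar))
      (dualConditions (extArithLoc (primesOf (Smin ∪ Finset.univ.image qv))) (ad0 ρbar)
        (tateDual p (ad0 ρbar)) (P.fam (primesOf (Smin ∪ Finset.univ.image qv)))
        (condFam (ad0 ρbar) Wall (primesOf (Smin ∪ Finset.univ.image qv))))
      (continuousH1S (primesOf (Smin ∪ Finset.univ.image qv)) (tateDual p (ad0 ρbar)))) = 0 := by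
    rw [(Submodule.eq_bot_iff _).2 hdual0]; exact finrank_bot _ _
  rw [hdualrank, hh0, hh0', hinf1] at hle
  have h1 : ∀ q ∈ primesOf (Smin ∪ Finset.univ.image qv),
      finrank (ResidueField 𝒪) (Wall q) ≤
        finrank (ResidueField 𝒪) (locRep (ad0 ρbar) q).ρ.invariants +
          ((if (q : ℕ) = p then 1 else 0) + (if (q : ℕ) ∈ Finset.univ.image qv then 1 else 0)) := by
    intro q hq
    by_cases h : (q : ℕ) ∈ Smin
    · have := hWall_rank q h
      omega
    · have hqT : (q : ℕ) ∈ Finset.univ.image qv := by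
        rcases Finset.mem_union.1 (mem_primesOf.1 hq) with h' | h'
        · exact absurd h' h
        · exact h'
      obtain ⟨-, -, hq1, hur, hh⟩ := hT q hqT
      have := (hlocTW p q hq1 (ResidueField 𝒪) (ad0 ρbar) hMsm (hMur q hur)).2
      rw [hWall_out q h, if_pos hqT]
      rw [hh] at this ⊢
      omega
  have h2 : ∑ q ∈ primesOf (Smin ∪ Finset.univ.image qv), (if (q : ℕ) = p then 1 else 0) ≤ 1 := by
    rw [Finset.sum_boole]
    simp only [Nat.cast_id]
    refine Finset.card_le_one.2 fun a ha b hb => ?_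
    exact Subtype.ext ((Finset.mem_filter.1 ha).2.trans (Finset.mem_filter.1 hb).2.symm)
  have h3 : ∑ q ∈ primesOf (Smin ∪ Finset.univ.image qv),
      (if (q : ℕ) ∈ Finset.univ.image qv then 1 else 0) ≤ finrank (ResidueField 𝒪) Z := by
    rw [Finset.sum_boole]
    simp only [Nat.cast_id]
    calc _ ≤ (Finset.univ.image qv).card :=
          Finset.card_le_card_of_injOn (fun q : Nat.Primes => (q : ℕ))
            (fun q hq => (Finset.mem_filter.1 hq).2)
            (fun a _ b _ hab => Subtype.ext hab)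
      _ ≤ (Finset.univ : Finset (Fin (finrank (ResidueField 𝒪) Z))).card := Finset.card_image_le
      _ = finrank (ResidueField 𝒪) Z := by simp
  have h4 : ∑ q ∈ primesOf (Smin ∪ Finset.univ.image qv), finrank (ResidueField 𝒪) (Wall q) ≤
      ∑ q ∈ primesOf (Smin ∪ Finset.univ.image qv),
        finrank (ResidueField 𝒪) (locRep (ad0 ρbar) q).ρ.invariants +
        (1 + finrank (ResidueField 𝒪) Z) := by
    calc _ ≤ ∑ q ∈ primesOf (Smin ∪ Finset.univ.image qv),
          (finrank (ResidueField 𝒪) (locRep (ad0 ρbar) q).ρ.invariants +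
          ((if (q : ℕ) = p then 1 else 0) +
            (if (q : ℕ) ∈ Finset.univ.image qv then 1 else 0))) := Finset.sum_le_sum h1
      _ = _ + (_ + _) := by rw [Finset.sum_add_distrib, Finset.sum_add_distrib]
      _ ≤ _ := by gcongr
  omega

/-- **`Stmt_TW_SO` from the leaves.** -/
theorem stmt_TW_SO_of_leaves
    (hGW : Stmt_GW) (hTWsel : Stmt_TW_select) (hglob : Stmt_glob_h0) (hinf : Stmt_loc_inf)
    (hlocTW : Stmt_loc_TW) (hlocTWh0 : Stmt_loc_TW_h0) (hunr : Stmt_unr_of_res_zero)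
    (hdex : Stmt_dict_exists) (hdinj : Stmt_dict_inj) (hdcont : Stmt_dict_cont)
    (had0 : Stmt_ad0_basic) (htate : Stmt_tate_basic)
    (hlocp : Stmt_loc_p_SO) (hlocmin : Stmt_loc_min) : Stmt_TW_SO := by
  intro 𝒪 _ _ _ _ _ p _ ρbar S Smin hyp
  refine assembly_core hGW hTWsel hglob hinf hlocTW hlocTWh0 hunr hdex hdinj hdcont had0 htate
    p ρbar S Smin hyp (condSO 𝒪 p Smin) ?_ ?_ ?_
  · intro T A _ _ _ ρ h
    exact h.1.1
  · intro T A _ _ _ ρ h q hq hqS
    exact h.1.2.2 q hq hqS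
  · intro q hq
    by_cases h : (q : ℕ) = p
    · rw [if_pos h]
      have hqp : q = pPrime p := Subtype.ext h
      rw [hqp]
      exact hlocp 𝒪 p ρbar S Smin hyp
    · rw [if_neg h]
      exact (hlocmin 𝒪 p ρbar S Smin hyp q hq h).1

/-- **`Stmt_TW_Fl` from the leaves.** -/
theorem stmt_TW_Fl_of_leaves
    (hGW : Stmt_GW) (hTWsel : Stmt_TW_select) (hglob : Stmt_glob_h0) (hinf : Stmt_loc_inf)
    (hlocTW : Stmt_loc_TW) (hlocTWh0 : Stmt_loc_TW_h0) (hunr : Stmt_unr_of_res_zero)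
    (hdex : Stmt_dict_exists) (hdinj : Stmt_dict_inj) (hdcont : Stmt_dict_cont)
    (had0 : Stmt_ad0_basic) (htate : Stmt_tate_basic)
    (hlocp : Stmt_loc_p_Fl) (hlocmin : Stmt_loc_min) : Stmt_TW_Fl := by
  intro 𝒪 _ _ _ _ _ p _ ρbar S Smin hyp
  refine assembly_core hGW hTWsel hglob hinf hlocTW hlocTWh0 hunr hdex hdinj hdcont had0 htate
    p ρbar S Smin hyp (condFl 𝒪 p Smin) ?_ ?_ ?_
  · intro T A _ _ _ ρ h
    exact h.1.1
  · intro T A _ _ _ ρ h q hq hqS
    exact h.1.2.2 q hq hqS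
  · intro q hq
    by_cases h : (q : ℕ) = p
    · rw [if_pos h]
      have hqp : q = pPrime p := Subtype.ext h
      rw [hqp]
      exact hlocp 𝒪 p ρbar S Smin hyp
    · rw [if_neg h]
      exact (hlocmin 𝒪 p ρbar S Smin hyp q hq h).2

end Assembly

end Fermat.Agent.S56

end
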