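import Fermat.Agent.S56.LeavesNT
import Fermat.Agent.Lib.LocalGlobalDense
import Fermat.Agent.Lib.InertiaConj

/-!
# Cluster T / S56, leaf UNR (helper13): `Stmt_unr_of_res_zero`

A continuous class unramified outside `Sg'` which is locally trivial at the primes of
`Sg' \ Sg`, where `M` is unramified, is unramified outside `Sg`.
-/

set_option autoImplicit false
set_option linter.unusedSectionVars false
set_option linter.style.haveILetI false
set_option linter.unusedVariables false

noncomputable section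

namespace Fermat.Agent.S56.H13

open CategoryTheory groupCohomology ExtCitation Fermat.Agent.S56

section Cocycle

variable {k : Type} [Field k] {M : Rep k GQ}

theorem cocycle_mul (c : cocycles₁ M) (g h : GQ) : c (g * h) = M.ρ g (c h) + c g :=
  (mem_cocycles₁_iff (c : GQ → M)).mp c.2 g h

theorem cocycle_inv (c : cocycles₁ M) (g : GQ) : c g⁻¹ = - M.ρ g⁻¹ (c g) := by
  have h := cocycle_mul c g⁻¹ g
  rw [inv_mul_cancel, cocycles₁_map_one] at h
  rw [eq_neg_iff_add_eq_zero, add_comm]
  exact h.symm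

/-- The zero set of a cocycle is a subgroup. -/
def zeroSubgroup (c : cocycles₁ M) : Subgroup GQ where
  carrier := {s | c s = 0}
  one_mem' := cocycles₁_map_one c
  mul_mem' := fun {a b} ha hb => by
    show c (a * b) = 0
    rw [cocycle_mul, show c b = 0 from hb, show c a = 0 from ha, map_zero, add_zero]
  inv_mem' := fun {a} ha => by
    show c a⁻¹ = 0
    rw [cocycle_inv, show c a = 0 from ha, map_zero, neg_zero]

theorem mem_zeroSubgroup (c : cocycles₁ M) (s : GQ) : s ∈ zeroSubgroup c ↔ c s = 0 := Iff.rfl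

/-- Local triviality gives a coboundary on the local Galois group. -/
theorem exists_coboundary (c : cocycles₁ M) (q : Nat.Primes)
    (h : resAt M q ((H1π M).hom c) = 0) :
    ∃ m : M, ∀ t : primeLocalGaloisGroup q,
      c (primeLocalToGlobal q t) = M.ρ (primeLocalToGlobal q t) m - m := by
  unfold resAt at h
  have h1 := H1π_comp_map_apply (primeLocalToGlobal q)
    (𝟙 (Rep.res (primeLocalToGlobal q) M)) c
  rw [h1] at h
  rw [H1π_eq_zero_iff] at h
  obtain ⟨m, hm⟩ := h
  refine ⟨m, fun t => ?_⟩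
  exact (congrFun hm t).symm

end Cocycle

section Place

open Fermat.Agent.Lib.LocalGlobalDense

/-- The distinguished place over `q` lies over `q`. -/
theorem primeLocalPlace_liesOver (q : Nat.Primes) :
    (primeLocalPlace q).LiesOverPrime (q : ℕ) := by
  haveI : Fact (q : ℕ).Prime := ⟨q.2⟩
  show ((q : ℕ) : AlgebraicClosure ℚ) ∈ (padicPlace (q : ℕ)).nonunits
  rw [ValuationSubring.mem_nonunits_iff_or]
  right
  rw [← absQ_le_one_iff, map_inv₀, absQ_natCast_self, inv_inv, not_le]
  exact_mod_cast q.2.one_lt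

end Place

section Vanish

open Fermat.Agent.Lib.LocalGlobalDense Fermat.Agent.Lib.InertiaConj

variable {k : Type} [Field k] {M : Rep k GQ}

/-- A cocycle which is trivial on an open subgroup and a coboundary on the local Galois group
at `q` vanishes on the distinguished inertia group at `q` when `M` is unramified at `q`. -/
theorem cocycle_eq_zero_of_mem_inertia₀ (hsm : IsSmoothRep M) (c : cocycles₁ M)
    (F : IntermediateField ℚ (AlgebraicClosure ℚ)) (hFfin : FiniteDimensional ℚ F)
    (hF : ∀ s ∈ F.fixingSubgroup, c s = 0) (q : Nat.Primes)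
    (hur : IsUnramifiedRepAt M (q : ℕ))
    (hloc : resAt M q ((H1π M).hom c) = 0) (s : GQ)
    (hs : s ∈ (primeLocalPlace q).inertiaSubgroupIn ℚ) : c s = 0 := by
  haveI : Fact (q : ℕ).Prime := ⟨q.2⟩
  obtain ⟨m, hm⟩ := exists_coboundary c q hloc
  obtain ⟨Fm, hFmfin, hFm⟩ := hsm m
  haveI := hFfin
  haveI := hFmfin
  haveI : FiniteDimensional ℚ (F ⊔ Fm : IntermediateField ℚ (AlgebraicClosure ℚ)) :=
    IntermediateField.finiteDimensional_sup F Fm
  have hsD : s ∈ (padicPlace (q : ℕ)).decompositionSubgroup ℚ := by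
    obtain ⟨t, ht, rfl⟩ := hs
    exact t.2
  obtain ⟨τ, hτ⟩ := exists_local_lift_field (q : ℕ) s hsD (F ⊔ Fm)
  -- `h := (loc τ)⁻¹ * s` fixes `F ⊔ Fm`
  obtain ⟨g, hg⟩ : ∃ g : GQ, g = localGaloisToGlobal (q : ℕ) τ := ⟨_, rfl⟩
  have hgloc : g = primeLocalToGlobal q τ := hg
  have hh : g⁻¹ * s ∈ (F ⊔ Fm).fixingSubgroup := by
    rw [IntermediateField.mem_fixingSubgroup_iff]
    intro x hx
    show g⁻¹ (s x) = x
    rw [← hτ x hx, ← hg]
    exact AlgEquiv.symm_apply_apply g x
  have hhF : g⁻¹ * s ∈ F.fixingSubgroup :=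
    IntermediateField.fixingSubgroup_antitone le_sup_left hh
  have hhFm : g⁻¹ * s ∈ Fm.fixingSubgroup :=
    IntermediateField.fixingSubgroup_antitone le_sup_right hh
  have hs_eq : s = g * (g⁻¹ * s) := by group
  have hρs : M.ρ s = 1 := hur (primeLocalPlace q) (primeLocalPlace_liesOver q) s hs
  have hgm : M.ρ g m = m := by
    have h1 : M.ρ s m = m := by rw [hρs]; rfl
    have h2 : M.ρ (g⁻¹ * s) m = m := hFm _ hhFm
    have h3 : M.ρ s m = M.ρ g (M.ρ (g⁻¹ * s) m) := by
      conv_lhs => rw [hs_eq]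
      rw [map_mul]
      rfl
    rw [h2, h1] at h3
    exact h3.symm
  rw [hs_eq, cocycle_mul, hF _ hhF, map_zero, zero_add, hgloc, hm τ, ← hgloc, hgm, sub_self]

/-- The same for every inertia group above `q`. -/
theorem cocycle_eq_zero_of_mem_inertia (hsm : IsSmoothRep M) (c : cocycles₁ M)
    (F : IntermediateField ℚ (AlgebraicClosure ℚ)) (hFfin : FiniteDimensional ℚ F)
    (hF : ∀ s ∈ F.fixingSubgroup, c s = 0) (q : Nat.Primes)
    (hur : IsUnramifiedRepAt M (q : ℕ))
    (hloc : resAt M q ((H1π M).hom c) = 0)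
    (A : ValuationSubring (AlgebraicClosure ℚ)) (hA : A.LiesOverPrime (q : ℕ)) (s : GQ)
    (hs : s ∈ A.inertiaSubgroupIn ℚ) : c s = 0 := by
  obtain ⟨g, hg⟩ := exists_conj_mem_inertia (q : ℕ) q.2 (primeLocalPlace q) A
    (primeLocalPlace_liesOver q) hA
  have hs₀ := (hg s).mp hs
  have hc₀ := cocycle_eq_zero_of_mem_inertia₀ hsm c F hFfin hF q hur hloc _ hs₀
  have hρ₀ : M.ρ (g⁻¹ * s * g) = 1 :=
    hur (primeLocalPlace q) (primeLocalPlace_liesOver q) _ hs₀
  have hs_eq : s = g * ((g⁻¹ * s * g) * g⁻¹) := by group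
  have h1 : c ((g⁻¹ * s * g) * g⁻¹) = c g⁻¹ := by
    rw [cocycle_mul, hc₀, add_zero, hρ₀]
    rfl
  rw [hs_eq, cocycle_mul, h1, ← cocycle_mul, mul_inv_cancel, cocycles₁_map_one]

end Vanish

theorem qbar_isGalois13 : IsGalois ℚ (AlgebraicClosure ℚ) :=
  letI : Algebra.IsAlgebraic ℚ (AlgebraicClosure ℚ) := AlgebraicClosure.isAlgebraic ℚ
  letI : IsAlgClosure ℚ (AlgebraicClosure ℚ) := ⟨inferInstance, inferInstance⟩
  inferInstance

/-- **Leaf UNR.** -/
theorem stmt_unr_of_res_zero : Stmt_unr_of_res_zero := by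
  intro k _ _ M _ hsm Sg Sg' hle hur ξ hξ hloc
  haveI := qbar_isGalois13
  obtain ⟨c, ⟨F, hFunr, hFc⟩, rfl⟩ := (mem_continuousH1S_iff Sg' M ξ).mp hξ
  haveI : FiniteDimensional ℚ F := hFunr.1
  have hF0 : ∀ s ∈ F.fixingSubgroup, c s = 0 := fun s hs => by
    have := hFc 1 s hs
    rw [one_mul, cocycles₁_map_one] at this
    exact this
  have hFZ : F.fixingSubgroup ≤ zeroSubgroup c := hF0
  have hZopen : IsOpen (zeroSubgroup c : Set GQ) :=
    Subgroup.isOpen_mono hFZ (IntermediateField.fixingSubgroup_isOpen F)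
  have hZclosed : IsClosed (zeroSubgroup c : Set GQ) := Subgroup.isClosed_of_isOpen _ hZopen
  have hZfix : (IntermediateField.fixedField (zeroSubgroup c)).fixingSubgroup = zeroSubgroup c :=
    InfiniteGalois.fixingSubgroup_fixedField ⟨zeroSubgroup c, hZclosed⟩
  have hF'F : IntermediateField.fixedField (zeroSubgroup c) ≤ F := by
    have h1 := IntermediateField.fixedField_antitone hFZ
    rw [InfiniteGalois.fixedField_fixingSubgroup] at h1
    exact h1
  rw [mem_continuousH1S_iff]
  refine ⟨c, ⟨IntermediateField.fixedField (zeroSubgroup c), ⟨?_, ?_⟩, ?_⟩, rfl⟩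
  · exact FiniteDimensional.of_injective (IntermediateField.inclusion hF'F).toLinearMap
      (IntermediateField.inclusion_injective hF'F)
  · intro q hq A hA s hs
    rw [hZfix, mem_zeroSubgroup]
    by_cases hq' : q ∈ Sg'
    · exact cocycle_eq_zero_of_mem_inertia hsm c F hFunr.1 hF0 q (hur q hq' hq)
        (hloc q hq' hq) A hA s hs
    · exact hF0 s (hFunr.2 q hq' A hA hs)
  · intro g s hs
    rw [hZfix, mem_zeroSubgroup] at hs
    rw [cocycle_mul, hs, map_zero, zero_add]

end Fermat.Agent.S56.H13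

end
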