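/-
Cluster T / S56, leaf T-S-SO (helper92): the strict-ordinary deformation condition `condSO` is
stable under base change along ANY local homomorphism; in particular `Stmt_stable_SO`.

General base-change lemmas for `GaloisRepAdic.baseChangeAlong`:
* `detIsCyclotomic_baseChangeAlong`
* `isUnramifiedAt_baseChangeAlong`
* `isUnipotentOnInertiaAt_baseChangeAlong`
* `isStrictOrdinaryAt_baseChangeAlong`
* `condSO_baseChangeAlong`
-/
import Fermat.Agent.S56.Leaves

set_option autoImplicit false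
set_option linter.unusedSectionVars false
set_option linter.style.haveILetI false

noncomputable section

namespace Fermat.Agent.S56.H92

open Polynomial IsLocalRing TensorProduct

variable {A B : Type} [CommRing A] [IsLocalRing A] [CommRing B] [IsLocalRing B]

/-- A local homomorphism maps the maximal ideal into the maximal ideal. -/
theorem map_mem_maximalIdeal (φ : A →+* B) (hφ : IsLocalHom φ) {a : A}
    (ha : a ∈ maximalIdeal A) : φ a ∈ maximalIdeal B :=
  haveI := hφ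
  map_nonunit φ a ha

/-- A ring homomorphism maps `span {n}` into `span {n}` for a natural number `n`. -/
theorem map_mem_span_natCast (φ : A →+* B) {n : ℕ} {a : A}
    (ha : a ∈ Ideal.span {((n : ℕ) : A)}) : φ a ∈ Ideal.span {((n : ℕ) : B)} := by
  obtain ⟨c, rfl⟩ := Ideal.mem_span_singleton'.1 ha
  rw [map_mul, map_natCast]
  exact Ideal.mem_span_singleton'.2 ⟨φ c, rfl⟩

theorem baseChangeAlong_ρ_apply (φ : A →+* B) (hφ : IsLocalHom φ) (ρ : GaloisRepAdic A)
    (σ : AlgebraicClosure ℚ ≃ₐ[ℚ] AlgebraicClosure ℚ) :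
    letI : Algebra A B := φ.toAlgebra
    (ρ.baseChangeAlong φ hφ).ρ σ = (ρ.ρ σ).baseChange B := rfl

theorem detIsCyclotomic_baseChangeAlong (φ : A →+* B) (hφ : IsLocalHom φ) (ρ : GaloisRepAdic A)
    (p : ℕ) (h : ρ.DetIsCyclotomic p) : (ρ.baseChangeAlong φ hφ).DetIsCyclotomic p := by
  letI : Algebra A B := φ.toAlgebra
  refine ⟨?_, fun n σ a hσ => ?_⟩
  · have := map_mem_maximalIdeal φ hφ h.1
    rwa [map_natCast] at this
  · have h1 := map_mem_span_natCast φ (h.2 n σ a hσ)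
    rw [map_sub, map_natCast] at h1
    have h2 : LinearMap.det ((ρ.baseChangeAlong φ hφ).ρ σ) = φ (LinearMap.det (ρ.ρ σ)) :=
      LinearMap.det_baseChange (A := B) (ρ.ρ σ)
    rw [h2]
    exact h1

theorem isUnramifiedAt_baseChangeAlong (φ : A →+* B) (hφ : IsLocalHom φ) (ρ : GaloisRepAdic A)
    (q : ℕ) (h : ρ.IsUnramifiedAt q) : (ρ.baseChangeAlong φ hφ).IsUnramifiedAt q := by
  letI : Algebra A B := φ.toAlgebra
  intro P hP σ hσ
  have h1 : (ρ.baseChangeAlong φ hφ).ρ σ = (ρ.ρ σ).baseChange B := rfl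
  rw [h1, h P hP σ hσ]
  exact LinearMap.baseChange_one (R := A) (A := B) (M := ρ.V)

theorem isUnipotentOnInertiaAt_baseChangeAlong (φ : A →+* B) (hφ : IsLocalHom φ)
    (ρ : GaloisRepAdic A) (q : ℕ) (h : ρ.IsUnipotentOnInertiaAt q) :
    (ρ.baseChangeAlong φ hφ).IsUnipotentOnInertiaAt q := by
  letI : Algebra A B := φ.toAlgebra
  intro P hP σ hσ
  have h1 : LinearMap.charpoly ((ρ.baseChangeAlong φ hφ).ρ σ)
      = (LinearMap.charpoly (ρ.ρ σ)).map (algebraMap A B) :=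
    LinearMap.charpoly_baseChange (A := B) (ρ.ρ σ)
  rw [h1, h P hP σ hσ]
  simp

/-- `c ⊗ (a • v) = (c * φ a) • (1 ⊗ v)` in `B ⊗[A] V`, `B` an `A`-algebra via `φ`. -/
theorem tmul_smul_eq (φ : A →+* B) {V : Type} [AddCommGroup V] [Module A V] (c : B) (a : A)
    (v : V) :
    letI : Algebra A B := φ.toAlgebra
    c ⊗ₜ[A] (a • v) = (c * φ a) • ((1 : B) ⊗ₜ[A] v) := by
  letI : Algebra A B := φ.toAlgebra
  rw [TensorProduct.smul_tmul', smul_eq_mul, mul_one, TensorProduct.tmul_smul,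
    TensorProduct.smul_tmul', Algebra.smul_def, mul_comm]
  rfl

/-- If `u ∈ A ∙ v` then `c ⊗ u ∈ B ∙ (1 ⊗ v)`. -/
theorem tmul_mem_span (φ : A →+* B) {V : Type} [AddCommGroup V] [Module A V] (c : B) {u v : V}
    (hu : u ∈ Submodule.span A {v}) :
    letI : Algebra A B := φ.toAlgebra
    c ⊗ₜ[A] u ∈ Submodule.span B {(1 : B) ⊗ₜ[A] v} := by
  letI : Algebra A B := φ.toAlgebra
  obtain ⟨a, rfl⟩ := Submodule.mem_span_singleton.1 hu
  rw [tmul_smul_eq φ c a v]
  exact Submodule.smul_mem _ _ (Submodule.mem_span_singleton_self _)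

/-- Core of the strict-ordinary base change, stated on `B ⊗[A] V` directly. -/
theorem strictOrdinary_core (φ : A →+* B) (ρ : GaloisRepAdic A) (p : ℕ)
    (P : ValuationSubring (AlgebraicClosure ℚ))
    (h : ∃ L : Submodule A ρ.V,
      (∃ b : Module.Basis (Fin 2) A ρ.V, L = A ∙ b 0) ∧
      (∀ σ ∈ P.decompositionSubgroup ℚ, ∀ v ∈ L, ρ.ρ σ v ∈ L) ∧
      (∀ σ ∈ P.inertiaSubgroupIn ℚ, ∀ v : ρ.V, ρ.ρ σ v - v ∈ L) ∧
      (∀ σ ∈ P.decompositionSubgroup ℚ, ∃ x z : A,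
        (∀ w ∈ L, ρ.ρ σ w = x • w) ∧ (∀ v : ρ.V, ρ.ρ σ v - z • v ∈ L) ∧
        ∀ (n a : ℕ), (∀ μ : AlgebraicClosure ℚ, μ ^ p ^ n = 1 → σ μ = μ ^ a) →
          x - (a : A) * z ∈ Ideal.span {((p ^ n : ℕ) : A)})) :
    letI : Algebra A B := φ.toAlgebra
    ∃ L : Submodule B (B ⊗[A] ρ.V),
      (∃ b : Module.Basis (Fin 2) B (B ⊗[A] ρ.V), L = B ∙ b 0) ∧
      (∀ σ ∈ P.decompositionSubgroup ℚ, ∀ v ∈ L, (ρ.ρ σ).baseChange B v ∈ L) ∧
      (∀ σ ∈ P.inertiaSubgroupIn ℚ, ∀ v : B ⊗[A] ρ.V, (ρ.ρ σ).baseChange B v - v ∈ L) ∧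
      (∀ σ ∈ P.decompositionSubgroup ℚ, ∃ x z : B,
        (∀ w ∈ L, (ρ.ρ σ).baseChange B w = x • w) ∧
        (∀ v : B ⊗[A] ρ.V, (ρ.ρ σ).baseChange B v - z • v ∈ L) ∧
        ∀ (n a : ℕ), (∀ μ : AlgebraicClosure ℚ, μ ^ p ^ n = 1 → σ μ = μ ^ a) →
          x - (a : B) * z ∈ Ideal.span {((p ^ n : ℕ) : B)}) := by
  letI : Algebra A B := φ.toAlgebra
  obtain ⟨L, ⟨b, hb⟩, hD, hI, hxz⟩ := h
  have hb0 : b 0 ∈ L := by rw [hb]; exact Submodule.mem_span_singleton_self _
  refine ⟨Submodule.span B {(1 : B) ⊗ₜ[A] b 0}, ⟨b.baseChange B, ?_⟩, ?_, ?_, ?_⟩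
  · rw [Module.Basis.baseChange_apply]
  · intro σ hσ v hv
    obtain ⟨c, rfl⟩ := Submodule.mem_span_singleton.1 hv
    rw [map_smul, LinearMap.baseChange_tmul]
    refine Submodule.smul_mem _ _ ?_
    have := hD σ hσ (b 0) hb0
    rw [hb] at this
    exact tmul_mem_span φ 1 this
  · intro σ hσ v
    induction v using TensorProduct.induction_on with
    | zero => rw [LinearMap.map_zero, sub_zero]; exact Submodule.zero_mem _
    | tmul c v =>
      rw [LinearMap.baseChange_tmul, ← TensorProduct.tmul_sub]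
      have := hI σ hσ v
      rw [hb] at this
      exact tmul_mem_span φ c this
    | add x y hx hy =>
      rw [map_add, add_sub_add_comm]
      exact Submodule.add_mem _ hx hy
  · intro σ hσ
    obtain ⟨x, z, hx, hz, hxz'⟩ := hxz σ hσ
    refine ⟨φ x, φ z, ?_, ?_, ?_⟩
    · intro w hw
      obtain ⟨c, rfl⟩ := Submodule.mem_span_singleton.1 hw
      rw [map_smul, LinearMap.baseChange_tmul, hx (b 0) hb0, tmul_smul_eq φ 1 x (b 0), one_mul,
        smul_comm]
    · intro v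
      induction v using TensorProduct.induction_on with
      | zero => rw [LinearMap.map_zero, smul_zero, sub_zero]; exact Submodule.zero_mem _
      | tmul c v =>
        have h1 : (φ z) • (c ⊗ₜ[A] v : B ⊗[A] ρ.V) = c ⊗ₜ[A] (z • v) := by
          rw [tmul_smul_eq φ c z v, TensorProduct.smul_tmul', TensorProduct.smul_tmul',
            smul_eq_mul, smul_eq_mul, mul_one, mul_comm]
        rw [LinearMap.baseChange_tmul, h1, ← TensorProduct.tmul_sub]
        have := hz v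
        rw [hb] at this
        exact tmul_mem_span φ c this
      | add x' y' hx' hy' =>
        rw [map_add, smul_add, add_sub_add_comm]
        exact Submodule.add_mem _ hx' hy'
    · intro n a ha
      have := map_mem_span_natCast φ (hxz' n a ha)
      rwa [map_sub, map_mul, map_natCast] at this

theorem isStrictOrdinaryAt_baseChangeAlong (φ : A →+* B) (hφ : IsLocalHom φ)
    (ρ : GaloisRepAdic A) (p : ℕ) (h : ρ.IsStrictOrdinaryAt p) :
    (ρ.baseChangeAlong φ hφ).IsStrictOrdinaryAt p := by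
  refine ⟨?_, fun P hP => ?_⟩
  · have := map_mem_maximalIdeal φ hφ h.1
    rwa [map_natCast] at this
  · exact strictOrdinary_core φ ρ p P (h.2 P hP)

/-- **`condSO` is stable under base change along any local homomorphism.** -/
theorem condSO_baseChangeAlong (𝒪 : Type) [CommRing 𝒪] [Algebra 𝒪 A] [Algebra 𝒪 B]
    (p : ℕ) (Smin T : Finset ℕ) (φ : A →+* B) (hφ : IsLocalHom φ) (ρ : GaloisRepAdic A)
    (h : condSO 𝒪 p Smin T ρ) : condSO 𝒪 p Smin T (ρ.baseChangeAlong φ hφ) := by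
  obtain ⟨⟨h1, h2, h3⟩, h4⟩ := h
  exact ⟨⟨detIsCyclotomic_baseChangeAlong φ hφ ρ p h1,
    isStrictOrdinaryAt_baseChangeAlong φ hφ ρ p h2,
    fun q hq hqS => isUnramifiedAt_baseChangeAlong φ hφ ρ q (h3 q hq hqS)⟩,
    fun q hq hqp hne => isUnipotentOnInertiaAt_baseChangeAlong φ hφ ρ q (h4 q hq hqp hne)⟩

/-- **Leaf T-S-SO.** -/
theorem stmt_stable_SO : Fermat.Agent.S56.Stmt_stable_SO := by
  intro 𝒪 _ _ _ _ _ p _ Smin T
  letI := Fermat.Agent.S53.dualNumberAlgebra 𝒪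
  intro R _ _ _ _ _ _ _ ρ hρ φ hφ
  exact condSO_baseChangeAlong 𝒪 p Smin T (φ : R →+* DualNumber (ResidueField 𝒪)) hφ ρ hρ

end Fermat.Agent.S56.H92

end
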