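import Fermat.Agent.S56.LeavesNT

/-!
# Cluster T / S56, leaf LOC-inf (helper13): `Stmt_loc_inf`

At the real place: `H¹(G_ℝ, ad⁰ ρbar) = 0` (`p` odd, `G_ℝ` of order `≤ 2`) and
`h⁰(G_ℝ, ad⁰ ρbar) = 1` (`ρbar` is odd because its determinant is cyclotomic, so complex
conjugation acts on `V` as an involution `C` of determinant `-1`, and the trace-zero
endomorphisms commuting with `C` are the multiples of `C`).
-/

set_option autoImplicit false
set_option linter.unusedSectionVars false
set_option linter.style.haveILetI false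
set_option linter.unusedVariables false

noncomputable section

namespace Fermat.Agent.S56.H13

open CategoryTheory groupCohomology ExtCitation Fermat.Agent.S56 Module IsLocalRing

/-! ### Complex conjugation and the cyclotomic character -/

/-- Complex conjugation inverts roots of unity. -/
theorem complexConjugation_root (n : ℕ) (hn : 0 < n) (μ : AlgebraicClosure ℚ) (h : μ ^ n = 1) :
    complexConjugation μ = μ ^ (n - 1) := by
  have hinj : Function.Injective complexEmbedding := complexEmbedding.toRingHom.injective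
  apply hinj
  rw [complexEmbedding_complexConjugation, map_pow]
  set z := complexEmbedding μ with hz
  have hzn : z ^ n = 1 := by rw [hz, ← map_pow, h, map_one]
  have hz0 : z ≠ 0 := by
    rintro h0
    rw [h0, zero_pow hn.ne'] at hzn
    exact zero_ne_one hzn
  have hnorm : ‖z‖ = 1 := Complex.norm_eq_one_of_pow_eq_one hzn hn.ne'
  have h1 : (starRingEnd ℂ) z * z = 1 := by
    rw [Complex.conj_mul', hnorm]; simp
  have h2 : z ^ (n - 1) * z = 1 := by
    rw [← pow_succ, Nat.sub_add_cancel hn, hzn]
  exact mul_right_cancel₀ hz0 (h1.trans h2.symm)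

/-- `ρbar` is odd: the determinant of complex conjugation is `-1`. -/
theorem det_complexConjugation {k : Type} [Field k] (p : ℕ) [Fact p.Prime]
    (ρbar : ResidualGaloisRep k)
    (hdet : (GaloisRepAdic.ofResidualGaloisRep ρbar).DetIsCyclotomic p) :
    LinearMap.det (ρbar.ρ complexConjugation) = -1 := by
  have hp : p.Prime := Fact.out
  obtain ⟨hpk, h⟩ := hdet
  rw [IsLocalRing.maximalIdeal_eq_bot, Ideal.mem_bot] at hpk
  have h1 := h 1 complexConjugation (p - 1) (fun μ hμ => by
    rw [pow_one] at hμ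
    exact complexConjugation_root p hp.pos μ hμ)
  rw [pow_one, hpk, Ideal.span_singleton_zero, Ideal.mem_bot, sub_eq_zero] at h1
  have h2 : ((p - 1 : ℕ) : k) = -1 := by
    rw [Nat.cast_sub hp.one_le, hpk]; simp
  rw [← h2]
  exact h1

/-- In a field where the odd prime `p` vanishes, `2` is invertible. -/
theorem two_ne_zero_of {k : Type} [Field k] (p : ℕ) [Fact p.Prime] (hp2 : p ≠ 2)
    (hpk : (p : k) = 0) : (2 : k) ≠ 0 := by
  have hp : p.Prime := Fact.out
  haveI : CharP k p := (CharP.charP_iff_prime_eq_zero hp).mpr hpk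
  intro h2
  have h3 : ((2 : ℕ) : k) = 0 := by exact_mod_cast h2
  rw [CharP.cast_eq_zero_iff k p] at h3
  exact hp2 ((Nat.prime_dvd_prime_iff_eq hp Nat.prime_two).mp h3)

/-! ### The group `G_ℝ` has order at most two -/

theorem archimedean_cases (g : archimedeanDecomposition) : g = 1 ∨ g = archimedeanGen := by
  obtain ⟨g, hg⟩ := g
  obtain ⟨n, rfl⟩ := Subgroup.mem_zpowers_iff.mp hg
  rcases Int.even_or_odd' n with ⟨m, rfl | rfl⟩
  · left
    apply Subtype.ext
    show complexConjugation ^ (2 * m) = 1
    rw [zpow_mul, zpow_ofNat, complexConjugation_sq, one_zpow]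
  · right
    apply Subtype.ext
    show complexConjugation ^ (2 * m + 1) = complexConjugation
    rw [zpow_add, zpow_mul, zpow_ofNat, complexConjugation_sq, one_zpow, one_mul, zpow_one]

theorem archimedeanGen_mul_self : archimedeanGen * archimedeanGen = 1 :=
  Subtype.ext complexConjugation_mul_self

/-- `H¹(G_ℝ, A) = 0` for every representation of `G_ℝ` over a field in which `2 ≠ 0`. -/
theorem H1_archimedean_eq_zero {k : Type} [Field k] (h2 : (2 : k) ≠ 0)
    (A : Rep k archimedeanDecomposition) (ξ : H1 A) : ξ = 0 := by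
  induction ξ using H1_induction_on with
  | h x =>
    rw [H1π_eq_zero_iff]
    have hcoc := (mem_cocycles₁_iff (x : archimedeanDecomposition → A)).mp x.2
      archimedeanGen archimedeanGen
    rw [archimedeanGen_mul_self, cocycles₁_map_one] at hcoc
    have hc : A.ρ archimedeanGen (x archimedeanGen) = - x archimedeanGen := by
      rw [eq_neg_iff_add_eq_zero]; exact hcoc.symm
    refine ⟨-((2 : k)⁻¹ • x archimedeanGen), ?_⟩
    funext g
    rw [d₀₁_hom_apply]
    rcases archimedean_cases g with rfl | rfl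
    · rw [cocycles₁_map_one, map_one]
      exact sub_self _
    · rw [map_neg, map_smul, hc, smul_neg, neg_neg, sub_neg_eq_add, ← add_smul,
        ← two_mul, mul_inv_cancel₀ h2, one_smul]

/-! ### Linear algebra of an involution of determinant `-1` in dimension two -/

theorem matrix_involution_facts {k : Type} [Field k] (C : Matrix (Fin 2) (Fin 2) k)
    (hC : C * C = 1) (hdet : C.det = -1) :
    C 0 0 + C 1 1 = 0 ∧ C 0 0 * C 0 0 + C 0 1 * C 1 0 = 1 := by
  have h11 : C 0 0 * C 0 0 + C 0 1 * C 1 0 = 1 := by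
    have := congrFun (congrFun hC 0) 0
    simpa [Matrix.mul_apply, Fin.sum_univ_two] using this
  have h22 : C 1 0 * C 0 1 + C 1 1 * C 1 1 = 1 := by
    have := congrFun (congrFun hC 1) 1
    simpa [Matrix.mul_apply, Fin.sum_univ_two] using this
  rw [Matrix.det_fin_two] at hdet
  refine ⟨?_, h11⟩
  have hsq : (C 0 0 + C 1 1) ^ 2 = 0 := by
    linear_combination h11 + h22 + 2 * hdet
  exact pow_eq_zero_iff (two_ne_zero) |>.mp hsq

theorem matrix_key {k : Type} [Field k] (h2 : (2 : k) ≠ 0) (C F : Matrix (Fin 2) (Fin 2) k)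
    (hC : C * C = 1) (hdet : C.det = -1) (htr : F.trace = 0) (hcomm : C * F = F * C) :
    ∃ t : k, F = t • C := by
  obtain ⟨hd, h11⟩ := matrix_involution_facts C hC hdet
  have hd' : C 1 1 = - C 0 0 := by linear_combination hd
  rw [Matrix.trace_fin_two] at htr
  have hw : F 1 1 = - F 0 0 := by linear_combination htr
  have k12 : C 0 0 * F 0 1 + C 0 1 * F 1 1 = F 0 0 * C 0 1 + F 0 1 * C 1 1 := by
    have := congrFun (congrFun hcomm 0) 1
    simpa [Matrix.mul_apply, Fin.sum_univ_two] using this
  have k21 : C 1 0 * F 0 0 + C 1 1 * F 1 0 = F 1 0 * C 0 0 + F 1 1 * C 1 0 := by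
    have := congrFun (congrFun hcomm 1) 0
    simpa [Matrix.mul_apply, Fin.sum_univ_two] using this
  have k11 : C 0 0 * F 0 0 + C 0 1 * F 1 0 = F 0 0 * C 0 0 + F 0 1 * C 1 0 := by
    have := congrFun (congrFun hcomm 0) 0
    simpa [Matrix.mul_apply, Fin.sum_univ_two] using this
  rw [hw, hd'] at k12 k21
  have e1 : C 0 0 * F 0 1 = C 0 1 * F 0 0 := by
    apply mul_left_cancel₀ h2
    linear_combination k12
  have e2 : C 1 0 * F 0 0 = C 0 0 * F 1 0 := by
    apply mul_left_cancel₀ h2
    linear_combination k21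
  have e3 : C 0 1 * F 1 0 = F 0 1 * C 1 0 := by linear_combination k11
  refine ⟨C 0 0 * F 0 0 + C 1 0 * F 0 1, ?_⟩
  ext i j
  fin_cases i <;> fin_cases j
  · simp only [Fin.zero_eta, Fin.isValue, Matrix.smul_apply, smul_eq_mul]
    linear_combination (-F 0 0) * h11 - (C 1 0) * e1
  · simp only [Fin.zero_eta, Fin.isValue, Fin.mk_one, Matrix.smul_apply, smul_eq_mul]
    linear_combination (-F 0 1) * h11 + (C 0 0) * e1
  · simp only [Fin.zero_eta, Fin.isValue, Fin.mk_one, Matrix.smul_apply, smul_eq_mul]
    linear_combination (-F 1 0) * h11 - (C 0 0) * e2 + (C 1 0) * e3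
  · simp only [Fin.isValue, Fin.mk_one, Matrix.smul_apply, smul_eq_mul]
    rw [hw, hd']
    linear_combination (F 0 0) * h11 + (C 1 0) * e1

section LinAlg

variable {k : Type} [Field k] {V : Type} [AddCommGroup V] [Module k V]

theorem end_trace_eq_zero (hV : finrank k V = 2) (C : Module.End k V) (hC : C * C = 1)
    (hdet : LinearMap.det C = -1) : LinearMap.trace k V C = 0 := by
  haveI : Module.Finite k V := Module.finite_of_finrank_eq_succ hV
  let b := Module.finBasisOfFinrankEq k V hV
  rw [LinearMap.trace_eq_matrix_trace k b, Matrix.trace_fin_two]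
  refine (matrix_involution_facts (LinearMap.toMatrix b b C) ?_ ?_).1
  · rw [← LinearMap.toMatrix_mul, hC, LinearMap.toMatrix_one]
  · rw [LinearMap.det_toMatrix, hdet]

theorem end_key (h2 : (2 : k) ≠ 0) (hV : finrank k V = 2) (C F : Module.End k V) (hC : C * C = 1)
    (hdet : LinearMap.det C = -1) (htr : LinearMap.trace k V F = 0) (hcomm : C * F = F * C) :
    ∃ t : k, F = t • C := by
  haveI : Module.Finite k V := Module.finite_of_finrank_eq_succ hV
  let b := Module.finBasisOfFinrankEq k V hV
  obtain ⟨t, ht⟩ := matrix_key h2 (LinearMap.toMatrix b b C) (LinearMap.toMatrix b b F)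
    (by rw [← LinearMap.toMatrix_mul, hC, LinearMap.toMatrix_one])
    (by rw [LinearMap.det_toMatrix, hdet])
    (by rw [← LinearMap.trace_eq_matrix_trace k b, htr])
    (by rw [← LinearMap.toMatrix_mul, ← LinearMap.toMatrix_mul, hcomm])
  refine ⟨t, (LinearMap.toMatrix b b).injective ?_⟩
  rw [ht, map_smul]

end LinAlg

/-! ### Invariants of `G_ℝ` on `ad⁰ ρbar` -/

section Inv

variable {k : Type} [Field k] (ρbar : ResidualGaloisRep k)

/-- The underlying endomorphism of an element of the restriction of `ad⁰ ρbar` to `G_ℝ`. -/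
def resVal : (Rep.res archimedeanLoc (ad0 ρbar)).V →ₗ[k] Module.End k ρbar.V :=
  ad0Val ρbar

theorem resVal_injective : Function.Injective (resVal ρbar) :=
  Subtype.val_injective

theorem resVal_trace (f : (Rep.res archimedeanLoc (ad0 ρbar)).V) :
    LinearMap.trace k ρbar.V (resVal ρbar f) = 0 :=
  Subtype.prop (p := fun x => x ∈ ad0Sub ρbar) f

theorem resVal_ρ (g : archimedeanDecomposition) (f : (Rep.res archimedeanLoc (ad0 ρbar)).V) :
    resVal ρbar ((Rep.res archimedeanLoc (ad0 ρbar)).ρ g f) =
      ρbar.ρ g.1 * resVal ρbar f * ρbar.ρ g.1⁻¹ := rfl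

theorem exists_resVal_eq (C : Module.End k ρbar.V) (hC : LinearMap.trace k ρbar.V C = 0) :
    ∃ v : (Rep.res archimedeanLoc (ad0 ρbar)).V, resVal ρbar v = C :=
  ⟨(⟨C, hC⟩ : ad0Sub ρbar), rfl⟩

/-- `h⁰(G_ℝ, ad⁰ ρbar) = 1` for an odd `ρbar` in characteristic `≠ 2`. -/
theorem finrank_invariants_archimedean (h2 : (2 : k) ≠ 0)
    (hdet : LinearMap.det (ρbar.ρ complexConjugation) = -1) :
    finrank k (Rep.res archimedeanLoc (ad0 ρbar)).ρ.invariants = 1 := by
  obtain ⟨C, hCdef⟩ : ∃ C : Module.End k ρbar.V, C = ρbar.ρ complexConjugation := ⟨_, rfl⟩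
  rw [← hCdef] at hdet
  have hC : C * C = 1 := by rw [hCdef, ← map_mul, complexConjugation_mul_self, map_one]
  have hCinv : ρbar.ρ complexConjugation⁻¹ = C := by rw [complexConjugation_inv, hCdef]
  have htr : LinearMap.trace k ρbar.V C = 0 := end_trace_eq_zero ρbar.finrank_eq C hC hdet
  have hVnt : Nontrivial ρbar.V := by
    apply Module.nontrivial_of_finrank_pos (R := k)
    rw [ρbar.finrank_eq]; norm_num
  have hC0 : C ≠ 0 := by
    rintro rfl
    rw [mul_zero] at hC
    exact zero_ne_one hC
  obtain ⟨v, hv⟩ := exists_resVal_eq ρbar C htr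
  have hv0 : v ≠ 0 := by
    rintro rfl
    rw [map_zero] at hv
    exact hC0 hv.symm
  have key : (Rep.res archimedeanLoc (ad0 ρbar)).ρ.invariants = Submodule.span k {v} := by
    ext f
    rw [Representation.mem_invariants, Submodule.mem_span_singleton]
    constructor
    · intro h
      have h1 := congrArg (resVal ρbar) (h archimedeanGen)
      rw [resVal_ρ] at h1
      have h3 : C * resVal ρbar f * C = resVal ρbar f := by
        rw [← h1]
        show C * _ * C = ρbar.ρ complexConjugation * _ * ρbar.ρ complexConjugation⁻¹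
        rw [hCinv, ← hCdef, h1]
      have hcomm : C * resVal ρbar f = resVal ρbar f * C := by
        calc C * resVal ρbar f = C * resVal ρbar f * (C * C) := by rw [hC, mul_one]
          _ = (C * resVal ρbar f * C) * C := by simp only [mul_assoc]
          _ = resVal ρbar f * C := by rw [h3]
      obtain ⟨t, ht⟩ := end_key h2 ρbar.finrank_eq C (resVal ρbar f) hC hdet
        (resVal_trace ρbar f) hcomm
      refine ⟨t, resVal_injective ρbar ?_⟩
      rw [map_smul, hv, ht]
    · rintro ⟨t, rfl⟩ g
      apply resVal_injective ρbar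
      rw [resVal_ρ, map_smul, hv]
      rcases archimedean_cases g with rfl | rfl
      · simp
      · show ρbar.ρ complexConjugation * _ * ρbar.ρ complexConjugation⁻¹ = _
        rw [hCinv, ← hCdef, mul_smul_comm, smul_mul_assoc, hC, one_mul]
  rw [key, finrank_span_singleton hv0]

end Inv

/-- **Leaf LOC-inf.** -/
theorem stmt_loc_inf : Stmt_loc_inf := by
  intro 𝒪 _ _ _ _ _ p _ ρbar S Smin hyp
  have hpk : ((p : ℕ) : ResidueField 𝒪) = 0 := by
    have h := hyp.hdet.1
    rwa [IsLocalRing.maximalIdeal_eq_bot, Ideal.mem_bot] at h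
  have h2 : (2 : ResidueField 𝒪) ≠ 0 := two_ne_zero_of p hyp.hp2 hpk
  exact ⟨fun ξ => H1_archimedean_eq_zero h2 _ ξ,
    finrank_invariants_archimedean ρbar h2 (det_complexConjugation p ρbar hyp.hdet)⟩

end Fermat.Agent.S56.H13
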