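import Fermat.Agent.S56.LeavesNT

set_option autoImplicit false

/-!
# Cluster T / S56, leaf GLOB-h0 (helper27): `ad⁰ ρbar` and `ad⁰ ρbar (1)` have no invariants

* `schur_scalar`   : Schur's lemma over an algebraically closed field, for a family of
                     endomorphisms without proper stable subspace.
* `stmt_glob_h0`   : `Stmt_glob_h0`.
-/

noncomputable section

namespace Fermat.Agent.S56.H27

open Polynomial IsLocalRing CategoryTheory groupCohomology ExtCitation Fermat.Agent.S53 Module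
open Fermat.Agent.S56
open scoped TensorProduct

section LinAlg

variable {K : Type*} [Field K] {U : Type*} [AddCommGroup U] [Module K U]

/-- Schur's lemma: over an algebraically closed field, an endomorphism commuting with a family of
endomorphisms without proper stable subspace is a scalar. -/
theorem schur_scalar [IsAlgClosed K] [FiniteDimensional K U] [Nontrivial U]
    (Γ : Set (Module.End K U))
    (hirr : ∀ W : Submodule K U, (∀ γ ∈ Γ, ∀ x ∈ W, γ x ∈ W) → W = ⊥ ∨ W = ⊤)
    (F : Module.End K U) (hF : ∀ γ ∈ Γ, ∀ u, γ (F u) = F (γ u)) :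
    ∃ μ : K, ∀ u, F u = μ • u := by
  obtain ⟨μ, hμ⟩ := Module.End.exists_eigenvalue F
  refine ⟨μ, ?_⟩
  have hstab : ∀ γ ∈ Γ, ∀ x ∈ F.eigenspace μ, γ x ∈ F.eigenspace μ := by
    intro γ hγ x hx
    rw [Module.End.mem_eigenspace_iff] at hx ⊢
    rw [← hF γ hγ x, hx, map_smul]
  rcases hirr _ hstab with h | h
  · exact absurd h hμ
  · intro u
    have : u ∈ F.eigenspace μ := by rw [h]; trivial
    exact Module.End.mem_eigenspace_iff.mp this

/-- A scalar endomorphism of trace zero of a plane is zero in characteristic `≠ 2`. -/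
theorem eq_zero_of_scalar_of_trace [FiniteDimensional K U] (h2 : Module.finrank K U = 2)
    (hchar : (2 : K) ≠ 0) (F : Module.End K U) (μ : K) (hF : ∀ u, F u = μ • u)
    (htr : LinearMap.trace K U F = 0) : F = 0 := by
  have hFeq : F = μ • (LinearMap.id : U →ₗ[K] U) := by
    ext u
    simp [hF]
  rw [hFeq, map_smul, LinearMap.trace_id, h2] at htr
  have hμ : μ = 0 := by
    have h : μ * 2 = 0 := by simpa using htr
    rcases mul_eq_zero.mp h with h | h
    · exact h
    · exact absurd h hchar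
  rw [hFeq, hμ, zero_smul]

end LinAlg

section BaseChange

variable {k : Type} [Field k] (ρbar : ResidualGaloisRep k)

/-- Base change of endomorphisms along a field extension is injective. -/
theorem baseChange_eq_zero (K : Type) [Field K] [Algebra k K] (f : Module.End k ρbar.V)
    (h : LinearMap.baseChange K f = 0) : f = 0 := by
  ext v
  have h1 := congrArg (fun g : K ⊗[k] ρbar.V →ₗ[K] K ⊗[k] ρbar.V => g ((1 : K) ⊗ₜ[k] v)) h
  simp only [LinearMap.baseChange_tmul, LinearMap.zero_apply] at h1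
  exact (Module.FaithfullyFlat.one_tmul_eq_zero_iff (R := k) (M := ρbar.V) (A := K) (f v)).mp h1

theorem two_ne_zero_of_algebra (K : Type) [Field K] [Algebra k K] (hchar : (2 : k) ≠ 0) :
    (2 : K) ≠ 0 := by
  intro h
  apply hchar
  apply (algebraMap k K).injective
  rw [map_zero, map_ofNat]
  exact h

/-- **Lemma A.** A trace-zero endomorphism of `V` commuting with a subgroup `N` of `G_ℚ` whose
action on `K ⊗ V` has no proper stable subspace (`K` algebraically closed) is zero. -/
theorem eq_zero_of_commute (hchar : (2 : k) ≠ 0) (N : Subgroup GQ)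
    (K : Type) [Field K] [Algebra k K] [IsAlgClosed K]
    (hirr : ∀ W : Submodule K (ρbar.baseChange K).V,
      (∀ σ ∈ N, ∀ x ∈ W, (ρbar.baseChange K).ρ σ x ∈ W) → W = ⊥ ∨ W = ⊤)
    (f : Module.End k ρbar.V) (htr : LinearMap.trace k ρbar.V f = 0)
    (hcomm : ∀ σ ∈ N, ∀ v, ρbar.ρ σ (f v) = f (ρbar.ρ σ v)) : f = 0 := by
  apply baseChange_eq_zero ρbar K
  have hfr : Module.finrank K (K ⊗[k] ρbar.V) = 2 := (ρbar.baseChange K).finrank_eq
  have : FiniteDimensional K (K ⊗[k] ρbar.V) := Module.finite_of_finrank_eq_succ hfr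
  have : Nontrivial (K ⊗[k] ρbar.V) :=
    Module.nontrivial_of_finrank_pos (R := K) (by rw [hfr]; norm_num)
  let Γ : Set (Module.End K (K ⊗[k] ρbar.V)) :=
    {γ | ∃ σ ∈ N, γ = LinearMap.baseChange K (ρbar.ρ σ)}
  have hirr' : ∀ W : Submodule K (K ⊗[k] ρbar.V), (∀ γ ∈ Γ, ∀ x ∈ W, γ x ∈ W) →
      W = ⊥ ∨ W = ⊤ := by
    intro W hW
    apply hirr W
    intro σ hσ x hx
    exact hW _ ⟨σ, hσ, rfl⟩ x hx
  have hF : ∀ γ ∈ Γ, ∀ u, γ (LinearMap.baseChange K f u) = LinearMap.baseChange K f (γ u) := by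
    rintro γ ⟨σ, hσ, rfl⟩ u
    have e : (ρbar.ρ σ) ∘ₗ f = f ∘ₗ (ρbar.ρ σ) := by
      ext v
      exact hcomm σ hσ v
    have e2 := congrArg (LinearMap.baseChange K) e
    rw [LinearMap.baseChange_comp, LinearMap.baseChange_comp] at e2
    exact congrArg (fun g : K ⊗[k] ρbar.V →ₗ[K] K ⊗[k] ρbar.V => g u) e2
  obtain ⟨μ, hμ⟩ := schur_scalar Γ hirr' (LinearMap.baseChange K f) hF
  refine eq_zero_of_scalar_of_trace hfr (two_ne_zero_of_algebra K hchar) _ μ hμ ?_
  rw [LinearMap.trace_baseChange, htr, map_zero]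

end BaseChange

section PartOne

variable {k : Type} [Field k] (ρbar : ResidualGaloisRep k)

/-- `ad⁰ ρbar` has no invariants. -/
theorem ad0_invariants_eq_bot (hchar : (2 : k) ≠ 0) (habs : ρbar.IsAbsolutelyIrreducible) :
    (ad0 ρbar).ρ.invariants = ⊥ := by
  rw [eq_bot_iff]
  intro m hm
  rw [Representation.mem_invariants] at hm
  rw [Submodule.mem_bot]
  have hm' : ∀ g : GQ, adRepr ρbar g (m : ad0Sub ρbar).1 = (m : ad0Sub ρbar).1 := fun g =>
    congrArg Subtype.val (hm g)
  have htr : LinearMap.trace k ρbar.V (m : ad0Sub ρbar).1 = 0 := (m : ad0Sub ρbar).2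
  have hcomm : ∀ σ ∈ (⊤ : Subgroup GQ), ∀ v,
      ρbar.ρ σ ((m : ad0Sub ρbar).1 v) = (m : ad0Sub ρbar).1 (ρbar.ρ σ v) := by
    intro σ _ v
    have h1 := hm' σ
    rw [adRepr_apply] at h1
    have h2 := congrArg (fun g : Module.End k ρbar.V => g (ρbar.ρ σ v)) h1
    simp only [LinearMap.comp_apply] at h2
    have h3 : ρbar.ρ σ⁻¹ (ρbar.ρ σ v) = v := by
      rw [← Module.End.mul_apply, ← map_mul, inv_mul_cancel, map_one]
      rfl
    rw [h3] at h2
    exact h2
  have h0 := eq_zero_of_commute ρbar hchar ⊤ (AlgebraicClosure k)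
    (fun W hW => habs W (fun σ x hx => hW σ (Subgroup.mem_top σ) x hx)) _ htr hcomm
  exact Subtype.ext h0

end PartOne

section PartTwo

variable {k : Type} [Field k] (ρbar : ResidualGaloisRep k)

/-- The trace form `(f, m) ↦ tr (f m)` on `End V`. -/
def trForm : Module.End k ρbar.V →ₗ[k] Module.Dual k (Module.End k ρbar.V) :=
  (LinearMap.mul k (Module.End k ρbar.V)).compr₂ (LinearMap.trace k ρbar.V)

theorem trForm_apply (f m : Module.End k ρbar.V) :
    trForm ρbar f m = LinearMap.trace k ρbar.V (f * m) := rfl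

theorem trForm_injective : Function.Injective (trForm ρbar) := by
  rw [injective_iff_map_eq_zero]
  intro f hf
  ext w
  rw [LinearMap.zero_apply, ← Module.forall_dual_apply_eq_zero_iff k]
  intro ξ
  have h := congrArg (fun φ : Module.Dual k (Module.End k ρbar.V) => φ (ξ.smulRight w)) hf
  simp only [trForm_apply, LinearMap.zero_apply] at h
  have e : f * ξ.smulRight w = ξ.smulRight (f w) := by
    ext v
    simp
  rw [e, LinearMap.trace_smulRight] at h
  exact h

theorem trForm_surjective : Function.Surjective (trForm ρbar) :=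
  (LinearMap.injective_iff_surjective_of_finrank_eq_finrank
    (by rw [Subspace.dual_finrank_eq])).mp (trForm_injective ρbar)

/-- The projection of `End V` onto the trace-zero endomorphisms (characteristic `≠ 2`). -/
def tzMap : Module.End k ρbar.V →ₗ[k] Module.End k ρbar.V :=
  LinearMap.id - (2⁻¹ : k) • (LinearMap.trace k ρbar.V).smulRight (1 : Module.End k ρbar.V)

theorem tzMap_apply (m : Module.End k ρbar.V) :
    tzMap ρbar m = m - (2⁻¹ : k) • (LinearMap.trace k ρbar.V m • (1 : Module.End k ρbar.V)) := rfl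

theorem trace_tzMap (hchar : (2 : k) ≠ 0) (m : Module.End k ρbar.V) :
    LinearMap.trace k ρbar.V (tzMap ρbar m) = 0 := by
  rw [tzMap_apply, map_sub, map_smul, map_smul, LinearMap.trace_one, ρbar.finrank_eq]
  simp only [smul_eq_mul, Nat.cast_ofNat]
  field_simp
  ring

theorem tzMap_of_trace_zero (m : Module.End k ρbar.V) (hm : LinearMap.trace k ρbar.V m = 0) :
    tzMap ρbar m = m := by
  rw [tzMap_apply, hm, zero_smul, smul_zero, sub_zero]

theorem rho_inv_mul (g : GQ) : ρbar.ρ g⁻¹ * ρbar.ρ g = 1 := by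
  rw [← map_mul, inv_mul_cancel, map_one]

theorem rho_mul_inv (g : GQ) : ρbar.ρ g * ρbar.ρ g⁻¹ = 1 := by
  rw [← map_mul, mul_inv_cancel, map_one]

theorem adRepr_eq_mul (g : GQ) (m : Module.End k ρbar.V) :
    adRepr ρbar g m = ρbar.ρ g * m * ρbar.ρ g⁻¹ := rfl

theorem trace_adRepr (g : GQ) (m : Module.End k ρbar.V) :
    LinearMap.trace k ρbar.V (adRepr ρbar g m) = LinearMap.trace k ρbar.V m := by
  rw [adRepr_eq_mul, LinearMap.trace_mul_comm, ← mul_assoc, rho_inv_mul, one_mul]

theorem adRepr_tzMap (g : GQ) (m : Module.End k ρbar.V) :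
    adRepr ρbar g (tzMap ρbar m) = tzMap ρbar (adRepr ρbar g m) := by
  rw [tzMap_apply, tzMap_apply, trace_adRepr, map_sub, map_smul, map_smul]
  congr 3
  rw [adRepr_eq_mul, mul_one, rho_mul_inv]

/-- The projection onto `ad⁰`, with values in the subtype. -/
def tzProj (hchar : (2 : k) ≠ 0) : Module.End k ρbar.V →ₗ[k] ad0Sub ρbar :=
  LinearMap.codRestrict (ad0Sub ρbar) (tzMap ρbar) (fun m => by
    show tzMap ρbar m ∈ LinearMap.ker _
    rw [LinearMap.mem_ker]
    exact trace_tzMap ρbar hchar m)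

theorem tzProj_coe (hchar : (2 : k) ≠ 0) (m : Module.End k ρbar.V) :
    (tzProj ρbar hchar m : Module.End k ρbar.V) = tzMap ρbar m := rfl

theorem tzProj_of_mem (hchar : (2 : k) ≠ 0) (x : ad0Sub ρbar) :
    tzProj ρbar hchar x.1 = x :=
  Subtype.ext (tzMap_of_trace_zero ρbar x.1 x.2)

theorem ad0_rho_tzProj (hchar : (2 : k) ≠ 0) (g : GQ) (m : Module.End k ρbar.V) :
    (ad0 ρbar).ρ g (tzProj ρbar hchar m) = tzProj ρbar hchar (adRepr ρbar g m) :=
  Subtype.ext (adRepr_tzMap ρbar g m)

/-- The twisted commutation relation satisfied by the endomorphism attached to an invariant of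
`ad⁰ ρbar (χ)`-dual. -/
theorem twisted_relation (hchar : (2 : k) ≠ 0) (χ : GQ →* kˣ)
    (lam : Module.Dual k (ad0Sub ρbar))
    (hlam : ∀ (g : GQ) (x : ad0Sub ρbar), (χ g : k) * lam ((ad0 ρbar).ρ g⁻¹ x) = lam x)
    (f : Module.End k ρbar.V)
    (hf : ∀ m, LinearMap.trace k ρbar.V (f * m) = lam (tzProj ρbar hchar m)) (g : GQ) :
    (χ g : k) • (ρbar.ρ g * f) = f * ρbar.ρ g := by
  have e : ∀ m : Module.End k ρbar.V,
      LinearMap.trace k ρbar.V (ρbar.ρ g * f * ρbar.ρ g⁻¹ * m) =
      LinearMap.trace k ρbar.V (f * (ρbar.ρ g⁻¹ * m * ρbar.ρ g)) := by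
    intro m
    calc LinearMap.trace k ρbar.V (ρbar.ρ g * f * ρbar.ρ g⁻¹ * m)
        = LinearMap.trace k ρbar.V (ρbar.ρ g * (f * (ρbar.ρ g⁻¹ * m))) := by
          rw [mul_assoc, mul_assoc]
      _ = LinearMap.trace k ρbar.V ((f * (ρbar.ρ g⁻¹ * m)) * ρbar.ρ g) :=
          LinearMap.trace_mul_comm k _ _
      _ = LinearMap.trace k ρbar.V (f * (ρbar.ρ g⁻¹ * m * ρbar.ρ g)) := by
          rw [mul_assoc]
  have h1 : (χ g : k) • (ρbar.ρ g * f * ρbar.ρ g⁻¹) = f := by
    apply trForm_injective ρbar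
    ext m
    rw [trForm_apply, trForm_apply, smul_mul_assoc, map_smul, smul_eq_mul, hf m,
      ← hlam g (tzProj ρbar hchar m), ad0_rho_tzProj, ← hf, adRepr_eq_mul, inv_inv, e]
  have e3 : ρbar.ρ g * f * ρbar.ρ g⁻¹ * ρbar.ρ g = ρbar.ρ g * f := by
    rw [mul_assoc (ρbar.ρ g * f), rho_inv_mul, mul_one]
  have h2 : ((χ g : k) • (ρbar.ρ g * f * ρbar.ρ g⁻¹)) * ρbar.ρ g = f * ρbar.ρ g := by
    rw [h1]
  rw [smul_mul_assoc, e3] at h2
  exact h2

theorem baseChange_rho (K : Type) [Field K] [Algebra k K] (g : GQ) :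
    (ρbar.baseChange K).ρ g = LinearMap.baseChange K (ρbar.ρ g) := rfl

/-- **Lemma B.** A trace-zero endomorphism satisfying the twisted commutation relation is
zero. -/
theorem eq_zero_of_twisted (hchar : (2 : k) ≠ 0) (habs : ρbar.IsAbsolutelyIrreducible)
    (hTW : ∀ (K : Type) [Field K] [Algebra k K] (G : Subgroup GQ), G.index = 2 →
      ∀ V : Submodule K (ρbar.baseChange K).V,
        (∀ σ ∈ G, ∀ x ∈ V, (ρbar.baseChange K).ρ σ x ∈ V) → V = ⊥ ∨ V = ⊤)
    (χ : GQ →* kˣ) (f : Module.End k ρbar.V) (htr : LinearMap.trace k ρbar.V f = 0)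
    (hrel : ∀ g : GQ, (χ g : k) • (ρbar.ρ g * f) = f * ρbar.ρ g) : f = 0 := by
  by_contra hf0
  have hfr : Module.finrank (AlgebraicClosure k) (AlgebraicClosure k ⊗[k] ρbar.V) = 2 :=
    (ρbar.baseChange (AlgebraicClosure k)).finrank_eq
  have : FiniteDimensional (AlgebraicClosure k) (AlgebraicClosure k ⊗[k] ρbar.V) :=
    Module.finite_of_finrank_eq_succ hfr
  have hF0 : LinearMap.baseChange (AlgebraicClosure k) f ≠ 0 :=
    fun h => hf0 (baseChange_eq_zero ρbar (AlgebraicClosure k) f h)
  -- the relation over the algebraic closure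
  have hrelK : ∀ g : GQ, (algebraMap k (AlgebraicClosure k) (χ g : k)) •
      (LinearMap.baseChange (AlgebraicClosure k) (ρbar.ρ g) *
        LinearMap.baseChange (AlgebraicClosure k) f) =
      LinearMap.baseChange (AlgebraicClosure k) f *
        LinearMap.baseChange (AlgebraicClosure k) (ρbar.ρ g) := by
    intro g
    have h := congrArg (LinearMap.baseChange (AlgebraicClosure k)) (hrel g)
    rw [LinearMap.baseChange_smul, LinearMap.baseChange_mul, LinearMap.baseChange_mul] at h
    rw [algebraMap_smul]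
    exact h
  -- the kernel is stable, hence trivial
  have hker : LinearMap.ker (LinearMap.baseChange (AlgebraicClosure k) f) = ⊥ := by
    have hstab : ∀ σ : GQ, ∀ x ∈ LinearMap.ker (LinearMap.baseChange (AlgebraicClosure k) f),
        (ρbar.baseChange (AlgebraicClosure k)).ρ σ x ∈
          LinearMap.ker (LinearMap.baseChange (AlgebraicClosure k) f) := by
      intro σ x hx
      rw [LinearMap.mem_ker] at hx ⊢
      rw [baseChange_rho]
      have h := congrArg (fun φ : Module.End (AlgebraicClosure k)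
        (AlgebraicClosure k ⊗[k] ρbar.V) => φ x) (hrelK σ)
      simp only [LinearMap.smul_apply, Module.End.mul_apply] at h
      rw [← h, hx, map_zero, smul_zero]
    rcases habs _ hstab with h | h
    · exact h
    · exact absurd (LinearMap.ker_eq_top.mp h) hF0
  have hdetF : LinearMap.det (LinearMap.baseChange (AlgebraicClosure k) f) ≠ 0 := by
    intro h
    have := LinearMap.bot_lt_ker_of_det_eq_zero h
    rw [hker] at this
    exact lt_irrefl _ this
  have hdetR : ∀ g : GQ,
      LinearMap.det (LinearMap.baseChange (AlgebraicClosure k) (ρbar.ρ g)) ≠ 0 := by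
    intro g h
    have h1 : LinearMap.baseChange (AlgebraicClosure k) (ρbar.ρ g) *
        LinearMap.baseChange (AlgebraicClosure k) (ρbar.ρ g⁻¹) = 1 := by
      rw [← LinearMap.baseChange_mul, rho_mul_inv, LinearMap.baseChange_one]
    have h2 := congrArg LinearMap.det h1
    rw [map_mul, h, zero_mul, map_one] at h2
    exact zero_ne_one h2
  have hχ2 : ∀ g : GQ, (χ g : k) ^ 2 = 1 := by
    intro g
    have h := congrArg LinearMap.det (hrelK g)
    rw [LinearMap.det_smul, hfr, map_mul, map_mul] at h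
    have h3 : (algebraMap k (AlgebraicClosure k) (χ g : k)) ^ 2 = 1 := by
      have h4 : ((algebraMap k (AlgebraicClosure k) (χ g : k)) ^ 2 - 1) *
          (LinearMap.det (LinearMap.baseChange (AlgebraicClosure k) (ρbar.ρ g)) *
            LinearMap.det (LinearMap.baseChange (AlgebraicClosure k) f)) = 0 := by
        linear_combination h
      rcases mul_eq_zero.mp h4 with h5 | h5
      · exact sub_eq_zero.mp h5
      · exact absurd h5 (mul_ne_zero (hdetR g) hdetF)
    apply (algebraMap k (AlgebraicClosure k)).injective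
    rw [map_pow, h3, map_one]
  have hχpm : ∀ g : GQ, (χ g : k) = 1 ∨ (χ g : k) = -1 := fun g =>
    sq_eq_one_iff.mp (hχ2 g)
  have h1ne : (1 : k) ≠ -1 := by
    intro h
    apply hchar
    linear_combination h
  have hcomm : ∀ σ ∈ χ.ker, ∀ v, ρbar.ρ σ (f v) = f (ρbar.ρ σ v) := by
    intro σ hσ v
    rw [MonoidHom.mem_ker] at hσ
    have h := hrel σ
    rw [hσ, Units.val_one, one_smul] at h
    exact congrArg (fun φ : Module.End k ρbar.V => φ v) h
  by_cases hall : ∀ g : GQ, χ g = 1
  · apply hf0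
    refine eq_zero_of_commute ρbar hchar ⊤ (AlgebraicClosure k)
      (fun W hW => habs W (fun σ x hx => hW σ (Subgroup.mem_top σ) x hx)) f htr ?_
    intro σ _ v
    exact hcomm σ (MonoidHom.mem_ker.mpr (hall σ)) v
  · push Not at hall
    obtain ⟨g₀, hg₀⟩ := hall
    have hg₀' : (χ g₀ : k) = -1 := by
      rcases hχpm g₀ with h | h
      · exact absurd (Units.ext (by rw [h, Units.val_one])) hg₀
      · exact h
    have hidx : (χ.ker).index = 2 := by
      rw [Subgroup.index_eq_two_iff]
      refine ⟨g₀, fun b => ?_⟩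
      have hmem : ∀ c : GQ, c ∈ χ.ker ↔ (χ c : k) = 1 := by
        intro c
        rw [MonoidHom.mem_ker]
        constructor
        · intro h
          rw [h, Units.val_one]
        · intro h
          exact Units.ext (by rw [h, Units.val_one])
      have hmul : (χ (b * g₀) : k) = (χ b : k) * (-1) := by
        rw [map_mul, Units.val_mul, hg₀']
      rcases hχpm b with hb | hb
      · refine Or.inr ⟨(hmem b).mpr hb, ?_⟩
        rw [hmem, hmul, hb, one_mul]
        exact fun h => h1ne h.symm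
      · refine Or.inl ⟨?_, ?_⟩
        · rw [hmem, hmul, hb]
          ring
        · rw [hmem, hb]
          exact fun h => h1ne h.symm
    apply hf0
    exact eq_zero_of_commute ρbar hchar χ.ker (AlgebraicClosure k)
      (hTW (AlgebraicClosure k) χ.ker hidx) f htr hcomm

/-- `ad⁰ ρbar`-dual twisted by a character has no invariants. -/
theorem dualTwist_invariants_eq_bot (hchar : (2 : k) ≠ 0) (habs : ρbar.IsAbsolutelyIrreducible)
    (hTW : ∀ (K : Type) [Field K] [Algebra k K] (G : Subgroup GQ), G.index = 2 →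
      ∀ V : Submodule K (ρbar.baseChange K).V,
        (∀ σ ∈ G, ∀ x ∈ V, (ρbar.baseChange K).ρ σ x ∈ V) → V = ⊥ ∨ V = ⊤)
    (χ : GQ →* kˣ) :
    ((ad0 ρbar).dualTwist χ).ρ.invariants = ⊥ := by
  rw [eq_bot_iff]
  intro lam hlam
  rw [Representation.mem_invariants] at hlam
  rw [Submodule.mem_bot]
  have hlam' : ∀ (g : GQ) (x : ad0Sub ρbar),
      (χ g : k) * (show Module.Dual k (ad0Sub ρbar) from lam) ((ad0 ρbar).ρ g⁻¹ x) =
        (show Module.Dual k (ad0Sub ρbar) from lam) x := by
    intro g x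
    have h := hlam g
    rw [Rep.dualTwist_ρ_apply] at h
    have h2 := congrArg (fun φ : Module.Dual k (ad0Sub ρbar) => φ x) h
    exact h2
  obtain ⟨f, hf⟩ := trForm_surjective ρbar
    ((show Module.Dual k (ad0Sub ρbar) from lam) ∘ₗ tzProj ρbar hchar)
  have hf' : ∀ m, LinearMap.trace k ρbar.V (f * m) =
      (show Module.Dual k (ad0Sub ρbar) from lam) (tzProj ρbar hchar m) := by
    intro m
    rw [← trForm_apply, hf]
    rfl
  have h10 : tzProj ρbar hchar 1 = 0 := by
    apply Subtype.ext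
    rw [tzProj_coe, tzMap_apply, LinearMap.trace_one, ρbar.finrank_eq, smul_smul]
    have : (2⁻¹ : k) * ((2 : ℕ) : k) = 1 := by
      push_cast
      exact inv_mul_cancel₀ hchar
    rw [this, one_smul, sub_self]
    rfl
  have htr : LinearMap.trace k ρbar.V f = 0 := by
    have h := hf' 1
    rw [mul_one, h10, map_zero] at h
    exact h
  have hrel := twisted_relation ρbar hchar χ _ hlam' f hf'
  have hf0 := eq_zero_of_twisted ρbar hchar habs hTW χ f htr hrel
  apply LinearMap.ext
  intro x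
  have h := hf' (x : ad0Sub ρbar).1
  rw [tzProj_of_mem, hf0, zero_mul, map_zero] at h
  exact h.symm

end PartTwo

/-- **Leaf GLOB-h0.** -/
theorem stmt_glob_h0 : Stmt_glob_h0 := by
  intro 𝒪 _ _ _ _ _ p _ _ ρbar S Smin hyp
  have hchar : (2 : ResidueField 𝒪) ≠ 0 := by
    intro h
    have h2 : ((2 : ℕ) : ResidueField 𝒪) = 0 := by exact_mod_cast h
    rw [CharP.cast_eq_zero_iff (ResidueField 𝒪) p] at h2
    have hp : p.Prime := Fact.out
    exact hyp.hp2 ((Nat.prime_dvd_prime_iff_eq hp Nat.prime_two).mp h2)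
  constructor
  · rw [ad0_invariants_eq_bot ρbar hchar hyp.habs]
    exact finrank_bot _ _
  · have h := dualTwist_invariants_eq_bot ρbar hchar hyp.habs hyp.hTW
      (cycloK p (ResidueField 𝒪))
    show finrank (ResidueField 𝒪)
      ((ad0 ρbar).dualTwist (cycloK p (ResidueField 𝒪))).ρ.invariants = 0
    rw [h]
    exact finrank_bot _ _


end Fermat.Agent.S56.H27

end
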