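import Mathlib

/-!
# S56, leaf LOC-TW, part (i): an abstract bound for `H¹`

`G` a group acting on a finite-dimensional `k`-vector space `M`; `U ≤ P ≤ I` subgroups,
`I` acting trivially, `G = ⟨φ⟩ I`, `I = ⟨τ₀⟩ P`, `P / U` a `q`-group with `q` invertible in `k`,
`φ τ₀ φ⁻¹ ∈ τ₀ ^ m P` with `m = 1` in `k`.  Then the classes of the cocycles which are constant
on the cosets of `U` span a space of dimension at most `2 dim M^G`.
-/

set_option autoImplicit false

namespace Fermat.Agent.S56.H9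

open CategoryTheory groupCohomology

universe u

section linalg

variable {k V W X : Type*} [Field k] [AddCommGroup V] [Module k V] [AddCommGroup W] [Module k W]
  [AddCommGroup X] [Module k X]

/-- If `ker g ≤ ker f` and the target of `g` is finite-dimensional, then the range of `f` is
finite-dimensional of dimension at most that of the target of `g`. -/
theorem finrank_range_le_of_ker_le [FiniteDimensional k X] (f : V →ₗ[k] W) (g : V →ₗ[k] X)
    (h : LinearMap.ker g ≤ LinearMap.ker f) :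
    Module.Finite k (LinearMap.range f) ∧
      Module.finrank k (LinearMap.range f) ≤ Module.finrank k X := by
  have e : (V ⧸ LinearMap.ker g) ≃ₗ[k] LinearMap.range g := g.quotKerEquivRange
  have hfin : Module.Finite k (V ⧸ LinearMap.ker g) := Module.Finite.equiv e.symm
  set F : (V ⧸ LinearMap.ker g) →ₗ[k] W := (LinearMap.ker g).liftQ f h with hF
  have hrange : LinearMap.range F = LinearMap.range f := by
    rw [hF, Submodule.range_liftQ]
  refine ⟨?_, ?_⟩
  · rw [← hrange]
    infer_instance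
  · rw [← hrange]
    calc Module.finrank k (LinearMap.range F)
        ≤ Module.finrank k (V ⧸ LinearMap.ker g) := LinearMap.finrank_range_le F
      _ = Module.finrank k (LinearMap.range g) := e.finrank_eq
      _ ≤ Module.finrank k X := Submodule.finrank_le _

/-- For an endomorphism of a finite-dimensional space, `dim coker = dim ker`. -/
theorem finrank_quot_range_eq_finrank_ker [FiniteDimensional k V] (f : V →ₗ[k] V) :
    Module.finrank k (V ⧸ LinearMap.range f) = Module.finrank k (LinearMap.ker f) := by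
  have h1 := LinearMap.finrank_range_add_finrank_ker f
  have h2 := Submodule.finrank_quotient_add_finrank (LinearMap.range f)
  omega

end linalg

section cocycles

variable {k G : Type u} [Field k] [Group G] (M : Rep k G)

/-- The cocycles which are constant on the left cosets `g U`. -/
def cosetCocycles (U : Subgroup G) : Submodule k (cocycles₁ M) where
  carrier := {c | ∀ g : G, ∀ s ∈ U, c (g * s) = c g}
  add_mem' := by
    intro a b ha hb g s hs
    show (a + b : cocycles₁ M) (g * s) = (a + b : cocycles₁ M) g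
    have e : ∀ x : G, (a + b : cocycles₁ M) x = a x + b x := fun _ => rfl
    rw [e, e, ha g s hs, hb g s hs]
  zero_mem' := by
    intro g s _
    rfl
  smul_mem' := by
    intro r a ha g s hs
    have e : ∀ x : G, (r • a : cocycles₁ M) x = r • a x := fun _ => rfl
    show (r • a : cocycles₁ M) (g * s) = (r • a : cocycles₁ M) g
    rw [e, e, ha g s hs]

lemma mem_cosetCocycles {U : Subgroup G} {c : cocycles₁ M} :
    c ∈ cosetCocycles M U ↔ ∀ g : G, ∀ s ∈ U, c (g * s) = c g := Iff.rfl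

variable {M}

lemma cocycle_mul (c : cocycles₁ M) (g h : G) : c (g * h) = M.ρ g (c h) + c g :=
  (mem_cocycles₁_iff c).1 c.2 g h

lemma cocycle_mul_of_trivial (c : cocycles₁ M) {g : G} (hg : M.ρ g = 1) (h : G) :
    c (g * h) = c h + c g := by
  rw [cocycle_mul, hg]
  rfl

lemma cocycle_pow_of_trivial (c : cocycles₁ M) {g : G} (hg : M.ρ g = 1) (n : ℕ) :
    c (g ^ n) = (n : k) • c g := by
  induction n with
  | zero => simp
  | succ n ih =>
    rw [pow_succ', cocycle_mul_of_trivial c hg, ih, Nat.cast_succ, add_smul, one_smul]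

lemma cocycle_pow (c : cocycles₁ M) (g : G) (a : M) (h : c g = M.ρ g a - a) (n : ℕ) :
    c (g ^ n) = M.ρ (g ^ n) a - a := by
  induction n with
  | zero => simp
  | succ n ih =>
    rw [pow_succ', cocycle_mul, ih, h, map_sub, map_mul]
    simp only [Module.End.mul_apply]
    abel

end cocycles

section bound

variable {k G : Type u} [Field k] [Group G] (M : Rep k G)

/-- The hypotheses on the level `U`. -/
structure TameLevel (U : Subgroup G) : Prop where
  ex : ∃ (I P : Subgroup G) (φ τ₀ : G) (q m : ℕ),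
    U ≤ P ∧ P ≤ I ∧ τ₀ ∈ I ∧ (∀ i ∈ I, M.ρ i = 1) ∧
    (∀ g : G, ∃ n : ℕ, ∃ i ∈ I, g = φ ^ n * i) ∧
    (∀ i ∈ I, ∃ n : ℕ, ∃ x ∈ P, i = τ₀ ^ n * x) ∧
    (∀ x ∈ P, ∃ e : ℕ, x ^ (q ^ e) ∈ U) ∧
    (q : k) ≠ 0 ∧ (m : k) = 1 ∧ (∃ x ∈ P, φ * τ₀ * φ⁻¹ = τ₀ ^ m * x)

variable {M}

/-- Evaluation of cocycles at a group element. -/
def evalCocycle (g : G) : cocycles₁ M →ₗ[k] M where
  toFun c := c g
  map_add' _ _ := rfl
  map_smul' _ _ := rfl

@[simp] lemma evalCocycle_apply (g : G) (c : cocycles₁ M) : evalCocycle g c = c g := rfl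

lemma cocycle_eq_zero_of_mem {U : Subgroup G} {c : cocycles₁ M} (hc : c ∈ cosetCocycles M U)
    {s : G} (hs : s ∈ U) : c s = 0 := by
  have := hc 1 s hs
  rwa [one_mul, cocycles₁_map_one] at this

lemma cocycle_eq_zero_of_pow_mem {U : Subgroup G} {c : cocycles₁ M}
    (hc : c ∈ cosetCocycles M U) {x : G} (hx : M.ρ x = 1) {N : ℕ} (hN : (N : k) ≠ 0)
    (hxN : x ^ N ∈ U) : c x = 0 := by
  have h1 := cocycle_pow_of_trivial c hx N
  rw [cocycle_eq_zero_of_mem hc hxN] at h1
  exact (smul_eq_zero.1 h1.symm).resolve_left hN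

lemma cocycle_conj (c : cocycles₁ M) {t : G} (ht : M.ρ t = 1) (φ : G) :
    c (φ * t * φ⁻¹) = M.ρ φ (c t) := by
  rw [mul_assoc, cocycle_mul, cocycle_mul_of_trivial c ht, map_add, cocycles₁_map_inv]
  abel

lemma apply_pow_eq_self {a : M} {φ : G} (ha : M.ρ φ a = a) (n : ℕ) : (M.ρ φ ^ n) a = a := by
  induction n with
  | zero => simp
  | succ n ih => rw [pow_succ, Module.End.mul_apply, ha, ih]

/-- the main computation: a coset cocycle killed by `Λ` is a coboundary -/
lemma cocycle_mem_coboundaries {I : Subgroup G} {φ : G} {c : cocycles₁ M}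
    (hI : ∀ i ∈ I, M.ρ i = 1)
    (hgen : ∀ g : G, ∃ n : ℕ, ∃ i ∈ I, g = φ ^ n * i)
    (hcI : ∀ i ∈ I, c i = 0) (a : M) (ha : c φ = M.ρ φ a - a) :
    (c : G → M) ∈ coboundaries₁ M := by
  refine ⟨a, ?_⟩
  funext g
  obtain ⟨n, i, hi, rfl⟩ := hgen g
  rw [d₀₁_hom_apply]
  have e1 : c (φ ^ n * i) = M.ρ (φ ^ n) a - a := by
    rw [cocycle_mul, hcI i hi, map_zero, zero_add, cocycle_pow _ φ a ha]
  have e2 : M.ρ (φ ^ n * i) a = M.ρ (φ ^ n) a := by
    rw [map_mul, hI i hi, mul_one]
  rw [e2]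
  exact e1.symm

/-- **Abstract bound.** -/
theorem finrank_map_cosetCocycles_le [FiniteDimensional k M] {U : Subgroup G}
    (h : TameLevel M U) :
    Module.Finite k ((cosetCocycles M U).map (H1π M).hom) ∧
      Module.finrank k ((cosetCocycles M U).map (H1π M).hom)
        ≤ 2 * Module.finrank k M.ρ.invariants := by
  obtain ⟨I, P, φ, τ₀, q, m, hUP, hPI, hτ, hI, hgen, hcyc, hP, hq, hm, x₀, hx₀, hconj⟩ := h.ex
  have hP0 : ∀ c ∈ cosetCocycles M U, ∀ x ∈ P, (c : cocycles₁ M) x = 0 := by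
    intro c hc x hx
    obtain ⟨e, he⟩ := hP x hx
    have hne : ((q ^ e : ℕ) : k) ≠ 0 := by
      rw [Nat.cast_pow]
      exact pow_ne_zero _ hq
    exact cocycle_eq_zero_of_pow_mem hc (hI x (hPI hx)) hne he
  have hIτ : ∀ c ∈ cosetCocycles M U, (c : cocycles₁ M) τ₀ = 0 →
      ∀ i ∈ I, (c : cocycles₁ M) i = 0 := by
    intro c hc h0 i hi
    obtain ⟨n, x, hx, rfl⟩ := hcyc i hi
    have hτn : M.ρ (τ₀ ^ n) = 1 := by rw [map_pow, hI τ₀ hτ, one_pow]
    rw [cocycle_mul_of_trivial c hτn, hP0 c hc x hx, cocycle_pow_of_trivial c (hI τ₀ hτ), h0,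
      smul_zero, add_zero]
  have hinv : ∀ a : M, M.ρ φ a = a → a ∈ M.ρ.invariants := by
    intro a ha g
    obtain ⟨n, i, hi, rfl⟩ := hgen g
    rw [map_mul, map_pow, hI i hi, mul_one]
    exact apply_pow_eq_self ha n
  have hτinv : ∀ c ∈ cosetCocycles M U, (c : cocycles₁ M) τ₀ ∈ M.ρ.invariants := by
    intro c hc
    apply hinv
    have hτm : M.ρ (τ₀ ^ m) = 1 := by rw [map_pow, hI τ₀ hτ, one_pow]
    have e1 : (c : cocycles₁ M) (φ * τ₀ * φ⁻¹) = (c : cocycles₁ M) τ₀ := by
      rw [hconj, cocycle_mul_of_trivial c hτm, hP0 c hc x₀ hx₀,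
        cocycle_pow_of_trivial c (hI τ₀ hτ), hm, one_smul, zero_add]
    rw [← cocycle_conj c (hI τ₀ hτ) φ, e1]
  -- the two linear maps
  let D : M →ₗ[k] M := M.ρ φ - 1
  let Λ₁ : cosetCocycles M U →ₗ[k] (M ⧸ LinearMap.range D) :=
    ((LinearMap.range D).mkQ.comp (evalCocycle φ)).comp (cosetCocycles M U).subtype
  let Λ₂ : cosetCocycles M U →ₗ[k] M.ρ.invariants :=
    LinearMap.codRestrict M.ρ.invariants ((evalCocycle τ₀).comp (cosetCocycles M U).subtype)
      (fun c => hτinv c c.2)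
  let Λ : cosetCocycles M U →ₗ[k] (M ⧸ LinearMap.range D) × M.ρ.invariants := Λ₁.prod Λ₂
  let Φ : cosetCocycles M U →ₗ[k] H1 M := (H1π M).hom.comp (cosetCocycles M U).subtype
  have hker : LinearMap.ker Λ ≤ LinearMap.ker Φ := by
    intro c hc
    rw [LinearMap.mem_ker] at hc ⊢
    have h1 : Λ₁ c = 0 := congrArg Prod.fst hc
    have h2' : Λ₂ c = 0 := congrArg Prod.snd hc
    have h2 : (c : cocycles₁ M) τ₀ = 0 := congrArg Subtype.val h2'
    have h1' : (LinearMap.range D).mkQ ((c : cocycles₁ M) φ) = 0 := h1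
    rw [Submodule.mkQ_apply, Submodule.Quotient.mk_eq_zero] at h1'
    obtain ⟨a, ha⟩ := h1'
    have ha' : (c : cocycles₁ M) φ = M.ρ φ a - a := ha.symm
    show (H1π M).hom (c : cocycles₁ M) = 0
    exact (H1π_eq_zero_iff _).2 (cocycle_mem_coboundaries hI hgen (hIτ c c.2 h2) a ha')
  have hfinX : FiniteDimensional k ((M ⧸ LinearMap.range D) × M.ρ.invariants) :=
    Module.Finite.prod
  have key := finrank_range_le_of_ker_le (k := k) (V := cosetCocycles M U) (W := H1 M)
    (X := (M ⧸ LinearMap.range D) × M.ρ.invariants) Φ Λ hker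
  have hrange : LinearMap.range Φ = (cosetCocycles M U).map (H1π M).hom :=
    (LinearMap.range_comp _ _).trans (by rw [Submodule.range_subtype])
  have hdim : Module.finrank k ((M ⧸ LinearMap.range D) × M.ρ.invariants)
      ≤ 2 * Module.finrank k M.ρ.invariants := by
    rw [Module.finrank_prod, finrank_quot_range_eq_finrank_ker]
    have hle : LinearMap.ker D ≤ M.ρ.invariants := by
      intro a ha
      apply hinv
      have ha' : M.ρ φ a - a = 0 := ha
      exact sub_eq_zero.1 ha'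
    have := Submodule.finrank_mono hle
    omega
  rw [hrange] at key
  exact ⟨key.1, key.2.trans hdim⟩

end bound

end Fermat.Agent.S56.H9
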