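import Mathlib
import Fermat.Agent.S56.H9_H1Bound
import Fermat.Agent.S56.H9_TameChar
import Fermat.Agent.S56.H9_Frob

/-!
# S56, leaf LOC-TW: the bound at a finite level

`G` acts on `M` through `r̃ : G → Γ`, `Γ` a finite group acting faithfully on a Dedekind domain
`B`, the image of `r̃` stabilising a nonzero prime `𝔓` with finite residue field of
characteristic `q`; the elements mapping to the inertia group act trivially on `M`.  Then
`ker r̃` is a tame level for `M`.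
-/

set_option autoImplicit false
set_option linter.unusedSectionVars false
set_option linter.style.haveILetI false

namespace Fermat.Agent.S56.H9

open CategoryTheory groupCohomology

universe u

theorem tameLevel_ker {k G : Type u} [Field k] [Group G] (M : Rep k G)
    {B : Type*} [CommRing B] [IsDedekindDomain B] {Γ : Type*} [Group Γ] [Finite Γ]
    [MulSemiringAction Γ B] [FaithfulSMul Γ B]
    (𝔓 : Ideal B) [𝔓.IsMaximal] (h𝔓 : 𝔓 ≠ ⊥) (q : ℕ) [Fact q.Prime] [CharP (B ⧸ 𝔓) q]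
    [Finite (B ⧸ 𝔓)] (hqk : (q : k) = 1)
    (rt : G →* Γ) (hstab : ∀ g : G, ∀ x : B, rt g • x ∈ 𝔓 ↔ x ∈ 𝔓)
    (hI : ∀ g : G, rt g ∈ 𝔓.inertia Γ → M.ρ g = 1) :
    TameLevel M rt.ker := by
  classical
  have hq𝔓 : (q : B) ∈ 𝔓 := by
    rw [← Ideal.Quotient.eq_zero_iff_mem, map_natCast]
    exact CharP.cast_eq_zero (B ⧸ 𝔓) q
  have h𝔓top : 𝔓 ≠ ⊤ := Ideal.IsPrime.ne_top inferInstance
  -- Frobenius generator
  have hD' : ∀ σ ∈ rt.range, ∀ x, σ • x ∈ 𝔓 ↔ x ∈ 𝔓 := by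
    rintro _ ⟨g, rfl⟩ x
    exact hstab g x
  obtain ⟨φ', hφ', a, hφa, hgen'⟩ := exists_frob_generator 𝔓 q rt.range hD'
  obtain ⟨φ, rfl⟩ := hφ'
  -- generator of tame inertia
  have hJ : rt.range ⊓ 𝔓.inertia Γ ≤ 𝔓.inertia Γ := inf_le_right
  obtain ⟨τ₀', hτ₀', hcyc'⟩ := exists_generator_mod_wild h𝔓 (rt.range ⊓ 𝔓.inertia Γ) hJ
  obtain ⟨⟨τ₀, rfl⟩, hτ₀I⟩ := hτ₀'
  refine ⟨(𝔓.inertia Γ).comap rt, (wild 𝔓 Γ).comap rt, φ, τ₀, q, q ^ a, ?_, ?_, hτ₀I, ?_, ?_, ?_,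
    ?_, ?_, ?_, ?_⟩
  · -- U ≤ P
    intro g hg
    rw [Subgroup.mem_comap, MonoidHom.mem_ker.1 hg]
    exact one_mem _
  · -- P ≤ I
    intro g hg
    exact wild_le_inertia 𝔓 hg
  · -- I acts trivially
    intro i hi
    exact hI i hi
  · -- G = ⟨φ⟩ I
    intro g
    obtain ⟨n, hn⟩ := hgen' (rt g) ⟨g, rfl⟩
    refine ⟨n, (φ ^ n)⁻¹ * g, ?_, ?_⟩
    · rw [Subgroup.mem_comap, map_mul, map_inv, map_pow]
      exact hn
    · rw [mul_inv_cancel_left]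
  · -- I = ⟨τ₀⟩ P
    intro i hi
    obtain ⟨n, hn⟩ := hcyc' (rt i) ⟨⟨i, rfl⟩, hi⟩
    refine ⟨n, (τ₀ ^ n)⁻¹ * i, ?_, ?_⟩
    · rw [Subgroup.mem_comap, map_mul, map_inv, map_pow]
      exact hn
    · rw [mul_inv_cancel_left]
  · -- P / U is a q-group
    intro x hx
    have hσ : rt x ∈ wild 𝔓 Γ := hx
    have hord : orderOf (rt x) ≠ 0 := (orderOf_pos (rt x)).ne'
    obtain ⟨e, n, hn, hen⟩ := Nat.exists_eq_pow_mul_and_not_dvd hord q
      (Fact.out : q.Prime).ne_one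
    refine ⟨e, ?_⟩
    rw [MonoidHom.mem_ker, map_pow]
    have hcop : n.Coprime q :=
      (Nat.Coprime.symm ((Nat.Prime.coprime_iff_not_dvd (Fact.out : q.Prime)).2 hn))
    have hpow : ∀ y : B, ((rt x ^ q ^ e) ^ n) • y = y := by
      intro y
      rw [← pow_mul, ← hen, pow_orderOf_eq_one, one_smul]
    have htriv := smul_eq_of_mem_wild_of_coprime 𝔓 h𝔓top hq𝔓 (pow_mem hσ (q ^ e)) hcop hpow
    apply FaithfulSMul.eq_of_smul_eq_smul (α := B)
    intro y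
    rw [htriv y, one_smul]
  · -- q invertible in k
    rw [hqk]
    exact one_ne_zero
  · -- m = 1 in k
    rw [Nat.cast_pow, hqk, one_pow]
  · -- conjugation
    refine ⟨(τ₀ ^ q ^ a)⁻¹ * (φ * τ₀ * φ⁻¹), ?_, ?_⟩
    · rw [Subgroup.mem_comap]
      simp only [map_mul, map_inv, map_pow]
      exact conj_mem_wild h𝔓 (hstab φ) hφa hτ₀I
    · rw [mul_inv_cancel_left]

end Fermat.Agent.S56.H9
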