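import Fermat.Agent.S56.Defs

set_option autoImplicit false

/-!
# Cluster T / S56: local leaves (exact statements, to be proved in files `Fermat/Agent/S56/H<seat>_*.lean`)

Each `Stmt_*` is a `Prop`; a leaf is DONE when `theorem ... : Stmt_* := ...` is landed sorry-free.
-/

noncomputable section

namespace Fermat.Agent.S56

open Polynomial IsLocalRing CategoryTheory groupCohomology ExtCitation

/-- Smoothness of a representation of `G_ℚ`: every vector is fixed by an open subgroup. -/
def IsSmoothRep {k : Type} [Field k] (M : Rep k GQ) : Prop :=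
  ∀ m : M, ∃ F : IntermediateField ℚ (AlgebraicClosure ℚ), FiniteDimensional ℚ F ∧
    ∀ s ∈ F.fixingSubgroup, M.ρ s m = m

/-- `M` is unramified at the prime `q`. -/
def IsUnramifiedRepAt {k : Type} [Field k] (M : Rep k GQ) (q : ℕ) : Prop :=
  ∀ A : ValuationSubring (AlgebraicClosure ℚ), A.LiesOverPrime q →
    ∀ g ∈ A.inertiaSubgroupIn ℚ, M.ρ g = 1

/-- The local representation at the prime `q` (restriction along `G_{ℚ_q} → G_ℚ`). -/
abbrev locRep {k : Type} [Field k] (M : Rep k GQ) (q : Nat.Primes) :
    Rep k (primeLocalGaloisGroup q) :=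
  Rep.res (primeLocalToGlobal q) M

/-- The continuous local cohomology `H¹(ℚ_q, M)` inside the abstract `H¹`. -/
abbrev locH1 {k : Type} [Field k] (M : Rep k GQ) (q : Nat.Primes) :
    Submodule k (H1 (locRep M q)) :=
  continuousH1 (primeLocalToGlobal q) (locRep M q)

/-- **Leaf LOC-TW** (local `H¹` at a Taylor-Wiles prime).
`k` finite of characteristic `p`, `q ≡ 1 mod p` a prime, `M` a finite-dimensional smooth
`k`-representation of `G_ℚ` unramified at `q`.  Then `H¹(ℚ_q, M)` (continuous classes) is
finite-dimensional of dimension `≤ 2 · dim H⁰(ℚ_q, M)`.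
(Proof: inflation-restriction for inertia; `H¹(Ẑ, M) = M/(F-1)`; a continuous homomorphism from
inertia at `q` to the `p`-group `M` factors through tame inertia, which is procyclic with
Frobenius acting by `q ≡ 1`.) -/
def Stmt_loc_TW : Prop :=
  ∀ (p : ℕ) [Fact p.Prime] (q : Nat.Primes) (_hq1 : (q : ℕ) % p = 1)
    (k : Type) [Field k] [Finite k] [CharP k p]
    (M : Rep k GQ) [FiniteDimensional k M] (_hsm : IsSmoothRep M)
    (_hur : IsUnramifiedRepAt M (q : ℕ)),
    Module.Finite k (locH1 M q) ∧
      Module.finrank k (locH1 M q) ≤ 2 * Module.finrank k (locRep M q).ρ.invariants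

end Fermat.Agent.S56

end
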