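import Fermat.Agent.S56.H9_Place
import Fermat.Agent.S56.H9_Level
import Fermat.Agent.S56.LeavesLocal
import Fermat.Agent.Lib.InertiaLift
import Fermat.Agent.Lib.InertiaBridge

/-
Leaf LOC-TW of cluster T (S56): the continuous local H¹ at a Taylor-Wiles prime is
finite-dimensional of dimension at most twice the dimension of the local invariants.
-/

set_option autoImplicit false
set_option linter.unusedSectionVars false
set_option linter.style.haveILetI false

namespace Fermat.Agent.S56.H9

open NumberField CategoryTheory groupCohomology ExtCitation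

local notation "Qbar" => AlgebraicClosure ℚ

section galois

variable (F : IntermediateField ℚ Qbar) [NumberField F]

lemma intIncl_smul (σ : F ≃ₐ[ℚ] F) (x : 𝓞 F) :
    intIncl F (σ • x) = algebraMap F Qbar (σ (x : F)) := rfl

instance faithful_gal_int : FaithfulSMul (F ≃ₐ[ℚ] F) (𝓞 F) := by
  refine ⟨fun {σ τ} h => ?_⟩
  apply AlgEquiv.ext
  intro y
  obtain ⟨a, b, hb, rfl⟩ := IsFractionRing.div_surjective (A := 𝓞 F) y
  have ha := congrArg (fun z : 𝓞 F => (z : F)) (h a)
  have hb' := congrArg (fun z : 𝓞 F => (z : F)) (h b)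
  have e1 : σ (algebraMap (𝓞 F) F a) = τ (algebraMap (𝓞 F) F a) := ha
  have e2 : σ (algebraMap (𝓞 F) F b) = τ (algebraMap (𝓞 F) F b) := hb'
  rw [map_div₀, map_div₀, e1, e2]

variable [Normal ℚ F]

lemma intIncl_restrictNormal_smul (τ : Qbar ≃ₐ[ℚ] Qbar) (x : 𝓞 F) :
    intIncl F ((AlgEquiv.restrictNormalHom F τ) • x) = τ (intIncl F x) := by
  rw [intIncl_smul]
  exact AlgEquiv.restrictNormal_commutes τ F (x : F)

end galois

section localGlobal

variable (q : Nat.Primes)

/-- The place `A` lies over `q`. -/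
lemma primeLocalPlace_liesOver : (primeLocalPlace q).LiesOverPrime (q : ℕ) := by
  haveI : Fact (q : ℕ).Prime := ⟨q.2⟩
  show ((q : ℕ) : Qbar) ∈ (padicPlace (q : ℕ)).nonunits
  rw [ValuationSubring.mem_nonunits_iff_or]
  right
  intro h
  rw [mem_padicPlace_iff, map_inv₀, map_natCast, nnnorm_inv] at h
  have h1 := PadicAlgCl.valuation_p (q : ℕ)
  rw [PadicAlgCl.valuation_def] at h1
  rw [h1, one_div, inv_inv] at h
  have h2 : (1 : NNReal) < (q : ℕ) := by exact_mod_cast q.2.one_lt
  exact absurd h (not_le.2 h2)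

lemma primeLocalToGlobal_mem_decomposition (g : primeLocalGaloisGroup q) :
    primeLocalToGlobal q g ∈ (primeLocalPlace q).decompositionSubgroup ℚ := by
  haveI : Fact (q : ℕ).Prime := ⟨q.2⟩
  exact localGaloisToGlobal_mem_decompositionSubgroup (q : ℕ) g

/-- The open subgroup of the local Galois group cut out by the field `F`. -/
noncomputable def levelSubgroup (F : IntermediateField ℚ Qbar) : Subgroup (primeLocalGaloisGroup q) :=
  F.fixingSubgroup.comap (primeLocalToGlobal q)

lemma mem_levelSubgroup {F : IntermediateField ℚ Qbar} {g : primeLocalGaloisGroup q} :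
    g ∈ levelSubgroup q F ↔ primeLocalToGlobal q g ∈ F.fixingSubgroup := Iff.rfl

lemma levelSubgroup_anti {F F' : IntermediateField ℚ Qbar} (h : F ≤ F') :
    levelSubgroup q F' ≤ levelSubgroup q F := fun _ hg =>
  IntermediateField.fixingSubgroup_antitone h hg

lemma levelSubgroup_eq_ker (F : IntermediateField ℚ Qbar) [Normal ℚ F] :
    levelSubgroup q F = ((AlgEquiv.restrictNormalHom F).comp (primeLocalToGlobal q)).ker := by
  ext g
  rw [mem_levelSubgroup, MonoidHom.mem_ker, MonoidHom.comp_apply, ← MonoidHom.mem_ker]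
  exact (Subgroup.ext_iff.1 (@IntermediateField.restrictNormalHom_ker ℚ Qbar _ _ _ F ‹_›) _).symm

end localGlobal

section level

variable {k : Type} [Field k] (M : Rep k GQ) (q : Nat.Primes)

lemma locRep_ρ_apply (g : primeLocalGaloisGroup q) :
    (locRep M q).ρ g = M.ρ (primeLocalToGlobal q g) := rfl

theorem tameLevel_levelSubgroup (p : ℕ) [CharP k p] (hq1 : (q : ℕ) % p = 1)
    (hur : IsUnramifiedRepAt M (q : ℕ))
    (F : IntermediateField ℚ Qbar) [FiniteDimensional ℚ F] [Normal ℚ F]
    (hF : ∀ s ∈ F.fixingSubgroup, M.ρ s = 1) :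
    TameLevel (locRep M q) (levelSubgroup q F) := by
  haveI : NumberField F :=
    { to_charZero := inferInstance, to_finiteDimensional := inferInstance }
  haveI : Fact (q : ℕ).Prime := ⟨q.2⟩
  have hA : ((q : ℕ) : Qbar) ∈ (primeLocalPlace q).nonunits := primeLocalPlace_liesOver q
  have hq0 : (q : ℕ) ≠ 0 := q.2.ne_zero
  haveI : (primeAt (primeLocalPlace q) F).IsMaximal := primeAt_isMaximal _ _ hq0 hA
  haveI : Finite (𝓞 F ⧸ primeAt (primeLocalPlace q) F) := finite_quotient_primeAt _ _ hq0 hA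
  haveI : CharP (𝓞 F ⧸ primeAt (primeLocalPlace q) F) (q : ℕ) :=
    charP_quotient_primeAt _ _ q.2 hA
  have hqk : (((q : ℕ)) : k) = 1 := by
    rw [CharP.cast_eq_mod k p, hq1, Nat.cast_one]
  rw [levelSubgroup_eq_ker]
  refine tameLevel_ker (locRep M q) (primeAt (primeLocalPlace q) F)
    (primeAt_ne_bot _ _ hq0 hA) (q : ℕ) hqk
    ((AlgEquiv.restrictNormalHom F).comp (primeLocalToGlobal q)) ?_ ?_
  · intro g x
    rw [mem_primeAt, mem_primeAt, MonoidHom.comp_apply, intIncl_restrictNormal_smul]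
    exact Fermat.Agent.Lib.InertiaBridge.valuation_map_lt_one_iff _ _
      (primeLocalToGlobal_mem_decomposition q g) _
  · intro g hg
    rw [locRep_ρ_apply]
    have h : ∀ x : Qbar, x ∈ F → IsIntegral ℤ x →
        (primeLocalToGlobal q g) x - x ∈ (primeLocalPlace q).nonunits := by
      intro x hx hxi
      have hxi' : IsIntegral ℤ (⟨x, hx⟩ : F) := by
        refine (isIntegral_algebraMap_iff (B := Qbar) ?_).1 hxi
        exact (algebraMap F Qbar).injective
      obtain ⟨y, hy⟩ : ∃ y : 𝓞 F, intIncl F y = x := ⟨⟨⟨x, hx⟩, hxi'⟩, rfl⟩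
      have h1 : ((AlgEquiv.restrictNormalHom F).comp (primeLocalToGlobal q)) g • y - y
          ∈ primeAt (primeLocalPlace q) F := hg y
      rw [mem_primeAt, map_sub, MonoidHom.comp_apply, intIncl_restrictNormal_smul, hy] at h1
      exact (ValuationSubring.mem_nonunits_iff _).2 h1
    obtain ⟨σ, hσ, hσF⟩ := Fermat.Agent.Lib.InertiaLift.exists_mem_inertiaSubgroupIn_eqOn
      (q : ℕ) q.2 (primeLocalPlace q) (primeLocalPlace_liesOver q) F (primeLocalToGlobal q g) h
    have h2 : σ⁻¹ * primeLocalToGlobal q g ∈ F.fixingSubgroup := by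
      rw [IntermediateField.mem_fixingSubgroup_iff]
      intro x hx
      show σ⁻¹ (primeLocalToGlobal q g x) = x
      rw [← hσF x hx]
      exact σ.symm_apply_apply x
    have h3 := hF _ h2
    have h4 := hur _ (primeLocalPlace_liesOver q) σ hσ
    have h5 : M.ρ (primeLocalToGlobal q g) = M.ρ σ * M.ρ (σ⁻¹ * primeLocalToGlobal q g) := by
      rw [← map_mul, mul_inv_cancel_left]
    rw [h5, h3, h4, one_mul]

end level

section union

variable {k : Type} [Field k] (M : Rep k GQ) (q : Nat.Primes)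

/-- A smooth finite-dimensional representation is trivial on an open normal subgroup. -/
theorem exists_field_trivial [FiniteDimensional k M] (hsm : IsSmoothRep M) :
    ∃ F : IntermediateField ℚ Qbar, FiniteDimensional ℚ F ∧ Normal ℚ F ∧
      ∀ s ∈ F.fixingSubgroup, M.ρ s = 1 := by
  classical
  let b := Module.finBasis k M
  choose E hEfd hE using fun i => hsm (b i)
  haveI : ∀ i, FiniteDimensional ℚ (E i) := hEfd
  let F0 : IntermediateField ℚ Qbar := ⨆ i, E i
  haveI hF0 : FiniteDimensional ℚ F0 := IntermediateField.finiteDimensional_iSup_of_finite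
  let F : IntermediateField ℚ Qbar := IntermediateField.normalClosure ℚ F0 Qbar
  have hfd : FiniteDimensional ℚ F := inferInstance
  haveI hnQ : Normal ℚ Qbar :=
    (Fermat.Agent.Lib.InertiaLift.qbar_isGalois').to_normal
  have hn : Normal ℚ F := normalClosure.normal ℚ F0 Qbar
  refine ⟨F, hfd, hn, fun s hs => ?_⟩
  apply b.ext
  intro i
  have h1 : E i ≤ F := (le_iSup E i).trans F0.le_normalClosure
  exact hE i s (IntermediateField.fixingSubgroup_antitone h1 hs)

/-- The classes of cocycles of level `F`. -/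
noncomputable def levelH1 (F : IntermediateField ℚ Qbar) : Submodule k (H1 (locRep M q)) :=
  (cosetCocycles (locRep M q) (levelSubgroup q F)).map (H1π (locRep M q)).hom

lemma levelH1_mono {F F' : IntermediateField ℚ Qbar} (h : F ≤ F') :
    levelH1 M q F ≤ levelH1 M q F' := by
  apply Submodule.map_mono
  intro c hc g s hs
  exact hc g s (levelSubgroup_anti q h hs)

lemma locH1_le_iSup (x : H1 (locRep M q)) (hx : x ∈ locH1 M q)
    (F0 : IntermediateField ℚ Qbar) [FiniteDimensional ℚ F0] :
    ∃ F : IntermediateField ℚ Qbar, FiniteDimensional ℚ F ∧ Normal ℚ F ∧ F0 ≤ F ∧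
      x ∈ levelH1 M q F := by
  obtain ⟨c, ⟨E, hEfd, hc⟩, rfl⟩ := (mem_continuousH1_iff _ _ x).1 hx
  haveI := hEfd
  let F1 : IntermediateField ℚ Qbar := E ⊔ F0
  haveI : FiniteDimensional ℚ F1 := IntermediateField.finiteDimensional_sup E F0
  let F : IntermediateField ℚ Qbar := IntermediateField.normalClosure ℚ F1 Qbar
  have hfd : FiniteDimensional ℚ F := inferInstance
  haveI hnQ : Normal ℚ Qbar :=
    (Fermat.Agent.Lib.InertiaLift.qbar_isGalois').to_normal
  have hn : Normal ℚ F := normalClosure.normal ℚ F1 Qbar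
  have h1 : F1 ≤ F := F1.le_normalClosure
  refine ⟨F, hfd, hn, le_sup_right.trans h1, ?_⟩
  refine Submodule.mem_map_of_mem ?_
  intro g s hs
  exact hc g s (IntermediateField.fixingSubgroup_antitone (le_sup_left.trans h1) hs)

theorem stmt_loc_TW : Stmt_loc_TW := by
  intro p _ q hq1 k _ _ _ M _ hsm hur
  classical
  obtain ⟨F0, hF0fd, hF0n, hF0⟩ := exists_field_trivial M hsm
  have hV : ∀ F : IntermediateField ℚ Qbar, FiniteDimensional ℚ F → Normal ℚ F → F0 ≤ F →
      Module.Finite k (levelH1 M q F) ∧ Module.finrank k (levelH1 M q F)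
        ≤ 2 * Module.finrank k (locRep M q).ρ.invariants := by
    intro F hfd hn h0
    haveI := hfd
    haveI := hn
    exact finrank_map_cosetCocycles_le (tameLevel_levelSubgroup M q p hq1 hur F
      (fun s hs => hF0 s (IntermediateField.fixingSubgroup_antitone h0 hs)))
  let P : ℕ → Prop := fun n => ∃ F : IntermediateField ℚ Qbar, FiniteDimensional ℚ F ∧
    Normal ℚ F ∧ F0 ≤ F ∧ Module.finrank k (levelH1 M q F) = n
  have hP0 : P (Module.finrank k (levelH1 M q F0)) := ⟨F0, hF0fd, hF0n, le_rfl, rfl⟩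
  obtain ⟨F1, hF1fd, hF1n, hF1, hF1r⟩ : P (Nat.findGreatest P _) :=
    Nat.findGreatest_spec (hV F0 hF0fd hF0n le_rfl).2 hP0
  have hmax : ∀ F : IntermediateField ℚ Qbar, FiniteDimensional ℚ F → Normal ℚ F → F0 ≤ F →
      Module.finrank k (levelH1 M q F) ≤ Module.finrank k (levelH1 M q F1) := by
    intro F hfd hn h0
    rw [hF1r]
    exact Nat.le_findGreatest (hV F hfd hn h0).2 ⟨F, hfd, hn, h0, rfl⟩
  have hsub : ∀ F : IntermediateField ℚ Qbar, FiniteDimensional ℚ F → Normal ℚ F → F0 ≤ F →
      levelH1 M q F ≤ levelH1 M q F1 := by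
    intro F hfd hn h0
    haveI := hfd
    haveI := hn
    haveI := hF1fd
    haveI := hF1n
    have hfd' : FiniteDimensional ℚ (F ⊔ F1 : IntermediateField ℚ Qbar) :=
      IntermediateField.finiteDimensional_sup F F1
    have hn' : Normal ℚ (F ⊔ F1 : IntermediateField ℚ Qbar) :=
      @IntermediateField.normal_sup ℚ Qbar _ _ _ F F1 hn hF1n
    have h0' : F0 ≤ F ⊔ F1 := h0.trans le_sup_left
    have h1 := hmax (F ⊔ F1) hfd' hn' h0'
    haveI := (hV (F ⊔ F1) hfd' hn' h0').1
    have h2 : levelH1 M q F1 = levelH1 M q (F ⊔ F1) :=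
      Submodule.eq_of_le_of_finrank_le (levelH1_mono M q le_sup_right) h1
    rw [h2]
    exact levelH1_mono M q le_sup_left
  have hloc : locH1 M q ≤ levelH1 M q F1 := by
    intro x hx
    haveI := hF0fd
    obtain ⟨F, hfd, hn, h0, hxF⟩ := locH1_le_iSup M q x hx F0
    exact hsub F hfd hn h0 hxF
  haveI := (hV F1 hF1fd hF1n hF1).1
  exact ⟨Submodule.finiteDimensional_of_le hloc,
    (Submodule.finrank_mono hloc).trans (hV F1 hF1fd hF1n hF1).2⟩

end union

end Fermat.Agent.S56.H9
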