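import Fermat.Agent.S56.LeavesNT

set_option autoImplicit false

/-!
# Cluster T / S56, leaf LOC-p-SO: the sub-leaf KUMMER-LOCAL (exact statement)

Owner of LOC-p-SO: helper57.  This file only fixes the statement of the local Kummer bound
`dim H¹_cont(ℚ_p, k(ω)) ≤ 2` (`p` odd) in the concrete form used by the assembly:

there are two level-constant crossed homomorphisms `u₁ u₂ : G_{ℚ_p} → k(ω)` such that every
level-constant crossed homomorphism is `a • u₁ + b • u₂ + (coboundary of d)`.

Proof route (Kummer theory): reduce to `𝔽_p`-valued cocycles with an `𝔽_p`-basis of `k` (the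
character `ω` has values in `𝔽_p`); for an `𝔽_p`-valued `c` the map `s ↦ ζ ^ c(s)` is a
multiplicative cocycle with values in a finite Galois extension `L/ℚ_p`, so by Hilbert 90
`ζ ^ c(s) = s(α)/α` with `α ^ p ∈ ℚ_p`; finally `ℚ_pˣ` is generated modulo `p`-th powers by `p` and
`1 + p` (`p` odd; `1 + p² ℤ_p` consists of `p`-th powers by Hensel), so with `π ^ p = p`,
`η ^ p = 1 + p` one may take `ζ ^ u₁(s) = s(π)/π` and `ζ ^ u₂(s) = s(η)/η`.
-/

noncomputable section

namespace Fermat.Agent.S56.H57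

open groupCohomology ExtCitation

/-- The mod `p` cyclotomic character of the local Galois group at `p`, with values in `k`. -/
def locCycK (p : ℕ) [Fact p.Prime] (k : Type) [Field k] [CharP k p]
    (s : PadicAlgCl p ≃ₐ[ℚ_[p]] PadicAlgCl p) : k :=
  ((cycloK p k (localGaloisToGlobal p s) : (k)ˣ) : k)

/-- Level-constant crossed homomorphisms `G_{ℚ_p} → k(ω)`: `c (s t) = c s + ω(s) c t`, and `c` is
constant on the cosets of the subgroup of elements acting trivially on some number field. -/
def IsKummerCocycle (p : ℕ) [Fact p.Prime] (k : Type) [Field k] [CharP k p]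
    (c : (PadicAlgCl p ≃ₐ[ℚ_[p]] PadicAlgCl p) → k) : Prop :=
  (∀ s t, c (s * t) = c s + locCycK p k s * c t) ∧
    IsLevelConstant₁ (localGaloisToGlobal p) c

/-- **Sub-leaf KUMMER-LOCAL.**  For `p` odd, the level-constant crossed homomorphisms
`G_{ℚ_p} → k(ω)` are spanned, modulo coboundaries `s ↦ d (ω(s) - 1)`, by two of them. -/
def Stmt_localKummer : Prop :=
  ∀ (p : ℕ) [Fact p.Prime] (_hp2 : p ≠ 2) (k : Type) [Field k] [Finite k] [CharP k p],
    ∃ u₁ u₂ : (PadicAlgCl p ≃ₐ[ℚ_[p]] PadicAlgCl p) → k,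
      IsKummerCocycle p k u₁ ∧ IsKummerCocycle p k u₂ ∧
      ∀ c : (PadicAlgCl p ≃ₐ[ℚ_[p]] PadicAlgCl p) → k, IsKummerCocycle p k c →
        ∃ a b d : k, ∀ s, c s = a * u₁ s + b * u₂ s + d * (locCycK p k s - 1)

end Fermat.Agent.S56.H57

end
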