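import Fermat.Agent.S56.H57_Tensor
import Fermat.Agent.S56.H57_KummerStmt
import Fermat.Agent.S56.H47_Basic

/-!
# S56, leaf LOC-p-SO (helper57): the shape of a strict-ordinary first-order deformation at `p`

For a first-order deformation `ρx = (1 + ε c) ρbar` which is strict ordinary at `p` with cyclotomic
determinant (`p` odd) there are `v₀ ≠ 0` and `v₁` in `V̄` such that
* `k v₀` is a *strict-ordinary line* of `ρbar` at the place `P` (`IsSOLine`);
* for every `m` with `m v₀ = v₁` the cocycle `c + ∂m` has values, on the decomposition group, in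
  the endomorphisms killing `v₀` with image in `k v₀`.
-/

set_option autoImplicit false
set_option linter.unusedSectionVars false
set_option linter.unusedVariables false

noncomputable section

namespace Fermat.Agent.S56.H57

open Fermat.Agent.S53 TrivSqZeroExt IsLocalRing groupCohomology ExtCitation Fermat.Agent.S56.Dict
  Fermat.Agent.S56.Dict.H85
open scoped TensorProduct

section Cyclo

variable (p : ℕ) [Fact p.Prime]

/-- the value in `k` of the mod `p` cyclotomic character -/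
def omegaK (k : Type) [Field k] [CharP k p] (σ : GQ) : k := ((cycloK p k σ : (k)ˣ) : k)

theorem locCycK_eq (k : Type) [Field k] [CharP k p] (s : PadicAlgCl p ≃ₐ[ℚ_[p]] PadicAlgCl p) :
    locCycK p k s = omegaK p k (localGaloisToGlobal p s) := rfl

theorem omegaK_ne_zero (k : Type) [Field k] [CharP k p] (σ : GQ) : omegaK p k σ ≠ 0 :=
  Units.ne_zero _

theorem omegaK_mul (k : Type) [Field k] [CharP k p] (σ τ : GQ) :
    omegaK p k (σ * τ) = omegaK p k σ * omegaK p k τ := by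
  unfold omegaK
  rw [map_mul, Units.val_mul]

theorem omegaK_eq_natCast (k : Type) [Field k] [CharP k p] (σ : GQ) :
    omegaK p k σ = ((cycloExp p σ : ℕ) : k) := by
  unfold omegaK cycloK
  rw [MonoidHom.comp_apply, Units.coe_map, MonoidHom.coe_coe, coe_cycloChar, map_natCast]

theorem map_root_eq_pow (σ : GQ) (μ : AlgebraicClosure ℚ) (hμ : μ ^ p ^ 1 = 1) :
    σ μ = μ ^ cycloExp p σ := by
  have : NeZero p := ⟨(Fact.out : p.Prime).ne_zero⟩
  rw [pow_one] at hμ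
  have hμ0 : μ ≠ 0 := by
    rintro rfl
    rw [zero_pow (Fact.out : p.Prime).ne_zero] at hμ
    exact zero_ne_one hμ
  have ht : Units.mk0 μ hμ0 ∈ rootsOfUnity p (AlgebraicClosure ℚ) := by
    rw [mem_rootsOfUnity]
    ext
    simpa using hμ
  have := modularCyclotomicCharacter.spec (L := AlgebraicClosure ℚ) (card_rootsOfUnity_eq_self p)
    (σ : AlgebraicClosure ℚ ≃+* AlgebraicClosure ℚ) ht
  simpa [cycloExp] using this

theorem omegaK_eq_one_of_fix (k : Type) [Field k] [CharP k p] (σ : GQ)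
    (h : ∀ t : AlgebraicClosure ℚ, t ^ p = 1 → σ t = t) : omegaK p k σ = 1 := by
  unfold omegaK
  rw [H47.cycloK_eq_one_of_fix p k σ h, Units.val_one]

end Cyclo

section SOLine

variable (p : ℕ) [Fact p.Prime] {k : Type} [Field k] [CharP k p] (ρbar : ResidualGaloisRep k)

/-- `k v₀` is a strict-ordinary line of `ρbar` at the place `P`. -/
def IsSOLine (P : ValuationSubring (AlgebraicClosure ℚ)) (v₀ : ρbar.V) : Prop :=
  v₀ ≠ 0 ∧
  (∀ σ ∈ P.inertiaSubgroupIn ℚ, ∀ v : ρbar.V, ∃ t : k, ρbar.ρ σ v - v = t • v₀) ∧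
  ∀ σ ∈ P.decompositionSubgroup ℚ, ∃ z : k, z * z = 1 ∧
    ρbar.ρ σ v₀ = (omegaK p k σ * z) • v₀ ∧ ∀ v : ρbar.V, ∃ t : k, ρbar.ρ σ v - z • v = t • v₀

end SOLine

section Shape

variable (p : ℕ) [Fact p.Prime] {k : Type} [Field k] [CharP k p]

omit [Fact p.Prime] in
theorem natCast_dual_eq_zero : ((p : ℕ) : DualNumber k) = 0 := by
  ext
  · simp
  · simp

theorem span_p_eq_bot : Ideal.span {(((p ^ 1 : ℕ) : ℕ) : DualNumber k)} = ⊥ := by
  rw [pow_one, natCast_dual_eq_zero, Ideal.span_singleton_eq_bot]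

theorem eps_ne_zero' : (DualNumber.eps : DualNumber k) ≠ 0 := by
  intro h
  have := congrArg TrivSqZeroExt.snd h
  simp at this

variable {p}

/-- the determinant of an endomorphism which is triangular in a basis -/
theorem det_of_triangular {A : Type} [CommRing A] {M : Type} [AddCommGroup M] [Module A M]
    (b : Module.Basis (Fin 2) A M) (f : Module.End A M) (x z l : A)
    (h0 : f (b 0) = x • b 0) (h1 : f (b 1) = z • b 1 + l • b 0) :
    LinearMap.det f = x * z := by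
  rw [← LinearMap.det_toMatrix b, Matrix.det_fin_two]
  have e00 : LinearMap.toMatrix b b f 0 0 = x := by
    rw [LinearMap.toMatrix_apply, h0]; simp
  have e10 : LinearMap.toMatrix b b f 1 0 = 0 := by
    rw [LinearMap.toMatrix_apply, h0]; simp
  have e11 : LinearMap.toMatrix b b f 1 1 = z := by
    rw [LinearMap.toMatrix_apply, h1]; simp
  rw [e00, e10, e11, mul_zero, sub_zero]

variable (p)

/-- the arithmetic of the two characters: `z` is a sign and `x = ω z`, both in `k` -/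
theorem char_facts (hp2 : p ≠ 2) (a : ℕ) (ha : (a : k) ≠ 0) (xs zs : DualNumber k)
    (h1 : xs = (a : DualNumber k) * zs) (h2 : xs * zs = (a : DualNumber k)) :
    zs.snd = 0 ∧ zs.fst * zs.fst = 1 ∧ xs.snd = 0 ∧ xs.fst = (a : k) * zs.fst := by
  have h2ne : (2 : k) ≠ 0 := by
    intro h
    have h' : ((2 : ℕ) : k) = 0 := by exact_mod_cast h
    rw [CharP.cast_eq_zero_iff k p] at h'
    have := (Nat.prime_dvd_prime_iff_eq (Fact.out : p.Prime) Nat.prime_two).1 h'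
    exact hp2 this
  rw [h1] at h2
  have hf := congrArg TrivSqZeroExt.fst h2
  have hs := congrArg TrivSqZeroExt.snd h2
  simp only [TrivSqZeroExt.fst_mul, TrivSqZeroExt.snd_mul, TrivSqZeroExt.fst_natCast,
    TrivSqZeroExt.snd_natCast, smul_eq_mul, MulOpposite.smul_eq_mul_unop, MulOpposite.unop_op,
    zero_mul, add_zero] at hf hs
  have hz1 : zs.fst * zs.fst = 1 := by
    have : (a : k) * (zs.fst * zs.fst) = (a : k) * 1 := by rw [mul_one, ← mul_assoc]; exact hf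
    exact mul_left_cancel₀ ha this
  have hz0 : zs.fst ≠ 0 := by
    intro h
    rw [h, mul_zero] at hz1
    exact zero_ne_one hz1
  have hzs : zs.snd = 0 := by
    have : (a : k) * 2 * zs.fst * zs.snd = 0 := by rw [← hs]; ring
    have h3 : (a : k) * 2 * zs.fst ≠ 0 := mul_ne_zero (mul_ne_zero ha h2ne) hz0
    exact (mul_eq_zero.1 this).resolve_left h3
  refine ⟨hzs, hz1, ?_, ?_⟩
  · rw [h1]
    simp [hzs]
  · rw [h1]
    simp

theorem mem_decomposition_of_mem_inertia (P : ValuationSubring (AlgebraicClosure ℚ)) (σ : GQ)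
    (hσ : σ ∈ P.inertiaSubgroupIn ℚ) : σ ∈ P.decompositionSubgroup ℚ := by
  obtain ⟨τ, -, rfl⟩ := Subgroup.mem_map.1 hσ
  exact τ.2

theorem rho_rho_inv (ρbar : ResidualGaloisRep k) (σ : GQ) (v : ρbar.V) :
    ρbar.ρ σ (ρbar.ρ σ⁻¹ v) = v := by
  have := rho_inv_rho ρbar σ⁻¹ v
  rwa [inv_inv] at this

/-- **The shape of a strict-ordinary first-order deformation.** -/
theorem exists_shape (hp2 : p ≠ 2) (ρbar : ResidualGaloisRep k)
    (ρx : GaloisRepAdic (DualNumber k)) (c : GQ → Module.End k ρbar.V)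
    (θ : (DualNumber k ⊗[k] ρbar.V) ≃ₗ[DualNumber k] ρx.V)
    (hθ : ∀ (σ : GQ) (v : ρbar.V), ρx.ρ σ (θ ((1 : DualNumber k) ⊗ₜ[k] v)) =
      θ ((1 : DualNumber k) ⊗ₜ[k] (ρbar.ρ σ v) +
        (DualNumber.eps : DualNumber k) ⊗ₜ[k] (c σ (ρbar.ρ σ v))))
    (hdet : ρx.DetIsCyclotomic p) (hso : ρx.IsStrictOrdinaryAt p)
    (P : ValuationSubring (AlgebraicClosure ℚ)) (hP : P.LiesOverPrime p) :
    ∃ v₀ v₁ : ρbar.V, IsSOLine p ρbar P v₀ ∧
      ∀ σ ∈ P.decompositionSubgroup ℚ, ∀ m : Module.End k ρbar.V, m v₀ = v₁ →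
        (c σ + ρbar.ρ σ ∘ₗ m ∘ₗ ρbar.ρ σ⁻¹ - m) v₀ = 0 ∧
        ∀ v : ρbar.V, ∃ t : k, (c σ + ρbar.ρ σ ∘ₗ m ∘ₗ ρbar.ρ σ⁻¹ - m) v = t • v₀ := by
  obtain ⟨L, ⟨b, hL⟩, hD, hI, hchar⟩ := hso.2 P hP
  have hb0 : b 0 ∈ L := by rw [hL]; exact Submodule.mem_span_singleton_self _
  obtain ⟨v₀, hv₀⟩ : ∃ v₀, v₀ = co₁ ρbar ρx θ (b 0) := ⟨_, rfl⟩
  obtain ⟨v₁, hv₁⟩ : ∃ v₁, v₁ = co₂ ρbar ρx θ (b 0) := ⟨_, rfl⟩
  -- `v₀ ≠ 0`
  have hv₀ne : v₀ ≠ 0 := by
    intro h0
    have e1 := eq_theta_co ρbar ρx θ (b 0)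
    rw [← hv₀, ← hv₁, h0, TensorProduct.tmul_zero, zero_add] at e1
    have e2 : (DualNumber.eps : DualNumber k) • b 0 = 0 := by
      rw [e1, ← map_smul, eps_smul_eps_tmul, map_zero]
    have e3 := congrArg (fun y => b.repr y 0) e2
    simp only [map_smul, Module.Basis.repr_self, Finsupp.smul_apply, Finsupp.single_eq_same,
      smul_eq_mul, mul_one, map_zero, Finsupp.coe_zero, Pi.zero_apply] at e3
    exact eps_ne_zero' e3
  -- the data at an element of the decomposition group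
  have key : ∀ σ ∈ P.decompositionSubgroup ℚ, ∃ z : k, z * z = 1 ∧
      ρbar.ρ σ v₀ = (omegaK p k σ * z) • v₀ ∧
      c σ (ρbar.ρ σ v₀) + ρbar.ρ σ v₁ = (omegaK p k σ * z) • v₁ ∧
      ∀ v : ρbar.V, ∃ a₀ a₁ : k, ρbar.ρ σ v - z • v = a₀ • v₀ ∧
        c σ (ρbar.ρ σ v) = a₀ • v₁ + a₁ • v₀ := by
    intro σ hσ
    obtain ⟨xs, zs, hx, hz, hcyc⟩ := hchar σ hσ
    have hroot := map_root_eq_pow p σ
    have h1 : xs = ((cycloExp p σ : ℕ) : DualNumber k) * zs := by
      have := hcyc 1 (cycloExp p σ) hroot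
      rw [span_p_eq_bot, Ideal.mem_bot, sub_eq_zero] at this
      exact this
    have h2 : LinearMap.det (ρx.ρ σ) = ((cycloExp p σ : ℕ) : DualNumber k) := by
      have := hdet.2 1 σ (cycloExp p σ) hroot
      rw [span_p_eq_bot, Ideal.mem_bot, sub_eq_zero] at this
      exact this
    have hb1 := hz (b 1)
    rw [hL, Submodule.mem_span_singleton] at hb1
    obtain ⟨l, hl⟩ := hb1
    have h3 : LinearMap.det (ρx.ρ σ) = xs * zs :=
      det_of_triangular b (ρx.ρ σ) xs zs l (hx (b 0) hb0) (by rw [hl]; abel)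
    have ha : ((cycloExp p σ : ℕ) : k) ≠ 0 := by
      rw [← omegaK_eq_natCast]
      exact omegaK_ne_zero p k σ
    obtain ⟨hzs, hz1, hxs, hxf⟩ := char_facts p hp2 (cycloExp p σ) ha xs zs h1 (by rw [← h3, h2])
    rw [← omegaK_eq_natCast] at hxf
    refine ⟨zs.fst, hz1, ?_, ?_, ?_⟩
    · have e := congrArg (co₁ ρbar ρx θ) (hx (b 0) hb0)
      rw [co₁_rho hθ, co₁_smul, ← hv₀, hxf] at e
      exact e
    · have e := congrArg (co₂ ρbar ρx θ) (hx (b 0) hb0)
      rw [co₂_rho hθ, co₂_smul, ← hv₀, ← hv₁, hxs, zero_smul, add_zero, hxf] at e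
      exact e
    · intro v
      have hy := hz (θ ((1 : DualNumber k) ⊗ₜ[k] v + (DualNumber.eps : DualNumber k) ⊗ₜ[k] 0))
      rw [hL, Submodule.mem_span_singleton] at hy
      obtain ⟨l', hl'⟩ := hy
      refine ⟨l'.fst, l'.snd, ?_, ?_⟩
      · have e := congrArg (co₁ ρbar ρx θ) hl'
        rw [co₁_smul, co₁_sub, co₁_rho hθ, co₁_smul, co₁_theta, ← hv₀] at e
        exact e.symm
      · have e := congrArg (co₂ ρbar ρx θ) hl'
        rw [co₂_smul, co₂_sub, co₂_rho hθ, co₂_smul, co₁_theta, co₂_theta, ← hv₀, ← hv₁, hzs,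
          map_zero, smul_zero, zero_smul, add_zero, add_zero, sub_zero] at e
        exact e.symm
  refine ⟨v₀, v₁, ⟨hv₀ne, ?_, ?_⟩, ?_⟩
  · -- inertia
    intro σ hσ v
    have hy := hI σ hσ (θ ((1 : DualNumber k) ⊗ₜ[k] v + (DualNumber.eps : DualNumber k) ⊗ₜ[k] 0))
    rw [hL, Submodule.mem_span_singleton] at hy
    obtain ⟨l', hl'⟩ := hy
    refine ⟨l'.fst, ?_⟩
    have e := congrArg (co₁ ρbar ρx θ) hl'
    rw [co₁_smul, co₁_sub, co₁_rho hθ, co₁_theta, ← hv₀] at e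
    exact e.symm
  · intro σ hσ
    obtain ⟨z, hz1, hz2, -, hz4⟩ := key σ hσ
    exact ⟨z, hz1, hz2, fun v => by
      obtain ⟨a₀, -, h, -⟩ := hz4 v
      exact ⟨a₀, h⟩⟩
  · intro σ hσ m hm
    obtain ⟨z, hz1, hz2, hz3, hz4⟩ := key σ hσ
    have hx0 : omegaK p k σ * z ≠ 0 := by
      refine mul_ne_zero (omegaK_ne_zero p k σ) ?_
      intro h
      rw [h, mul_zero] at hz1
      exact zero_ne_one hz1
    -- the value on `ρbar σ v`
    have hval : ∀ v : ρbar.V, (c σ + ρbar.ρ σ ∘ₗ m ∘ₗ ρbar.ρ σ⁻¹ - m) (ρbar.ρ σ v)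
        = c σ (ρbar.ρ σ v) + ρbar.ρ σ (m v) - m (ρbar.ρ σ v) := by
      intro v
      simp only [LinearMap.sub_apply, LinearMap.add_apply, LinearMap.comp_apply, rho_inv_rho]
    have hgen : ∀ v : ρbar.V, ∃ t : k,
        (c σ + ρbar.ρ σ ∘ₗ m ∘ₗ ρbar.ρ σ⁻¹ - m) (ρbar.ρ σ v) = t • v₀ := by
      intro v
      obtain ⟨a₀, a₁, e1, e2⟩ := hz4 v
      obtain ⟨a₀', -, e3, -⟩ := hz4 (m v)
      refine ⟨a₁ + a₀', ?_⟩
      have e4 : ρbar.ρ σ v = z • v + a₀ • v₀ := by rw [← e1]; abel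
      have e5 : ρbar.ρ σ (m v) = z • m v + a₀' • v₀ := by rw [← e3]; abel
      rw [hval, e2, e5, e4, map_add, map_smul, map_smul, hm, add_smul]
      abel
    refine ⟨?_, ?_⟩
    · have e1 : (c σ + ρbar.ρ σ ∘ₗ m ∘ₗ ρbar.ρ σ⁻¹ - m) (ρbar.ρ σ v₀) = 0 := by
        rw [hval, hm]
        have e2 : c σ (ρbar.ρ σ v₀) = (omegaK p k σ * z) • v₁ - ρbar.ρ σ v₁ := by
          rw [← hz3]; abel
        rw [e2, hz2, map_smul, hm]
        abel
      rw [hz2, map_smul] at e1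
      exact (smul_eq_zero.1 e1).resolve_left hx0
    · intro v
      obtain ⟨t, ht⟩ := hgen (ρbar.ρ σ⁻¹ v)
      rw [rho_rho_inv] at ht
      exact ⟨t, ht⟩

end Shape

end Fermat.Agent.S56.H57

end
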