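import Mathlib

/-!
# S56, leaf LOC-p-SO, abstract part (helper57)

`G` a group acting on a finite-dimensional `k`-vector space `M`, `n₀ ∈ M` an eigenvector for the
character `ω`, and `h ∈ M`, not a multiple of `n₀`, with `g h - h ∈ k n₀` for all `g`.
Suppose that the crossed homomorphisms `G → k(ω)` of a class `Z` are spanned, modulo
coboundaries, by two crossed homomorphisms `u₁`, `u₂`.  Then the classes of the cocycles
`g ↦ c g • n₀` with `c` of class `Z` span a subspace of `H¹(G, M)` of dimension at most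
`dim M^G + 1`.
-/

set_option autoImplicit false

namespace Fermat.Agent.S56.H57

open CategoryTheory groupCohomology Module

universe u

section linalg

variable {k V : Type*} [Field k] [AddCommGroup V] [Module k V]

theorem finrank_span_pair_le (x y : V) :
    Module.Finite k (Submodule.span k ({x, y} : Set V)) ∧
      finrank k (Submodule.span k ({x, y} : Set V)) ≤ 2 := by
  classical
  have h1 : ({x, y} : Set V) = (({x, y} : Finset V) : Set V) := by simp
  refine ⟨?_, ?_⟩
  · rw [h1]
    exact FiniteDimensional.span_finset k _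
  · rw [h1]
    exact (finrank_span_finset_le_card (R := k) ({x, y} : Finset V)).trans Finset.card_le_two

theorem finrank_span_singleton_le_one (x : V) :
    finrank k (Submodule.span k ({x} : Set V)) ≤ 1 := by
  classical
  have h1 : ({x} : Set V) = (({x} : Finset V) : Set V) := by simp
  rw [h1]
  exact (finrank_span_finset_le_card (R := k) ({x} : Finset V)).trans (by simp)

/-- If `a x + b y = 0` with `(a, b) ≠ 0`, the span of `x` and `y` has dimension at most one. -/
theorem finrank_span_pair_le_one (x y : V) (a b : k) (hab : a ≠ 0 ∨ b ≠ 0)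
    (h : a • x + b • y = 0) : finrank k (Submodule.span k ({x, y} : Set V)) ≤ 1 := by
  have := (finrank_span_pair_le (k := k) x y).1
  rcases hab with ha | hb
  · have hx : x = (-(a⁻¹ * b)) • y := by
      have h1 : a • x = -(b • y) := eq_neg_of_add_eq_zero_left h
      have h2 : x = a⁻¹ • (a • x) := by rw [smul_smul, inv_mul_cancel₀ ha, one_smul]
      rw [h2, h1, smul_neg, smul_smul, neg_smul]
    have hle : Submodule.span k ({x, y} : Set V) ≤ Submodule.span k ({y} : Set V) := by
      rw [Submodule.span_le]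
      rintro z (rfl | rfl)
      · rw [hx]
        exact Submodule.smul_mem _ _ (Submodule.mem_span_singleton_self _)
      · exact Submodule.mem_span_singleton_self _
    exact (Submodule.finrank_mono hle).trans (finrank_span_singleton_le_one y)
  · have hy : y = (-(b⁻¹ * a)) • x := by
      have h1 : b • y = -(a • x) := eq_neg_of_add_eq_zero_right h
      have h2 : y = b⁻¹ • (b • y) := by rw [smul_smul, inv_mul_cancel₀ hb, one_smul]
      rw [h2, h1, smul_neg, smul_smul, neg_smul]
    have hle : Submodule.span k ({x, y} : Set V) ≤ Submodule.span k ({x} : Set V) := by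
      rw [Submodule.span_le]
      rintro z (rfl | rfl)
      · exact Submodule.mem_span_singleton_self _
      · rw [hy]
        exact Submodule.smul_mem _ _ (Submodule.mem_span_singleton_self _)
    exact (Submodule.finrank_mono hle).trans (finrank_span_singleton_le_one x)

end linalg

section bound

variable {k G : Type u} [Field k] [Group G] (M : Rep k G)

/-- The cocycle `g ↦ u g • n₀` attached to a crossed homomorphism `u : G → k(ω)` and an
eigenvector `n₀` for `ω`. -/
def lineCocycle (n₀ : M) (ω u : G → k) (hω : ∀ s, M.ρ s n₀ = ω s • n₀)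
    (hu : ∀ s t, u (s * t) = u s + ω s * u t) : cocycles₁ M :=
  ⟨fun s => u s • n₀, by
    rw [mem_cocycles₁_iff]
    intro g h
    rw [hu, map_smul, hω, smul_smul, add_smul, add_comm, mul_comm]⟩

@[simp] theorem lineCocycle_apply (n₀ : M) (ω u : G → k) (hω : ∀ s, M.ρ s n₀ = ω s • n₀)
    (hu : ∀ s t, u (s * t) = u s + ω s * u t) (s : G) :
    (lineCocycle M n₀ ω u hω hu : G → M) s = u s • n₀ := rfl

variable {M}

/-- A cocycle which is pointwise `a u₁ + b u₂ + d (ω - 1)` times `n₀` has class
`a [U₁] + b [U₂]`. -/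
theorem H1π_eq_of_decomp (n₀ : M) (ω u₁ u₂ : G → k) (hω : ∀ s, M.ρ s n₀ = ω s • n₀)
    (hu₁ : ∀ s t, u₁ (s * t) = u₁ s + ω s * u₁ t)
    (hu₂ : ∀ s t, u₂ (s * t) = u₂ s + ω s * u₂ t)
    (C : cocycles₁ M) (a b d : k)
    (hC : ∀ s, (C : G → M) s = (a * u₁ s + b * u₂ s + d * (ω s - 1)) • n₀) :
    (H1π M).hom C = a • (H1π M).hom (lineCocycle M n₀ ω u₁ hω hu₁)
      + b • (H1π M).hom (lineCocycle M n₀ ω u₂ hω hu₂) := by
  have h1 : (H1π M).hom C = (H1π M).hom (a • lineCocycle M n₀ ω u₁ hω hu₁
      + b • lineCocycle M n₀ ω u₂ hω hu₂) := by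
    have := (H1π_eq_iff C (a • lineCocycle M n₀ ω u₁ hω hu₁
      + b • lineCocycle M n₀ ω u₂ hω hu₂)).2 ?_
    · exact this
    · refine ⟨d • n₀, ?_⟩
      funext s
      rw [d₀₁_hom_apply]
      have e1 : ((a • lineCocycle M n₀ ω u₁ hω hu₁ + b • lineCocycle M n₀ ω u₂ hω hu₂ :
          cocycles₁ M) : G → M) s = a • (u₁ s • n₀) + b • (u₂ s • n₀) := rfl
      show M.ρ s (d • n₀) - d • n₀ = (C : G → M) s - _
      rw [e1, hC s, map_smul, hω, smul_smul, smul_smul, smul_smul, ← add_smul, ← sub_smul,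
        ← sub_smul]
      congr 1
      ring
  rw [h1, map_add, map_smul, map_smul]

/-- **Abstract bound.** -/
theorem finrank_map_le_of_line [FiniteDimensional k M] (n₀ h : M) (ω ch u₁ u₂ : G → k)
    (hω : ∀ s, M.ρ s n₀ = ω s • n₀)
    (hh : ∀ s, M.ρ s h - h = ch s • n₀)
    (hind : ∀ d : k, h ≠ d • n₀)
    (Z : (G → k) → Prop)
    (hu₁ : ∀ s t, u₁ (s * t) = u₁ s + ω s * u₁ t)
    (hu₂ : ∀ s t, u₂ (s * t) = u₂ s + ω s * u₂ t)
    (hZ : ∀ c, Z c → ∃ a b d : k, ∀ s, c s = a * u₁ s + b * u₂ s + d * (ω s - 1))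
    (hch : Z ch)
    (𝒞 : Submodule k (cocycles₁ M))
    (h𝒞 : ∀ C ∈ 𝒞, ∃ c : G → k, Z c ∧ ∀ s, (C : G → M) s = c s • n₀) :
    Module.Finite k (𝒞.map (H1π M).hom) ∧
      finrank k (𝒞.map (H1π M).hom) ≤ finrank k M.ρ.invariants + 1 := by
  set x₁ : H1 M := (H1π M).hom (lineCocycle M n₀ ω u₁ hω hu₁) with hx₁
  set x₂ : H1 M := (H1π M).hom (lineCocycle M n₀ ω u₂ hω hu₂) with hx₂
  have hle : 𝒞.map (H1π M).hom ≤ Submodule.span k ({x₁, x₂} : Set (H1 M)) := by
    rintro _ ⟨C, hC, rfl⟩
    obtain ⟨c, hc, hCc⟩ := h𝒞 C hC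
    obtain ⟨a, b, d, hd⟩ := hZ c hc
    have := H1π_eq_of_decomp n₀ ω u₁ u₂ hω hu₁ hu₂ C a b d (fun s => by rw [hCc s, hd s])
    rw [this]
    exact Submodule.add_mem _
      (Submodule.smul_mem _ _ (Submodule.subset_span (Or.inl rfl)))
      (Submodule.smul_mem _ _ (Submodule.subset_span (Or.inr rfl)))
  have hfin := (finrank_span_pair_le (k := k) x₁ x₂).1
  have h2 := (finrank_span_pair_le (k := k) x₁ x₂).2
  refine ⟨Submodule.finiteDimensional_of_le hle, ?_⟩
  refine (Submodule.finrank_mono hle).trans ?_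
  by_cases hinv : finrank k M.ρ.invariants = 0
  · -- no invariants: the two classes are dependent
    rw [hinv, zero_add]
    obtain ⟨a, b, d, hd⟩ := hZ ch hch
    have hab : a ≠ 0 ∨ b ≠ 0 := by
      by_contra hcon
      rw [not_or, not_not, not_not] at hcon
      obtain ⟨ha, hb⟩ := hcon
      have hfix : h - d • n₀ ∈ M.ρ.invariants := by
        intro s
        have e1 := hh s
        rw [hd s, ha, hb, zero_mul, zero_mul, zero_add, zero_add] at e1
        rw [map_sub, map_smul, hω, smul_smul]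
        have e2 : M.ρ s h = h + (d * (ω s - 1)) • n₀ := by
          rw [← e1]; abel
        rw [e2, mul_sub, mul_one, sub_smul]
        abel
      have hbot : M.ρ.invariants = ⊥ := Submodule.finrank_eq_zero.1 hinv
      rw [hbot, Submodule.mem_bot, sub_eq_zero] at hfix
      exact hind d hfix
    apply finrank_span_pair_le_one x₁ x₂ a b hab
    -- `a x₁ + b x₂` is the class of the coboundary of `h - d n₀`
    have hcoc : (fun s => ch s • n₀) ∈ cocycles₁ M := by
      have : (fun s => ch s • n₀) = (d₀₁ M).hom h := by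
        funext s
        rw [d₀₁_hom_apply, hh s]
      rw [this]
      exact d₀₁_apply_mem_cocycles₁ h
    have key := H1π_eq_of_decomp n₀ ω u₁ u₂ hω hu₁ hu₂ ⟨_, hcoc⟩ a b d
      (fun s => by rw [cocycles₁.coe_mk, hd s])
    rw [← hx₁, ← hx₂] at key
    rw [← key]
    refine (H1π_eq_zero_iff _).2 ⟨h, ?_⟩
    funext s
    rw [d₀₁_hom_apply, hh s]
    rfl
  · have : 1 ≤ finrank k M.ρ.invariants := Nat.one_le_iff_ne_zero.2 hinv
    omega

end bound

end Fermat.Agent.S56.H57
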