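import Fermat.Agent.S56.H57_Shape
import Fermat.Agent.S56.H57_Abstract
import Fermat.Agent.S56.H59_LocTWh0
import Fermat.Agent.R.H2_Cyc

/-!
# S56, leaf LOC-p-SO (helper57): strict-ordinary lines of `ρbar` at `p`

* `soLine_unique`: a strict-ordinary line is unique (the cyclotomic character is ramified at `p`).
* `nEnd`, `hEnd`: the nilpotent `n₀` and the semisimple `h` attached to a basis `(v₀, w)`;
  the action of the decomposition group on them.
-/

set_option autoImplicit false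
set_option linter.unusedSectionVars false
set_option linter.unusedVariables false

noncomputable section

namespace Fermat.Agent.S56.H57

open Fermat.Agent.S53 IsLocalRing groupCohomology ExtCitation Module
  Fermat.Agent.S56.Dict.H85

section Unique

variable (p : ℕ) [Fact p.Prime] {k : Type} [Field k] [CharP k p] (ρbar : ResidualGaloisRep k)

theorem fix_of_omegaK_eq_one (σ : GQ) (h : omegaK p k σ = 1) (t : AlgebraicClosure ℚ)
    (ht : t ^ p = 1) : σ t = t := by
  have hp : p.Prime := Fact.out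
  rw [map_root_eq_pow p σ t (by rw [pow_one]; exact ht)]
  have h1 : ((cycloExp p σ : ℕ) : k) = ((1 : ℕ) : k) := by
    rw [← omegaK_eq_natCast, h, Nat.cast_one]
  have h2 : cycloExp p σ ≡ 1 [MOD p] := (CharP.natCast_eq_natCast k p).1 h1
  have h4 : cycloExp p σ % p = 1 := by
    have : cycloExp p σ % p = 1 % p := h2
    rwa [Nat.mod_eq_of_lt hp.one_lt] at this
  have h3 : cycloExp p σ = p * (cycloExp p σ / p) + 1 := by
    have := Nat.div_add_mod (cycloExp p σ) p
    omega
  rw [h3, pow_succ, pow_mul, ht, one_pow, one_mul]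

/-- there is a vector outside a given line -/
theorem exists_not_smul (v₀ : ρbar.V) : ∃ v : ρbar.V, ∀ t : k, v ≠ t • v₀ := by
  by_contra hcon
  have hall : ∀ v : ρbar.V, ∃ t : k, v = t • v₀ := by
    intro v
    by_contra h
    exact hcon ⟨v, fun t ht => h ⟨t, ht⟩⟩
  have htop : (⊤ : Submodule k ρbar.V) ≤ Submodule.span k {v₀} := by
    intro v _
    obtain ⟨t, rfl⟩ := hall v
    exact Submodule.smul_mem _ _ (Submodule.mem_span_singleton_self _)
  have h1 := Submodule.finrank_mono htop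
  rw [finrank_top, ρbar.finrank_eq] at h1
  have h2 := finrank_span_singleton_le_one (k := k) v₀
  omega

/-- **Uniqueness of the strict-ordinary line.** -/
theorem soLine_unique (hp2 : p ≠ 2) (P : ValuationSubring (AlgebraicClosure ℚ))
    (hP : P.LiesOverPrime p) (v₀ v₀' : ρbar.V) (h : IsSOLine p ρbar P v₀)
    (h' : IsSOLine p ρbar P v₀') : ∃ t : k, v₀' = t • v₀ := by
  obtain ⟨σ, hσ, ζ, hζ, hne⟩ := Fermat.Agent.R.H2.stmt_CycInertia p Fact.out hp2 P hP
  have hω : omegaK p k σ ≠ 1 := fun h1 => hne (fix_of_omegaK_eq_one p σ h1 ζ hζ)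
  have hσD := mem_decomposition_of_mem_inertia P σ hσ
  obtain ⟨z', hz1, hz2, hz3⟩ := h'.2.2 σ hσD
  -- `z' = 1`
  have hz : z' = 1 := by
    obtain ⟨v, hv⟩ := exists_not_smul ρbar v₀'
    obtain ⟨t₁, ht₁⟩ := hz3 v
    obtain ⟨t₂, ht₂⟩ := h'.2.1 σ hσ v
    by_contra hz
    have hz' : z' - 1 ≠ 0 := sub_ne_zero.2 hz
    have e : (z' - 1) • v = (t₂ - t₁) • v₀' := by
      rw [sub_smul, sub_smul, one_smul, ← ht₁, ← ht₂]
      abel
    apply hv ((z' - 1)⁻¹ * (t₂ - t₁))
    rw [mul_smul, ← e, smul_smul, inv_mul_cancel₀ hz', one_smul]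
  rw [hz, mul_one] at hz2
  obtain ⟨t, ht⟩ := h.2.1 σ hσ v₀'
  rw [hz2] at ht
  have hω' : omegaK p k σ - 1 ≠ 0 := sub_ne_zero.2 hω
  refine ⟨(omegaK p k σ - 1)⁻¹ * t, ?_⟩
  rw [mul_smul, ← ht]
  have : omegaK p k σ • v₀' - v₀' = (omegaK p k σ - 1) • v₀' := by rw [sub_smul, one_smul]
  rw [this, smul_smul, inv_mul_cancel₀ hω', one_smul]

end Unique

section NV

variable {k : Type} [Field k] {V : Type} [AddCommGroup V] [Module k V]

/-- `f` kills `v₀` and has image in `k v₀`. -/
def NV (v₀ : V) (f : Module.End k V) : Prop :=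
  f v₀ = 0 ∧ ∀ v : V, ∃ t : k, f v = t • v₀

theorem NV.zero (v₀ : V) : NV v₀ (0 : Module.End k V) :=
  ⟨rfl, fun _ => ⟨0, by simp⟩⟩

theorem NV.add {v₀ : V} {f g : Module.End k V} (hf : NV v₀ f) (hg : NV v₀ g) :
    NV v₀ (f + g) := by
  refine ⟨by rw [LinearMap.add_apply, hf.1, hg.1, add_zero], fun v => ?_⟩
  obtain ⟨t, ht⟩ := hf.2 v
  obtain ⟨s, hs⟩ := hg.2 v
  exact ⟨t + s, by rw [LinearMap.add_apply, ht, hs, add_smul]⟩

theorem NV.smul {v₀ : V} {f : Module.End k V} (hf : NV v₀ f) (a : k) : NV v₀ (a • f) := by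
  refine ⟨by rw [LinearMap.smul_apply, hf.1, smul_zero], fun v => ?_⟩
  obtain ⟨t, ht⟩ := hf.2 v
  exact ⟨a * t, by rw [LinearMap.smul_apply, ht, smul_smul]⟩

theorem NV.of_smul {v₀ v₀' : V} (hv₀ : v₀ ≠ 0) (hv₀' : v₀' ≠ 0) (t : k) (ht : v₀' = t • v₀)
    {f : Module.End k V} (hf : NV v₀' f) : NV v₀ f := by
  have ht0 : t ≠ 0 := by
    rintro rfl
    rw [zero_smul] at ht
    exact hv₀' ht
  refine ⟨?_, fun v => ?_⟩
  · have h1 := hf.1
    rw [ht, map_smul] at h1
    exact (smul_eq_zero.1 h1).resolve_left ht0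
  · obtain ⟨s, hs⟩ := hf.2 v
    exact ⟨s * t, by rw [hs, ht, smul_smul]⟩

end NV

section Basis

variable {k : Type} [Field k] {V : Type} [AddCommGroup V] [Module k V]

theorem exists_basis_of_ne_zero (hV : finrank k V = 2) (v₀ : V) (hv₀ : v₀ ≠ 0) :
    ∃ b : Basis (Fin 2) k V, b 0 = v₀ := by
  have : FiniteDimensional k V := Module.finite_of_finrank_eq_succ hV
  obtain ⟨w, hw⟩ := exists_linearIndependent_pair_of_one_lt_finrank (R := k) (M := V)
    (by rw [hV]; norm_num) hv₀
  refine ⟨basisOfLinearIndependentOfCardEqFinrank hw (by rw [hV]; rfl), ?_⟩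
  rw [coe_basisOfLinearIndependentOfCardEqFinrank]
  rfl

variable (b : Basis (Fin 2) k V)

/-- the nilpotent endomorphism `v ↦ (coordinate of v along b 1) • b 0` -/
def nEnd : Module.End k V := (b.coord 1).smulRight (b 0)

/-- the semisimple endomorphism with `b 0 ↦ b 0`, `b 1 ↦ - b 1` -/
def hEnd : Module.End k V := LinearMap.id - (2 : k) • (b.coord 1).smulRight (b 1)

@[simp] theorem nEnd_apply (v : V) : nEnd b v = b.coord 1 v • b 0 := rfl

@[simp] theorem hEnd_apply (v : V) : hEnd b v = v - (2 : k) • (b.coord 1 v • b 1) := rfl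

theorem trace_nEnd : LinearMap.trace k V (nEnd b) = 0 := by
  have : Module.Finite k V := Module.Finite.of_basis b
  rw [nEnd, LinearMap.trace_smulRight]
  simp

theorem trace_hEnd (hV : finrank k V = 2) : LinearMap.trace k V (hEnd b) = 0 := by
  have : Module.Finite k V := Module.Finite.of_basis b
  rw [hEnd, map_sub, map_smul, LinearMap.trace_smulRight, LinearMap.trace_id, hV]
  simp

theorem nEnd_ne_zero : nEnd b ≠ 0 := by
  intro h
  have := congrArg (fun f : Module.End k V => b.coord 0 (f (b 1))) h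
  simp at this

theorem nEnd_NV : NV (b 0) (nEnd b) :=
  ⟨by simp, fun v => ⟨b.coord 1 v, rfl⟩⟩

/-- an endomorphism killing `b 0` with image in `k (b 0)` is a multiple of `nEnd` -/
theorem eq_smul_nEnd_of_NV (f : Module.End k V) (hf : NV (b 0) f) :
    f = (b.coord 0 (f (b 1))) • nEnd b := by
  apply b.ext
  intro i
  fin_cases i
  · simp [hf.1]
  · obtain ⟨t, ht⟩ := hf.2 (b 1)
    simp [ht]

theorem hEnd_ne_smul_nEnd (h2 : (2 : k) ≠ 0) (d : k) : hEnd b ≠ d • nEnd b := by
  intro h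
  have := congrArg (fun f : Module.End k V => b.coord 0 (f (b 0))) h
  simp at this

end Basis

end Fermat.Agent.S56.H57

end
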