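import Fermat.Agent.Lib.LocalKummer.QpUnits
import Fermat.Agent.S56.H57_KummerStmt

/-
Sub-leaf KUMMER-LOCAL of LOC-p-SO (cluster T, S56): the level-constant crossed homomorphisms
`G_{ℚ_p} → k(ω)` are spanned modulo coboundaries by the Kummer characters of `p` and `1 + p`.
Route: Hilbert 90 by Poincare series at finite level, then `ℚ_pˣ` modulo `p`-th powers.
-/

set_option autoImplicit false
set_option linter.unusedSectionVars false
set_option linter.style.haveILetI false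

namespace Fermat.Agent.S56.H9

open Fermat.Agent.Lib.LocalKummer groupCohomology ExtCitation Fermat.Agent.S56.H57

local notation "Qbar" => AlgebraicClosure ℚ

section setup

variable (p : ℕ) [Fact p.Prime]

local notation "Ω" => PadicAlgCl p
local notation "GL" => (PadicAlgCl p ≃ₐ[ℚ_[p]] PadicAlgCl p)

/-- The mod `p` cyclotomic character of the local Galois group, with values in `ZMod p`. -/
noncomputable def omegaZ (s : GL) : ZMod p := ((cycloChar p (localGaloisToGlobal p s) : (ZMod p)ˣ) : ZMod p)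

lemma locCycK_eq (k : Type) [Field k] [CharP k p] (s : GL) :
    locCycK p k s = (ZMod.castHom (dvd_refl p) k : ZMod p →+* k) (omegaZ p s) := rfl

lemma omegaZ_mul (s t : GL) : omegaZ p (s * t) = omegaZ p s * omegaZ p t := by
  unfold omegaZ
  rw [map_mul, map_mul, Units.val_mul]

lemma omegaZ_one : omegaZ p 1 = 1 := by
  unfold omegaZ
  rw [map_one, map_one, Units.val_one]

/-- The action of the global Galois group on `p`-th roots of unity. -/
lemma cycloChar_spec (σ : Qbar ≃ₐ[ℚ] Qbar) {ζ₀ : Qbar} (hζ₀ : ζ₀ ^ p = 1) :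
    σ ζ₀ = zpowZ ζ₀ ((cycloChar p σ : (ZMod p)ˣ) : ZMod p) := by
  haveI : NeZero p := ⟨(Fact.out : p.Prime).ne_zero⟩
  have h0 : ζ₀ ≠ 0 := by
    rintro rfl
    rw [zero_pow (NeZero.ne p)] at hζ₀
    exact zero_ne_one hζ₀
  let u : Qbarˣ := Units.mk0 ζ₀ h0
  have hu : u ∈ rootsOfUnity p Qbar := by
    rw [mem_rootsOfUnity]
    apply Units.ext
    simpa [u] using hζ₀
  have h1 := modularCyclotomicCharacter.spec (L := Qbar) (n := p) (card_rootsOfUnity_eq_self p)
    (σ : Qbar ≃+* Qbar) hu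
  exact h1

/-- The embedding `Qbar → Ω` as a monoid hom, compatible with the Galois actions. -/
lemma smul_padicEmbedding (s : GL) (x : Qbar) :
    s • padicEmbedding p x = padicEmbedding p (localGaloisToGlobal p s x) :=
  (padicEmbedding_localGaloisToGlobal p s x).symm

lemma smul_eq_apply (s : GL) (x : Ω) : s • x = s x := rfl

lemma smul_zpow_padic (s : GL) (x : Ω) (i : ℤ) : s • (x ^ i) = (s • x) ^ i :=
  map_zpow₀ s x i

lemma smul_zeta (s : GL) {ζ₀ : Qbar} (hζ₀ : ζ₀ ^ p = 1) :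
    s • padicEmbedding p ζ₀ = zpowZ (padicEmbedding p ζ₀) (omegaZ p s) := by
  rw [smul_padicEmbedding, cycloChar_spec p _ hζ₀]
  unfold zpowZ omegaZ
  rw [map_pow]

/-- The subgroup of the local Galois group fixing the image of `F`. -/
noncomputable def lvl (F : IntermediateField ℚ Qbar) : Subgroup GL :=
  F.fixingSubgroup.comap (localGaloisToGlobal p)

lemma mem_lvl {F : IntermediateField ℚ Qbar} {s : GL} :
    s ∈ lvl p F ↔ localGaloisToGlobal p s ∈ F.fixingSubgroup := Iff.rfl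

lemma mem_lvl_iff {F : IntermediateField ℚ Qbar} {s : GL} :
    s ∈ lvl p F ↔ ∀ x : F, s • padicEmbedding p (x : Qbar) = padicEmbedding p (x : Qbar) := by
  rw [mem_lvl, IntermediateField.mem_fixingSubgroup_iff]
  constructor
  · intro h x
    rw [smul_padicEmbedding, h x x.2]
  · intro h x hx
    have h1 := h ⟨x, hx⟩
    rw [smul_padicEmbedding] at h1
    exact (padicEmbedding p).injective h1

instance finite_quot_lvl (F : IntermediateField ℚ Qbar) [FiniteDimensional ℚ F] :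
    Finite (GL ⧸ lvl p F) := by
  let f : GL → (F →ₐ[ℚ] Qbar) := fun s => ((localGaloisToGlobal p s : Qbar ≃ₐ[ℚ] Qbar) :
    Qbar →ₐ[ℚ] Qbar).comp F.val
  have hf : ∀ s t : GL, f s = f t → s⁻¹ * t ∈ lvl p F := by
    intro s t hst
    rw [mem_lvl, IntermediateField.mem_fixingSubgroup_iff]
    intro x hx
    have h1 : localGaloisToGlobal p s x = localGaloisToGlobal p t x :=
      congrArg (fun φ : F →ₐ[ℚ] Qbar => φ ⟨x, hx⟩) hst
    rw [map_mul, map_inv]
    show (localGaloisToGlobal p s)⁻¹ (localGaloisToGlobal p t x) = x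
    rw [← h1]
    exact (localGaloisToGlobal p s).symm_apply_apply x
  have hf' : ∀ s t : GL, s⁻¹ * t ∈ lvl p F → f s = f t := by
    intro s t hst
    rw [mem_lvl, IntermediateField.mem_fixingSubgroup_iff] at hst
    apply AlgHom.ext
    intro x
    have h1 := hst x x.2
    rw [map_mul, map_inv] at h1
    show localGaloisToGlobal p s x = localGaloisToGlobal p t x
    have h2 : (localGaloisToGlobal p s)⁻¹ (localGaloisToGlobal p t x) = x := h1
    have h3 := congrArg (localGaloisToGlobal p s) h2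
    rw [← h3]
    exact (localGaloisToGlobal p s).apply_symm_apply (localGaloisToGlobal p t x)
  let fbar : GL ⧸ lvl p F → (F →ₐ[ℚ] Qbar) :=
    Quotient.lift f (fun s t hst => hf' s t (QuotientGroup.leftRel_apply.1 hst))
  have hinj : Function.Injective fbar := by
    intro x y hxy
    induction x using QuotientGroup.induction_on with
    | H s =>
      induction y using QuotientGroup.induction_on with
      | H t => exact QuotientGroup.eq.2 (hf s t hxy)
  exact Finite.of_injective fbar hinj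

end setup

section kummer

variable (p : ℕ) [Fact p.Prime]

local notation "Ω" => PadicAlgCl p
local notation "GL" => (PadicAlgCl p ≃ₐ[ℚ_[p]] PadicAlgCl p)

/-- Crossed homomorphism property of a Kummer character. -/
lemma kummer_cocycle [NeZero p] {ζ : Ω} (hζ : IsPrimitiveRoot ζ p) (ω : GL → ZMod p)
    (hω : ∀ s : GL, s • ζ = zpowZ ζ (ω s)) {γ : Ω} (hγ : γ ≠ 0) (κ : GL → ZMod p)
    (hκ : ∀ s : GL, s • γ = zpowZ ζ (κ s) * γ) (s t : GL) :
    κ (s * t) = κ s + ω s * κ t := by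
  have h1 : (s * t) • γ = zpowZ ζ (κ s + ω s * κ t) * γ := by
    rw [mul_smul, hκ t, smul_mul', smul_zpowZ, hω s, zpowZ_zpowZ hζ.pow_eq_one, hκ s,
      zpowZ_add hζ.pow_eq_one]
    ring
  rw [hκ (s * t)] at h1
  exact zpowZ_injective hζ (mul_right_cancel₀ hγ h1)

/-- Existence of the Kummer character of an element whose `p`-th power is fixed. -/
lemma exists_kummer_char [NeZero p] {ζ : Ω} (hζ : IsPrimitiveRoot ζ p) {γ : Ω} (hγ : γ ≠ 0)
    (hfix : ∀ s : GL, s • (γ ^ p) = γ ^ p) (s : GL) :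
    ∃ a : ZMod p, s • γ = zpowZ ζ a * γ := by
  have h1 : (s • γ / γ) ^ p = 1 := by
    rw [div_pow, ← smul_pow', hfix s]
    exact div_self (pow_ne_zero _ hγ)
  obtain ⟨a, ha⟩ := exists_zpowZ_eq hζ h1
  refine ⟨a, ?_⟩
  rw [ha]
  field_simp

/-- The Kummer character attached to `γ`. -/
noncomputable def kummerChar [NeZero p] {ζ : Ω} (hζ : IsPrimitiveRoot ζ p) {γ : Ω} (hγ : γ ≠ 0)
    (hfix : ∀ s : GL, s • (γ ^ p) = γ ^ p) (s : GL) : ZMod p :=
  Classical.choose (exists_kummer_char p hζ hγ hfix s)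

lemma kummerChar_spec [NeZero p] {ζ : Ω} (hζ : IsPrimitiveRoot ζ p) {γ : Ω} (hγ : γ ≠ 0)
    (hfix : ∀ s : GL, s • (γ ^ p) = γ ^ p) (s : GL) :
    s • γ = zpowZ ζ (kummerChar p hζ hγ hfix s) * γ :=
  Classical.choose_spec (exists_kummer_char p hζ hγ hfix s)

/-- The `ZMod p`-valued statement. -/
theorem kummer_zmod (hp2 : p ≠ 2) [NeZero p] {ζ₀ : Qbar} (hζ₀ : IsPrimitiveRoot ζ₀ p)
    {π₀ η₀ : Qbar} (hπ₀ : π₀ ^ p = (p : Qbar)) (hη₀ : η₀ ^ p = 1 + (p : Qbar))
    (κ₁ κ₂ : GL → ZMod p)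
    (hκ₁ : ∀ s : GL, s • padicEmbedding p π₀ =
      zpowZ (padicEmbedding p ζ₀) (κ₁ s) * padicEmbedding p π₀)
    (hκ₂ : ∀ s : GL, s • padicEmbedding p η₀ =
      zpowZ (padicEmbedding p ζ₀) (κ₂ s) * padicEmbedding p η₀)
    (c : GL → ZMod p) (hc : ∀ s t, c (s * t) = c s + omegaZ p s * c t)
    (hlev : IsLevelConstant₁ (localGaloisToGlobal p) c) :
    ∃ a b d : ZMod p, ∀ s, c s = a * κ₁ s + b * κ₂ s + d * (omegaZ p s - 1) := by
  have hp : p.Prime := Fact.out
  set ζ : Ω := padicEmbedding p ζ₀ with hζdef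
  have hζ : IsPrimitiveRoot ζ p := hζ₀.map_of_injective (padicEmbedding p).injective
  have hω : ∀ s : GL, s • ζ = zpowZ ζ (omegaZ p s) := fun s => smul_zeta p s hζ₀.pow_eq_one
  obtain ⟨F, hF, hcF⟩ := hlev
  haveI := hF
  have hc1 : c 1 = 0 := by
    have := hc 1 1
    rw [mul_one, omegaZ_one, one_mul] at this
    exact left_eq_add.1 this
  -- Hilbert 90
  obtain ⟨γ, hγ0, hγ⟩ := exists_hilbert90 (fun s : GL => zpowZ ζ (c s)) (by
      intro s t
      show zpowZ ζ (c (s * t)) = zpowZ ζ (c s) * s • zpowZ ζ (c t)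
      rw [smul_zpowZ, hω s, zpowZ_zpowZ hζ.pow_eq_one, hc, zpowZ_add hζ.pow_eq_one])
    (fun s => zpowZ_ne_zero hζ.pow_eq_one _) (lvl p F) (by
      intro u hu
      have := hcF 1 u hu
      rw [one_mul, hc1] at this
      show zpowZ ζ (c u) = 1
      rw [this, zpowZ_zero])
    ((padicEmbedding p : Qbar →* Ω).comp (F.val : F →* Qbar))
    (fun s hs => (mem_lvl_iff p).2 hs) (fun u hu x => (mem_lvl_iff p).1 hu x)
  -- `γ ^ p` is rational
  have hfix : ∀ s : GL, s (γ ^ p) = γ ^ p := by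
    intro s
    have h1 : s • (γ ^ p) = γ ^ p := by
      rw [smul_pow', hγ s, mul_pow, zpowZ_pow ζ hζ.pow_eq_one, one_mul]
    exact h1
  obtain ⟨a', ha'⟩ := (InfiniteGalois.mem_range_algebraMap_iff_fixed (γ ^ p)).2 hfix
  have ha'0 : a' ≠ 0 := by
    rintro rfl
    rw [map_zero] at ha'
    exact pow_ne_zero _ hγ0 ha'.symm
  obtain ⟨i, j, b, hb0, hdec⟩ := exists_decomp p hp2 a' ha'0
  set π : Ω := padicEmbedding p π₀ with hπdef
  set η : Ω := padicEmbedding p η₀ with hηdef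
  have hπ : π ^ p = (p : Ω) := by
    rw [hπdef, ← map_pow, hπ₀, map_natCast]
  have hη : η ^ p = 1 + (p : Ω) := by
    rw [hηdef, ← map_pow, hη₀, map_add, map_one, map_natCast]
  have hp0 : (p : Ω) ≠ 0 := by exact_mod_cast hp.ne_zero
  have hπ0 : π ≠ 0 := by
    intro h
    rw [h, zero_pow hp.ne_zero] at hπ
    exact hp0 hπ.symm
  have h1p : (1 + (p : Ω)) ≠ 0 := by
    have : ((1 + p : ℕ) : Ω) ≠ 0 := by exact_mod_cast (Nat.succ_ne_zero p ∘ (by omega))
    simpa using this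
  have hη0 : η ≠ 0 := by
    intro h
    rw [h, zero_pow hp.ne_zero] at hη
    exact h1p hη.symm
  set b' : Ω := algebraMap ℚ_[p] Ω b with hb'def
  have hb'0 : b' ≠ 0 := by
    rw [hb'def]
    exact (map_ne_zero _).2 hb0
  have hb'fix : ∀ s : GL, s • b' = b' := fun s => s.commutes b
  set δ : Ω := π ^ i * η ^ j * b' with hδdef
  have hδ0 : δ ≠ 0 := mul_ne_zero (mul_ne_zero (zpow_ne_zero _ hπ0) (zpow_ne_zero _ hη0)) hb'0
  have hδp : δ ^ p = γ ^ p := by
    rw [← ha', hdec, hδdef, mul_pow, mul_pow, ← zpow_natCast (π ^ i), ← zpow_mul,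
      ← zpow_natCast (η ^ j), ← zpow_mul, mul_comm i, mul_comm j, zpow_mul, zpow_mul,
      zpow_natCast, zpow_natCast, hπ, hη]
    simp only [map_mul, map_zpow₀, map_pow, map_add, map_one, map_natCast]
    rfl
  have h2 : (γ / δ) ^ p = 1 := by
    rw [div_pow, hδp]
    exact div_self (pow_ne_zero _ hγ0)
  obtain ⟨t, ht⟩ := exists_zpowZ_eq hζ h2
  have hγδ : γ = zpowZ ζ t * δ := by
    rw [ht]
    field_simp
  refine ⟨(i : ZMod p), (j : ZMod p), t, fun s => ?_⟩
  -- compare the two expressions of `s • γ`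
  have e1 : s • γ = zpowZ ζ (c s + t) * δ := by
    rw [hγ s, hγδ, zpowZ_add hζ.pow_eq_one]
    ring
  have e2 : s • δ = zpowZ ζ (κ₁ s * (i : ZMod p) + κ₂ s * (j : ZMod p)) * δ := by
    rw [hδdef, smul_mul', smul_mul', hb'fix s, smul_zpow_padic, smul_zpow_padic, hκ₁ s, hκ₂ s,
      mul_zpow,
      mul_zpow, zpowZ_zpow hζ.pow_eq_one, zpowZ_zpow hζ.pow_eq_one, zpowZ_add hζ.pow_eq_one]
    ring
  have e3 : s • γ = zpowZ ζ (omegaZ p s * t + (κ₁ s * (i : ZMod p) + κ₂ s * (j : ZMod p))) * δ := by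
    rw [zpowZ_add hζ.pow_eq_one, mul_assoc, ← e2, hγδ, smul_mul', smul_zpowZ, hω s,
      zpowZ_zpowZ hζ.pow_eq_one]
  rw [e1] at e3
  have e4 := zpowZ_injective hζ (mul_right_cancel₀ hδ0 e3)
  linear_combination e4

/-- Reduction of `k`-valued crossed homomorphisms to `ZMod p`-valued ones. -/
theorem kummer_of_zmod (k : Type) [Field k] [Finite k] [CharP k p]
    (κ₁ κ₂ : GL → ZMod p)
    (hz : ∀ c : GL → ZMod p, (∀ s t, c (s * t) = c s + omegaZ p s * c t) →
      IsLevelConstant₁ (localGaloisToGlobal p) c →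
      ∃ a b d : ZMod p, ∀ s, c s = a * κ₁ s + b * κ₂ s + d * (omegaZ p s - 1))
    (c : GL → k) (hc : IsKummerCocycle p k c) :
    ∃ a b d : k, ∀ s, c s =
      a * (ZMod.castHom (dvd_refl p) k : ZMod p →+* k) (κ₁ s) +
      b * (ZMod.castHom (dvd_refl p) k : ZMod p →+* k) (κ₂ s) +
      d * (locCycK p k s - 1) := by
  classical
  set φ : ZMod p →+* k := ZMod.castHom (dvd_refl p) k with hφ
  letI : Algebra (ZMod p) k := φ.toAlgebra
  haveI : Module.Finite (ZMod p) k := Module.Finite.of_finite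
  let B := Module.finBasis (ZMod p) k
  obtain ⟨hcc, F, hF, hcF⟩ := hc
  have hsmul : ∀ (a : ZMod p) (x : k), a • x = φ a * x := fun a x => Algebra.smul_def a x
  have key : ∀ i, ∃ a b d : ZMod p, ∀ s, B.repr (c s) i =
      a * κ₁ s + b * κ₂ s + d * (omegaZ p s - 1) := by
    intro i
    apply hz (fun s => B.repr (c s) i)
    · intro s t
      show B.repr (c (s * t)) i = B.repr (c s) i + omegaZ p s * B.repr (c t) i
      rw [hcc s t, locCycK_eq, ← hsmul, map_add, map_smul]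
      rfl
    · exact ⟨F, hF, fun g s hs => by
        show B.repr (c (g * s)) i = B.repr (c g) i
        rw [hcF g s hs]⟩
  choose a b d habd using key
  refine ⟨∑ i, φ (a i) * B i, ∑ i, φ (b i) * B i, ∑ i, φ (d i) * B i, fun s => ?_⟩
  have h1 : c s = ∑ i, φ (B.repr (c s) i) * B i := by
    conv_lhs => rw [← B.sum_repr (c s)]
    exact Finset.sum_congr rfl (fun i _ => hsmul _ _)
  rw [h1, Finset.sum_mul, Finset.sum_mul, Finset.sum_mul, ← Finset.sum_add_distrib,
    ← Finset.sum_add_distrib]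
  apply Finset.sum_congr rfl
  intro i _
  rw [habd i s, locCycK_eq]
  simp only [map_add, map_mul, map_sub, map_one]
  ring

/-- **Sub-leaf KUMMER-LOCAL.** -/
theorem stmt_localKummer : Stmt_localKummer := by
  intro p _ hp2 k _ _ _
  have hp : p.Prime := Fact.out
  haveI : NeZero p := ⟨hp.ne_zero⟩
  haveI : NeZero (p : Qbar) := ⟨by exact_mod_cast hp.ne_zero⟩
  obtain ⟨ζ₀, hζ₀⟩ := HasEnoughRootsOfUnity.exists_primitiveRoot Qbar p
  obtain ⟨π₀, hπ₀⟩ := IsAlgClosed.exists_pow_nat_eq (p : Qbar) hp.pos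
  obtain ⟨η₀, hη₀⟩ := IsAlgClosed.exists_pow_nat_eq (1 + (p : Qbar)) hp.pos
  set ζ : PadicAlgCl p := padicEmbedding p ζ₀ with hζdef
  have hζ : IsPrimitiveRoot ζ p := hζ₀.map_of_injective (padicEmbedding p).injective
  have hω : ∀ s : (PadicAlgCl p ≃ₐ[ℚ_[p]] PadicAlgCl p), s • ζ = zpowZ ζ (omegaZ p s) := fun s => smul_zeta p s hζ₀.pow_eq_one
  have hp0 : (p : PadicAlgCl p) ≠ 0 := by exact_mod_cast hp.ne_zero
  have h1p : (1 + (p : PadicAlgCl p)) ≠ 0 := by
    have : ((1 + p : ℕ) : PadicAlgCl p) ≠ 0 := by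
      exact_mod_cast (by omega : 1 + p ≠ 0)
    simpa using this
  have hπ : (padicEmbedding p π₀) ^ p = (p : PadicAlgCl p) := by
    rw [← map_pow, hπ₀, map_natCast]
  have hη : (padicEmbedding p η₀) ^ p = 1 + (p : PadicAlgCl p) := by
    rw [← map_pow, hη₀, map_add, map_one, map_natCast]
  have hπ0 : padicEmbedding p π₀ ≠ 0 := by
    intro h
    rw [h, zero_pow hp.ne_zero] at hπ
    exact hp0 hπ.symm
  have hη0 : padicEmbedding p η₀ ≠ 0 := by
    intro h
    rw [h, zero_pow hp.ne_zero] at hη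
    exact h1p hη.symm
  have hπfix : ∀ s : (PadicAlgCl p ≃ₐ[ℚ_[p]] PadicAlgCl p), s • ((padicEmbedding p π₀) ^ p) = (padicEmbedding p π₀) ^ p := by
    intro s
    rw [hπ]
    exact map_natCast s p
  have hηfix : ∀ s : (PadicAlgCl p ≃ₐ[ℚ_[p]] PadicAlgCl p), s • ((padicEmbedding p η₀) ^ p) = (padicEmbedding p η₀) ^ p := by
    intro s
    rw [hη]
    show s (1 + (p : PadicAlgCl p)) = 1 + (p : PadicAlgCl p)
    rw [map_add, map_one, map_natCast]
  set κ₁ : (PadicAlgCl p ≃ₐ[ℚ_[p]] PadicAlgCl p) → ZMod p := kummerChar p hζ hπ0 hπfix with hκ₁def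
  set κ₂ : (PadicAlgCl p ≃ₐ[ℚ_[p]] PadicAlgCl p) → ZMod p := kummerChar p hζ hη0 hηfix with hκ₂def
  have hκ₁ : ∀ s : (PadicAlgCl p ≃ₐ[ℚ_[p]] PadicAlgCl p), s • padicEmbedding p π₀ = zpowZ ζ (κ₁ s) * padicEmbedding p π₀ :=
    kummerChar_spec p hζ hπ0 hπfix
  have hκ₂ : ∀ s : (PadicAlgCl p ≃ₐ[ℚ_[p]] PadicAlgCl p), s • padicEmbedding p η₀ = zpowZ ζ (κ₂ s) * padicEmbedding p η₀ :=
    kummerChar_spec p hζ hη0 hηfix
  set φ : ZMod p →+* k := ZMod.castHom (dvd_refl p) k with hφ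
  -- the two generators are Kummer cocycles
  have hgen : ∀ (γ₀ : Qbar) (κ : (PadicAlgCl p ≃ₐ[ℚ_[p]] PadicAlgCl p) → ZMod p), padicEmbedding p γ₀ ≠ 0 →
      (∀ s : (PadicAlgCl p ≃ₐ[ℚ_[p]] PadicAlgCl p), s • padicEmbedding p γ₀ = zpowZ ζ (κ s) * padicEmbedding p γ₀) →
      IsKummerCocycle p k (fun s => φ (κ s)) := by
    intro γ₀ κ hγ0 hκ
    have hcoc := kummer_cocycle p hζ (omegaZ p) hω hγ0 κ hκ
    refine ⟨fun s t => ?_, ?_⟩
    · show φ (κ (s * t)) = φ (κ s) + locCycK p k s * φ (κ t)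
      rw [hcoc s t, locCycK_eq, map_add, map_mul]
    · have halg : IsIntegral ℚ γ₀ := ((AlgebraicClosure.isAlgebraic ℚ).isAlgebraic γ₀).isIntegral
      refine ⟨IntermediateField.adjoin ℚ {γ₀},
        IntermediateField.adjoin.finiteDimensional halg, fun g s hs => ?_⟩
      have h1 : localGaloisToGlobal p s γ₀ = γ₀ :=
        (IntermediateField.mem_fixingSubgroup_iff _ _).1 hs γ₀
          (IntermediateField.mem_adjoin_simple_self ℚ γ₀)
      have h2 : s • padicEmbedding p γ₀ = padicEmbedding p γ₀ := by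
        rw [smul_padicEmbedding, h1]
      have h3 : zpowZ ζ (κ s) = 1 := by
        have := hκ s
        rw [h2] at this
        exact (mul_right_cancel₀ hγ0 (this.symm.trans (one_mul _).symm))
      have h4 : κ s = 0 := (zpowZ_eq_one_iff hζ _).1 h3
      show φ (κ (g * s)) = φ (κ g)
      rw [hcoc g s, h4, mul_zero, add_zero]
  refine ⟨fun s => φ (κ₁ s), fun s => φ (κ₂ s), hgen π₀ κ₁ hπ0 hκ₁, hgen η₀ κ₂ hη0 hκ₂, ?_⟩
  intro c hc
  exact kummer_of_zmod p k κ₁ κ₂
    (fun c' hc' hlev' => kummer_zmod p hp2 hζ₀ hπ₀ hη₀ κ₁ κ₂ hκ₁ hκ₂ c' hc' hlev') c hc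

end kummer

end Fermat.Agent.S56.H9
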