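import Fermat.Agent.S56.H57_Line

/-!
# S56, leaf LOC-p-SO (helper57): the action of the decomposition group on `n₀` and `h`
-/

set_option autoImplicit false
set_option linter.unusedSectionVars false
set_option linter.unusedVariables false

noncomputable section

namespace Fermat.Agent.S56.H57

open Fermat.Agent.S53 IsLocalRing groupCohomology ExtCitation Module
  Fermat.Agent.S56.Dict.H85

section Coord

variable {k : Type} [Field k] {V : Type} [AddCommGroup V] [Module k V] (b : Basis (Fin 2) k V)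

@[simp] theorem coord0_b0 : b.coord 0 (b 0) = 1 := by simp
@[simp] theorem coord0_b1 : b.coord 0 (b 1) = 0 := by simp
@[simp] theorem coord1_b0 : b.coord 1 (b 0) = 0 := by simp
@[simp] theorem coord1_b1 : b.coord 1 (b 1) = 1 := by simp

end Coord

section Action

variable (p : ℕ) [Fact p.Prime] {k : Type} [Field k] [CharP k p] (ρbar : ResidualGaloisRep k)
  (b : Basis (Fin 2) k ρbar.V)

/-- the coefficient of the coboundary of `hEnd` along `nEnd` -/
def chF (σ : GQ) : k :=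
  -(2 * b.coord 1 (ρbar.ρ σ (b 1)) * b.coord 0 (ρbar.ρ σ (b 1)))

variable {p ρbar b}

theorem conj_nEnd {P : ValuationSubring (AlgebraicClosure ℚ)} (hline : IsSOLine p ρbar P (b 0))
    (σ : GQ) (hσ : σ ∈ P.decompositionSubgroup ℚ) :
    ρbar.ρ σ ∘ₗ nEnd b ∘ₗ ρbar.ρ σ⁻¹ = omegaK p k σ • nEnd b := by
  obtain ⟨z, hz1, hz2, hz3⟩ := hline.2.2 σ hσ
  refine LinearMap.ext fun v => ?_
  obtain ⟨u, rfl⟩ : ∃ u, ρbar.ρ σ u = v := ⟨ρbar.ρ σ⁻¹ v, rho_rho_inv ρbar σ v⟩
  obtain ⟨t, ht⟩ := hz3 u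
  have e : ρbar.ρ σ u = z • u + t • b 0 := by rw [← ht]; abel
  have hc1 : b.coord 1 (ρbar.ρ σ u) = z * b.coord 1 u := by
    rw [e, map_add, map_smul, map_smul, coord1_b0, smul_eq_mul, smul_eq_mul, mul_zero, add_zero]
  simp only [LinearMap.comp_apply, rho_inv_rho, LinearMap.smul_apply, nEnd_apply]
  rw [map_smul, hz2, hc1, smul_smul, smul_smul]
  congr 1
  ring

theorem conj_hEnd {P : ValuationSubring (AlgebraicClosure ℚ)} (hline : IsSOLine p ρbar P (b 0))
    (σ : GQ) (hσ : σ ∈ P.decompositionSubgroup ℚ) :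
    ρbar.ρ σ ∘ₗ hEnd b ∘ₗ ρbar.ρ σ⁻¹ - hEnd b = chF ρbar b σ • nEnd b := by
  obtain ⟨z, hz1, hz2, hz3⟩ := hline.2.2 σ hσ
  refine LinearMap.ext fun v => ?_
  obtain ⟨u, rfl⟩ : ∃ u, ρbar.ρ σ u = v := ⟨ρbar.ρ σ⁻¹ v, rho_rho_inv ρbar σ v⟩
  obtain ⟨t, ht⟩ := hz3 u
  obtain ⟨tw, htw⟩ := hz3 (b 1)
  have e : ρbar.ρ σ u = z • u + t • b 0 := by rw [← ht]; abel
  have ew : ρbar.ρ σ (b 1) = z • b 1 + tw • b 0 := by rw [← htw]; abel
  have hc1 : b.coord 1 (ρbar.ρ σ u) = z * b.coord 1 u := by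
    rw [e, map_add, map_smul, map_smul, coord1_b0, smul_eq_mul, smul_eq_mul, mul_zero, add_zero]
  have hch : chF ρbar b σ = -(2 * z * tw) := by
    unfold chF
    rw [ew, map_add, map_add, map_smul, map_smul, map_smul, map_smul, coord1_b0, coord1_b1,
      coord0_b0, coord0_b1]
    simp
  obtain ⟨c, hc⟩ : ∃ c, c = b.coord 1 u := ⟨_, rfl⟩
  have hzz : -(2 * z * tw) * (z * c) = -(2 * tw * c) := by
    linear_combination (-(2 * tw * c)) * hz1
  simp only [LinearMap.comp_apply, rho_inv_rho, LinearMap.smul_apply, LinearMap.sub_apply,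
    nEnd_apply, hEnd_apply]
  rw [hc1, hch, ← hc, map_sub, map_smul, map_smul, ew, smul_smul (-(2 * z * tw)), hzz]
  module

end Action

end Fermat.Agent.S56.H57

end
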