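import Fermat.Agent.S56.Dict.H74_Cont
import Fermat.Agent.S56.Dict.H85_Inj

/-!
# S56, leaf LOC-p-SO (helper57): coordinates on `k[ε] ⊗ V` and the action of a first-order
deformation in these coordinates
-/

set_option autoImplicit false

noncomputable section

namespace Fermat.Agent.S56.H57

open Fermat.Agent.S53 TrivSqZeroExt IsLocalRing groupCohomology Fermat.Agent.S56.Dict
  Fermat.Agent.S56.Dict.H85
open scoped TensorProduct

section Tensor

variable {k : Type} [Field k] (V : Type) [AddCommGroup V] [Module k V]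

theorem dual_eq (d : DualNumber k) :
    d = d.fst • (1 : DualNumber k) + d.snd • (DualNumber.eps : DualNumber k) := by
  ext <;> simp

theorem tmul_decomp (w : DualNumber k ⊗[k] V) :
    w = (1 : DualNumber k) ⊗ₜ[k] proj₁ V w + (DualNumber.eps : DualNumber k) ⊗ₜ[k] proj₂ V w := by
  induction w using TensorProduct.induction_on with
  | zero => simp
  | add a b ha hb =>
    rw [map_add, map_add, TensorProduct.tmul_add, TensorProduct.tmul_add]
    calc a + b = ((1 : DualNumber k) ⊗ₜ[k] proj₁ V a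
            + (DualNumber.eps : DualNumber k) ⊗ₜ[k] proj₂ V a)
          + ((1 : DualNumber k) ⊗ₜ[k] proj₁ V b
            + (DualNumber.eps : DualNumber k) ⊗ₜ[k] proj₂ V b) := by rw [← ha, ← hb]
      _ = _ := by abel
  | tmul d v =>
    rw [proj₁_tmul, proj₂_tmul, TensorProduct.tmul_smul, TensorProduct.tmul_smul,
      TensorProduct.smul_tmul', TensorProduct.smul_tmul', ← TensorProduct.add_tmul,
      ← dual_eq]

theorem proj₁_smul (a : DualNumber k) (w : DualNumber k ⊗[k] V) :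
    proj₁ V (a • w) = a.fst • proj₁ V w := by
  induction w using TensorProduct.induction_on with
  | zero => simp
  | add x y hx hy => rw [smul_add, map_add, map_add, hx, hy, smul_add]
  | tmul d v =>
    rw [TensorProduct.smul_tmul', proj₁_tmul, proj₁_tmul, smul_eq_mul, TrivSqZeroExt.fst_mul,
      mul_smul]

theorem proj₂_smul (a : DualNumber k) (w : DualNumber k ⊗[k] V) :
    proj₂ V (a • w) = a.fst • proj₂ V w + a.snd • proj₁ V w := by
  induction w using TensorProduct.induction_on with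
  | zero => simp
  | add x y hx hy =>
    rw [smul_add, map_add, map_add, map_add, hx, hy, smul_add, smul_add]
    abel
  | tmul d v =>
    rw [TensorProduct.smul_tmul', proj₁_tmul, proj₂_tmul, proj₂_tmul, smul_eq_mul,
      TrivSqZeroExt.snd_mul, add_smul, smul_smul, smul_smul]
    simp [mul_comm]

@[simp] theorem proj₁_one_tmul (v : V) : proj₁ V ((1 : DualNumber k) ⊗ₜ[k] v) = v := by
  rw [proj₁_tmul, TrivSqZeroExt.fst_one, one_smul]

@[simp] theorem proj₂_one_tmul (v : V) : proj₂ V ((1 : DualNumber k) ⊗ₜ[k] v) = 0 := by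
  rw [proj₂_tmul, TrivSqZeroExt.snd_one, zero_smul]

@[simp] theorem proj₁_eps_tmul (v : V) :
    proj₁ V ((DualNumber.eps : DualNumber k) ⊗ₜ[k] v) = 0 := by
  rw [proj₁_tmul, DualNumber.fst_eps, zero_smul]

@[simp] theorem proj₂_eps_tmul (v : V) :
    proj₂ V ((DualNumber.eps : DualNumber k) ⊗ₜ[k] v) = v := by
  rw [proj₂_tmul, DualNumber.snd_eps, one_smul]

end Tensor

section Action

variable {k : Type} [Field k] (ρbar : ResidualGaloisRep k) (ρx : GaloisRepAdic (DualNumber k))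
  (c : GQ → Module.End k ρbar.V)
  (θ : (DualNumber k ⊗[k] ρbar.V) ≃ₗ[DualNumber k] ρx.V)

/-- first coordinate of a vector of the deformation -/
def co₁ (y : ρx.V) : ρbar.V := proj₁ ρbar.V (θ.symm y)

/-- second coordinate of a vector of the deformation -/
def co₂ (y : ρx.V) : ρbar.V := proj₂ ρbar.V (θ.symm y)

theorem eq_theta_co (y : ρx.V) :
    y = θ ((1 : DualNumber k) ⊗ₜ[k] co₁ ρbar ρx θ y
      + (DualNumber.eps : DualNumber k) ⊗ₜ[k] co₂ ρbar ρx θ y) := by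
  rw [co₁, co₂, ← tmul_decomp, LinearEquiv.apply_symm_apply]

theorem co₁_theta (v u : ρbar.V) :
    co₁ ρbar ρx θ (θ ((1 : DualNumber k) ⊗ₜ[k] v + (DualNumber.eps : DualNumber k) ⊗ₜ[k] u))
      = v := by
  rw [co₁, LinearEquiv.symm_apply_apply, map_add, proj₁_one_tmul, proj₁_eps_tmul, add_zero]

theorem co₂_theta (v u : ρbar.V) :
    co₂ ρbar ρx θ (θ ((1 : DualNumber k) ⊗ₜ[k] v + (DualNumber.eps : DualNumber k) ⊗ₜ[k] u))
      = u := by
  rw [co₂, LinearEquiv.symm_apply_apply, map_add, proj₂_one_tmul, proj₂_eps_tmul, zero_add]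

theorem co₁_sub (y y' : ρx.V) :
    co₁ ρbar ρx θ (y - y') = co₁ ρbar ρx θ y - co₁ ρbar ρx θ y' := by
  rw [co₁, co₁, co₁, map_sub, map_sub]

theorem co₂_sub (y y' : ρx.V) :
    co₂ ρbar ρx θ (y - y') = co₂ ρbar ρx θ y - co₂ ρbar ρx θ y' := by
  rw [co₂, co₂, co₂, map_sub, map_sub]

theorem co₁_smul (a : DualNumber k) (y : ρx.V) :
    co₁ ρbar ρx θ (a • y) = a.fst • co₁ ρbar ρx θ y := by
  rw [co₁, co₁, map_smul, proj₁_smul]

theorem co₂_smul (a : DualNumber k) (y : ρx.V) :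
    co₂ ρbar ρx θ (a • y) = a.fst • co₂ ρbar ρx θ y + a.snd • co₁ ρbar ρx θ y := by
  rw [co₁, co₂, co₂, map_smul, proj₂_smul]

variable {ρbar ρx c θ}

theorem rho_theta_eps
    (hθ : ∀ (σ : GQ) (v : ρbar.V), ρx.ρ σ (θ ((1 : DualNumber k) ⊗ₜ[k] v)) =
      θ ((1 : DualNumber k) ⊗ₜ[k] (ρbar.ρ σ v) +
        (DualNumber.eps : DualNumber k) ⊗ₜ[k] (c σ (ρbar.ρ σ v))))
    (σ : GQ) (u : ρbar.V) :
    ρx.ρ σ (θ ((DualNumber.eps : DualNumber k) ⊗ₜ[k] u))
      = θ ((DualNumber.eps : DualNumber k) ⊗ₜ[k] (ρbar.ρ σ u)) := by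
  rw [← eps_smul_one_tmul, map_smul, map_smul, hθ σ u, ← map_smul, smul_add,
    eps_smul_one_tmul, eps_smul_eps_tmul, add_zero]

theorem rho_theta_general
    (hθ : ∀ (σ : GQ) (v : ρbar.V), ρx.ρ σ (θ ((1 : DualNumber k) ⊗ₜ[k] v)) =
      θ ((1 : DualNumber k) ⊗ₜ[k] (ρbar.ρ σ v) +
        (DualNumber.eps : DualNumber k) ⊗ₜ[k] (c σ (ρbar.ρ σ v))))
    (σ : GQ) (v u : ρbar.V) :
    ρx.ρ σ (θ ((1 : DualNumber k) ⊗ₜ[k] v + (DualNumber.eps : DualNumber k) ⊗ₜ[k] u))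
      = θ ((1 : DualNumber k) ⊗ₜ[k] (ρbar.ρ σ v) +
        (DualNumber.eps : DualNumber k) ⊗ₜ[k] (c σ (ρbar.ρ σ v) + ρbar.ρ σ u)) := by
  rw [map_add, map_add, hθ σ v, rho_theta_eps hθ σ u, ← map_add, TensorProduct.tmul_add,
    add_assoc]

theorem co₁_rho
    (hθ : ∀ (σ : GQ) (v : ρbar.V), ρx.ρ σ (θ ((1 : DualNumber k) ⊗ₜ[k] v)) =
      θ ((1 : DualNumber k) ⊗ₜ[k] (ρbar.ρ σ v) +
        (DualNumber.eps : DualNumber k) ⊗ₜ[k] (c σ (ρbar.ρ σ v))))
    (σ : GQ) (y : ρx.V) :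
    co₁ ρbar ρx θ (ρx.ρ σ y) = ρbar.ρ σ (co₁ ρbar ρx θ y) := by
  conv_lhs => rw [eq_theta_co ρbar ρx θ y]
  rw [rho_theta_general hθ, co₁_theta]

theorem co₂_rho
    (hθ : ∀ (σ : GQ) (v : ρbar.V), ρx.ρ σ (θ ((1 : DualNumber k) ⊗ₜ[k] v)) =
      θ ((1 : DualNumber k) ⊗ₜ[k] (ρbar.ρ σ v) +
        (DualNumber.eps : DualNumber k) ⊗ₜ[k] (c σ (ρbar.ρ σ v))))
    (σ : GQ) (y : ρx.V) :
    co₂ ρbar ρx θ (ρx.ρ σ y)
      = c σ (ρbar.ρ σ (co₁ ρbar ρx θ y)) + ρbar.ρ σ (co₂ ρbar ρx θ y) := by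
  conv_lhs => rw [eq_theta_co ρbar ρx θ y]
  rw [rho_theta_general hθ, co₂_theta]

end Action

end Fermat.Agent.S56.H57

end
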