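/-
Cluster T / S56, leaf T-S-Fl (helper92): the flat deformation condition `condFl` is stable under
base change to the dual numbers, GIVEN that flat Galois modules are closed under binary products
(`Fermat.Agent.R.Stmt_FlatProd`, cluster R package FLAT-CLOSURE).
-/
import Fermat.Agent.S56.H92_StableSO
import Fermat.Agent.R.H86_Defs2

set_option autoImplicit false
set_option linter.unusedSectionVars false
set_option linter.style.haveILetI false

noncomputable section

namespace Fermat.Agent.S56.H92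

open Polynomial IsLocalRing TensorProduct Fermat.Agent.R

/-! ### Transport of flat Galois modules along equivariant isomorphisms -/

theorem isFlatGaloisModule_of_addEquiv {p : ℕ} {M M' : Type} [AddCommGroup M] [AddCommGroup M']
    {act : (AlgebraicClosure ℚ ≃ₐ[ℚ] AlgebraicClosure ℚ) → M → M}
    {act' : (AlgebraicClosure ℚ ≃ₐ[ℚ] AlgebraicClosure ℚ) → M' → M'}
    (e : M ≃+ M') (he : ∀ σ x, e (act σ x) = act' σ (e x))
    (h : IsFlatGaloisModule p M act) : IsFlatGaloisModule p M' act' := by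
  obtain ⟨H, i1, i2, hfin, hflat, hcoc, e₀, hadd, heq⟩ := h
  refine ⟨H, i1, i2, hfin, hflat, hcoc, e₀.trans e.toEquiv, ?_, ?_⟩
  · intro f g
    change e (e₀ (f * g)) = e (e₀ f) + e (e₀ g)
    rw [hadd, map_add]
  · intro σ f g hfg
    change e (e₀ g) = act' σ (e (e₀ f))
    rw [heq σ f g hfg, he]

/-! ### The two comparison isomorphisms -/

section Compare

variable {R B : Type} [CommRing R] [CommRing B] (φ : R →+* B)
variable {V : Type} [AddCommGroup V] [Module R V] (b : Module.Basis (Fin 2) R V)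

/-- Coordinates of elements of `I • ⊤` lie in `I`. -/
theorem repr_mem_of_mem_smul_top {S W : Type} [CommRing S] [AddCommGroup W] [Module S W]
    {ι : Type} (c : Module.Basis ι S W) (I : Ideal S) {x : W}
    (hx : x ∈ I • (⊤ : Submodule S W)) (i : ι) : c.repr x i ∈ I := by
  refine Submodule.smul_induction_on (p := fun x => c.repr x i ∈ I) hx ?_ ?_
  · intro r hr m _
    rw [map_smul, Finsupp.smul_apply, smul_eq_mul]
    exact I.mul_mem_right _ hr
  · intro x y hx hy
    rw [map_add, Finsupp.add_apply]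
    exact I.add_mem hx hy

/-- An element all of whose coordinates lie in `I` lies in `I • ⊤`. -/
theorem mem_smul_top_of_repr_mem {S W : Type} [CommRing S] [AddCommGroup W] [Module S W]
    {ι : Type} [Fintype ι] (c : Module.Basis ι S W) (I : Ideal S) {x : W}
    (hx : ∀ i, c.repr x i ∈ I) : x ∈ I • (⊤ : Submodule S W) := by
  rw [← c.sum_repr x]
  exact Submodule.sum_mem _ fun i _ => Submodule.smul_mem_smul (hx i) Submodule.mem_top

end Compare

section Theta

variable {R B : Type} [CommRing R] [CommRing B] [Algebra R B]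
variable {V : Type} [AddCommGroup V] [Module R V]
variable (I' : Ideal B)

/-- The `R`-linear map `v ↦ [x ⊗ v]` from `V` to `(B ⊗ V) ⧸ I' (B ⊗ V)`. -/
def thetaX (x : B) : V →ₗ[R] (B ⊗[R] V) ⧸ (I' • (⊤ : Submodule B (B ⊗[R] V))) :=
  ((I' • (⊤ : Submodule B (B ⊗[R] V))).mkQ.restrictScalars R).comp (TensorProduct.mk R B V x)

theorem thetaX_apply (x : B) (v : V) :
    thetaX I' x v = Submodule.Quotient.mk (x ⊗ₜ[R] v) := rfl

theorem smul_top_le_ker_thetaX (x : B) (I : Ideal R)
    (hI : ∀ r ∈ I, algebraMap R B r * x ∈ I') :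
    I • (⊤ : Submodule R V) ≤ LinearMap.ker (thetaX (R := R) (V := V) I' x) := by
  rw [Submodule.smul_le]
  intro r hr v _
  rw [LinearMap.mem_ker, thetaX_apply, Submodule.Quotient.mk_eq_zero]
  have h1 : x ⊗ₜ[R] (r • v) = (algebraMap R B r * x) • ((1 : B) ⊗ₜ[R] v) := by
    rw [TensorProduct.tmul_smul, TensorProduct.smul_tmul', TensorProduct.smul_tmul',
      Algebra.smul_def, smul_eq_mul, mul_one]
  rw [h1]
  exact Submodule.smul_mem_smul (hI r hr) Submodule.mem_top

/-- Equivariance of the maps `thetaX` for every `R`-endomorphism `f` of `V`. -/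
theorem liftQ_thetaX_mapQ (x : B) (I : Ideal R)
    (hker : I • (⊤ : Submodule R V) ≤ LinearMap.ker (thetaX (R := R) (V := V) I' x))
    (f : V →ₗ[R] V)
    (h1 : I • (⊤ : Submodule R V) ≤ (I • (⊤ : Submodule R V)).comap f)
    (h2 : I' • (⊤ : Submodule B (B ⊗[R] V)) ≤
      (I' • (⊤ : Submodule B (B ⊗[R] V))).comap (f.baseChange B))
    (y : V ⧸ I • (⊤ : Submodule R V)) :
    (Submodule.liftQ _ (thetaX I' x) hker) (Submodule.mapQ _ _ f h1 y)
      = Submodule.mapQ _ _ (f.baseChange B) h2 (Submodule.liftQ _ (thetaX I' x) hker y) := by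
  obtain ⟨v, rfl⟩ := Submodule.Quotient.mk_surjective _ y
  rw [Submodule.mapQ_apply, Submodule.liftQ_apply, Submodule.liftQ_apply, thetaX_apply,
    thetaX_apply, Submodule.mapQ_apply, LinearMap.baseChange_tmul]

/-- Coordinates of `x ⊗ v` in the base-changed basis. -/
theorem repr_baseChange_tmul (b : Module.Basis (Fin 2) R V) (x : B) (v : V) (i : Fin 2) :
    (b.baseChange B).repr (x ⊗ₜ[R] v) i = algebraMap R B (b.repr v i) * x := by
  rw [Module.Basis.baseChange_repr_tmul, Algebra.smul_def]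

/-- **Case A** (injectivity): if `[1 ⊗ v] = 0` then `v ∈ φ⁻¹(I') V`. -/
theorem mem_of_thetaX_one_eq_zero (b : Module.Basis (Fin 2) R V) {v : V}
    (hv : thetaX (R := R) I' (1 : B) v = 0) :
    v ∈ (I'.comap (algebraMap R B)) • (⊤ : Submodule R V) := by
  rw [thetaX_apply, Submodule.Quotient.mk_eq_zero] at hv
  refine mem_smul_top_of_repr_mem b _ fun i => ?_
  have := repr_mem_of_mem_smul_top (b.baseChange B) I' hv i
  rw [repr_baseChange_tmul, mul_one] at this
  exact this

/-- **Case A** (surjectivity). -/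
theorem thetaX_one_surjective (hsurj : ∀ x : B, ∃ r : R, algebraMap R B r - x ∈ I') :
    Function.Surjective (thetaX (R := R) (V := V) I' (1 : B)) := by
  intro q
  obtain ⟨w, rfl⟩ := Submodule.Quotient.mk_surjective _ q
  induction w using TensorProduct.induction_on with
  | zero => exact ⟨0, by rw [map_zero]; rfl⟩
  | tmul x v =>
    obtain ⟨r, hr⟩ := hsurj x
    refine ⟨r • v, ?_⟩
    rw [thetaX_apply, eq_comm, ← sub_eq_zero, ← Submodule.Quotient.mk_sub,
      Submodule.Quotient.mk_eq_zero]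
    have h1 : x ⊗ₜ[R] v - (1 : B) ⊗ₜ[R] (r • v) = (-(algebraMap R B r - x)) • ((1 : B) ⊗ₜ[R] v) := by
      rw [TensorProduct.tmul_smul, TensorProduct.smul_tmul', TensorProduct.smul_tmul',
        Algebra.smul_def, smul_eq_mul, mul_one, mul_one, ← TensorProduct.sub_tmul]
      congr 1
      ring
    rw [h1]
    exact Submodule.smul_mem_smul (I'.neg_mem hr) Submodule.mem_top
  | add x y hx hy =>
    obtain ⟨a, ha⟩ := hx
    obtain ⟨c, hc⟩ := hy
    exact ⟨a + c, by rw [map_add, ha, hc]; rfl⟩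

/-- **Case A**: the comparison isomorphism `V ⧸ φ⁻¹(I') V ≃ (B ⊗ V) ⧸ I' (B ⊗ V)`. -/
def equivA (b : Module.Basis (Fin 2) R V)
    (hsurj : ∀ x : B, ∃ r : R, algebraMap R B r - x ∈ I') :
    (V ⧸ (I'.comap (algebraMap R B)) • (⊤ : Submodule R V)) ≃ₗ[R]
      (B ⊗[R] V) ⧸ (I' • (⊤ : Submodule B (B ⊗[R] V))) :=
  LinearEquiv.ofBijective
    (Submodule.liftQ _ (thetaX (R := R) I' (1 : B))
      (smul_top_le_ker_thetaX I' 1 _ fun r hr => by rw [mul_one]; exact hr))
    ⟨by
      rw [injective_iff_map_eq_zero]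
      intro y hy
      obtain ⟨v, rfl⟩ := Submodule.Quotient.mk_surjective _ y
      rw [Submodule.liftQ_apply] at hy
      rw [Submodule.Quotient.mk_eq_zero]
      exact mem_of_thetaX_one_eq_zero I' b hy,
     by
      intro q
      obtain ⟨v, hv⟩ := thetaX_one_surjective (R := R) (V := V) I' hsurj q
      exact ⟨Submodule.Quotient.mk v, by rw [Submodule.liftQ_apply]; exact hv⟩⟩

theorem equivA_apply (b : Module.Basis (Fin 2) R V)
    (hsurj : ∀ x : B, ∃ r : R, algebraMap R B r - x ∈ I')
    (y : V ⧸ (I'.comap (algebraMap R B)) • (⊤ : Submodule R V)) :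
    equivA I' b hsurj y = Submodule.liftQ _ (thetaX (R := R) I' (1 : B))
      (smul_top_le_ker_thetaX I' 1 _ fun r hr => by rw [mul_one]; exact hr) y := rfl

/-! #### Case B: the image of `R` is a "field of representatives", `I' = ⊥` -/

section CaseB

variable (ε : B) (m : Ideal R)

/-- The map `(x, y) ↦ [1 ⊗ x + ε ⊗ y]`. -/
def mapB (h3 : ∀ r ∈ m, algebraMap R B r = 0) :
    ((V ⧸ m • (⊤ : Submodule R V)) × (V ⧸ m • (⊤ : Submodule R V))) →ₗ[R]
      (B ⊗[R] V) ⧸ ((⊥ : Ideal B) • (⊤ : Submodule B (B ⊗[R] V))) :=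
  (Submodule.liftQ _ (thetaX (R := R) (⊥ : Ideal B) (1 : B))
      (smul_top_le_ker_thetaX ⊥ 1 m fun r hr => by rw [h3 r hr, zero_mul]; exact zero_mem _)).coprod
    (Submodule.liftQ _ (thetaX (R := R) (⊥ : Ideal B) ε)
      (smul_top_le_ker_thetaX ⊥ ε m fun r hr => by rw [h3 r hr, zero_mul]; exact zero_mem _))

theorem mapB_mk (h3 : ∀ r ∈ m, algebraMap R B r = 0) (v w : V) :
    mapB (V := V) ε m h3 (Submodule.Quotient.mk v, Submodule.Quotient.mk w)
      = Submodule.Quotient.mk ((1 : B) ⊗ₜ[R] v + ε ⊗ₜ[R] w) := by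
  rw [mapB, LinearMap.coprod_apply, Submodule.liftQ_apply, Submodule.liftQ_apply, thetaX_apply,
    thetaX_apply, ← Submodule.Quotient.mk_add]

theorem mapB_injective (b : Module.Basis (Fin 2) R V) (h3 : ∀ r ∈ m, algebraMap R B r = 0)
    (h2 : ∀ r s : R, algebraMap R B r + algebraMap R B s * ε = 0 → r ∈ m ∧ s ∈ m) :
    Function.Injective (mapB (V := V) ε m h3) := by
  rw [injective_iff_map_eq_zero]
  rintro ⟨x, y⟩ hxy
  obtain ⟨v, rfl⟩ := Submodule.Quotient.mk_surjective _ x
  obtain ⟨w, rfl⟩ := Submodule.Quotient.mk_surjective _ y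
  rw [mapB_mk, Submodule.Quotient.mk_eq_zero] at hxy
  have hi : ∀ i, b.repr v i ∈ m ∧ b.repr w i ∈ m := by
    intro i
    have := repr_mem_of_mem_smul_top (b.baseChange B) ⊥ hxy i
    rw [map_add, Finsupp.add_apply, repr_baseChange_tmul, repr_baseChange_tmul, mul_one,
      Ideal.mem_bot] at this
    exact h2 _ _ this
  have hv : v ∈ m • (⊤ : Submodule R V) := mem_smul_top_of_repr_mem b m fun i => (hi i).1
  have hw : w ∈ m • (⊤ : Submodule R V) := mem_smul_top_of_repr_mem b m fun i => (hi i).2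
  rw [Prod.mk_eq_zero, Submodule.Quotient.mk_eq_zero, Submodule.Quotient.mk_eq_zero]
  exact ⟨hv, hw⟩

theorem mapB_surjective (h3 : ∀ r ∈ m, algebraMap R B r = 0)
    (h1 : ∀ x : B, ∃ r s : R, x = algebraMap R B r + algebraMap R B s * ε) :
    Function.Surjective (mapB (V := V) ε m h3) := by
  intro q
  obtain ⟨t, rfl⟩ := Submodule.Quotient.mk_surjective _ q
  induction t using TensorProduct.induction_on with
  | zero => exact ⟨0, by rw [map_zero]; rfl⟩
  | tmul x v =>
    obtain ⟨r, s, hx⟩ := h1 x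
    refine ⟨(Submodule.Quotient.mk (r • v), Submodule.Quotient.mk (s • v)), ?_⟩
    rw [mapB_mk]
    congr 1
    rw [hx, TensorProduct.add_tmul, TensorProduct.tmul_smul, TensorProduct.tmul_smul,
      TensorProduct.smul_tmul', TensorProduct.smul_tmul', Algebra.smul_def, Algebra.smul_def,
      mul_one]
  | add x y hx hy =>
    obtain ⟨a, ha⟩ := hx
    obtain ⟨c, hc⟩ := hy
    exact ⟨a + c, by rw [map_add, ha, hc]; rfl⟩

/-- **Case B**: the comparison isomorphism `(V ⧸ m V)² ≃ (B ⊗ V) ⧸ ⊥ (B ⊗ V)`. -/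
def equivB (b : Module.Basis (Fin 2) R V) (h3 : ∀ r ∈ m, algebraMap R B r = 0)
    (h2 : ∀ r s : R, algebraMap R B r + algebraMap R B s * ε = 0 → r ∈ m ∧ s ∈ m)
    (h1 : ∀ x : B, ∃ r s : R, x = algebraMap R B r + algebraMap R B s * ε) :
    ((V ⧸ m • (⊤ : Submodule R V)) × (V ⧸ m • (⊤ : Submodule R V))) ≃ₗ[R]
      (B ⊗[R] V) ⧸ ((⊥ : Ideal B) • (⊤ : Submodule B (B ⊗[R] V))) :=
  LinearEquiv.ofBijective (mapB ε m h3) ⟨mapB_injective ε m b h3 h2, mapB_surjective ε m h3 h1⟩

theorem equivB_equivariant (b : Module.Basis (Fin 2) R V) (h3 : ∀ r ∈ m, algebraMap R B r = 0)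
    (h2 : ∀ r s : R, algebraMap R B r + algebraMap R B s * ε = 0 → r ∈ m ∧ s ∈ m)
    (h1 : ∀ x : B, ∃ r s : R, x = algebraMap R B r + algebraMap R B s * ε)
    (f : V →ₗ[R] V)
    (hf : m • (⊤ : Submodule R V) ≤ (m • (⊤ : Submodule R V)).comap f)
    (hf' : (⊥ : Ideal B) • (⊤ : Submodule B (B ⊗[R] V)) ≤
      ((⊥ : Ideal B) • (⊤ : Submodule B (B ⊗[R] V))).comap (f.baseChange B))
    (z : (V ⧸ m • (⊤ : Submodule R V)) × (V ⧸ m • (⊤ : Submodule R V))) :
    equivB ε m b h3 h2 h1 (Submodule.mapQ _ _ f hf z.1, Submodule.mapQ _ _ f hf z.2)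
      = Submodule.mapQ _ _ (f.baseChange B) hf' (equivB ε m b h3 h2 h1 z) := by
  obtain ⟨x, y⟩ := z
  obtain ⟨v, rfl⟩ := Submodule.Quotient.mk_surjective _ x
  obtain ⟨w, rfl⟩ := Submodule.Quotient.mk_surjective _ y
  change mapB ε m h3 _ = Submodule.mapQ _ _ (f.baseChange B) hf' (mapB ε m h3 _)
  rw [Submodule.mapQ_apply, Submodule.mapQ_apply, mapB_mk, mapB_mk, Submodule.mapQ_apply,
    map_add, LinearMap.baseChange_tmul, LinearMap.baseChange_tmul]

end CaseB

theorem equivA_equivariant (b : Module.Basis (Fin 2) R V)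
    (hsurj : ∀ x : B, ∃ r : R, algebraMap R B r - x ∈ I')
    (f : V →ₗ[R] V)
    (hf : (I'.comap (algebraMap R B)) • (⊤ : Submodule R V)
      ≤ ((I'.comap (algebraMap R B)) • (⊤ : Submodule R V)).comap f)
    (hf' : I' • (⊤ : Submodule B (B ⊗[R] V)) ≤
      (I' • (⊤ : Submodule B (B ⊗[R] V))).comap (f.baseChange B))
    (y : V ⧸ (I'.comap (algebraMap R B)) • (⊤ : Submodule R V)) :
    equivA I' b hsurj (Submodule.mapQ _ _ f hf y)
      = Submodule.mapQ _ _ (f.baseChange B) hf' (equivA I' b hsurj y) := by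
  rw [equivA_apply, equivA_apply]
  exact liftQ_thetaX_mapQ I' 1 _ _ f hf hf' y

end Theta

/-! ### The dichotomy for local homomorphisms to the dual numbers -/

section Dichotomy

variable {k : Type} [Field k] {R : Type} [CommRing R] [IsLocalRing R]

open TrivSqZeroExt

theorem dualNumber_decomp (x : DualNumber k) :
    x = inl x.fst + inl x.snd * DualNumber.eps := by
  refine TrivSqZeroExt.ext ?_ ?_
  · simp only [TrivSqZeroExt.fst_add, TrivSqZeroExt.fst_mul, TrivSqZeroExt.fst_inl,
      DualNumber.fst_eps, mul_zero, add_zero]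
  · simp only [TrivSqZeroExt.snd_add, TrivSqZeroExt.snd_mul, TrivSqZeroExt.snd_inl,
      TrivSqZeroExt.fst_inl, DualNumber.snd_eps, DualNumber.fst_eps, smul_eq_mul, mul_one,
      MulOpposite.op_zero, zero_smul, add_zero, zero_add]

theorem fst_combo (a c : k) : (inl a + inl c * DualNumber.eps : DualNumber k).fst = a := by
  simp only [TrivSqZeroExt.fst_add, TrivSqZeroExt.fst_mul, TrivSqZeroExt.fst_inl,
      DualNumber.fst_eps, mul_zero, add_zero]

theorem snd_combo (a c : k) : (inl a + inl c * DualNumber.eps : DualNumber k).snd = c := by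
  simp only [TrivSqZeroExt.snd_add, TrivSqZeroExt.snd_mul, TrivSqZeroExt.snd_inl,
      TrivSqZeroExt.fst_inl, DualNumber.snd_eps, DualNumber.fst_eps, smul_eq_mul, mul_one,
      MulOpposite.op_zero, zero_smul, add_zero, zero_add]

theorem inl_inv_mul_eps {c : k} (hc : c ≠ 0) :
    (inl c⁻¹ : DualNumber k) * (inl c * DualNumber.eps) = DualNumber.eps := by
  rw [← mul_assoc, ← inl_mul, inv_mul_cancel₀ hc, inl_one, one_mul]

theorem dualNumber_dichotomy (φ : R →+* DualNumber k) (hφ : IsLocalHom φ)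
    (hk : ∀ c : k, ∃ r : R, φ r = inl c) (I' : Ideal (DualNumber k)) :
    (∀ x : DualNumber k, ∃ r : R, φ r - x ∈ I') ∨
    (I' = ⊥ ∧ (∀ x : DualNumber k, ∃ r s : R, x = φ r + φ s * DualNumber.eps) ∧
      (∀ r s : R, φ r + φ s * DualNumber.eps = 0 → r ∈ maximalIdeal R ∧ s ∈ maximalIdeal R) ∧
      (∀ r ∈ maximalIdeal R, φ r = 0)) := by
  by_cases h : ∃ r₀ : R, φ r₀ - DualNumber.eps ∈ I'
  · left
    obtain ⟨r₀, hr₀⟩ := h
    intro x
    obtain ⟨r₁, h₁⟩ := hk x.fst
    obtain ⟨r₂, h₂⟩ := hk x.snd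
    refine ⟨r₁ + r₂ * r₀, ?_⟩
    have hx := dualNumber_decomp x
    have : φ (r₁ + r₂ * r₀) - x = inl x.snd * (φ r₀ - DualNumber.eps) := by
      rw [map_add, map_mul, h₁, h₂]
      calc inl x.fst + inl x.snd * φ r₀ - x
          = inl x.fst + inl x.snd * φ r₀ - (inl x.fst + inl x.snd * DualNumber.eps) := by
            rw [← hx]
        _ = inl x.snd * (φ r₀ - DualNumber.eps) := by ring
    rw [this]
    exact I'.mul_mem_left _ hr₀
  · right
    push Not at h
    -- the image of `φ` has no `ε`-component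
    have hsnd : ∀ r : R, (φ r).snd = 0 := by
      intro r
      by_contra hc
      obtain ⟨ra, hra⟩ := hk (φ r).fst
      obtain ⟨rc, hrc⟩ := hk ((φ r).snd)⁻¹
      apply h (rc * (r - ra))
      have hx := dualNumber_decomp (φ r)
      have : φ (rc * (r - ra)) = DualNumber.eps := by
        rw [map_mul, map_sub, hrc, hra]
        calc inl (φ r).snd⁻¹ * (φ r - inl (φ r).fst)
            = inl (φ r).snd⁻¹ * (inl (φ r).snd * DualNumber.eps) := by
              congr 1
              rw [sub_eq_iff_eq_add, add_comm]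
              exact hx
          _ = DualNumber.eps := inl_inv_mul_eps hc
      rw [this, sub_self]
      exact zero_mem _
    have hφr : ∀ r : R, φ r = inl (φ r).fst := by
      intro r
      have hx := dualNumber_decomp (φ r)
      rw [hsnd r, inl_zero, zero_mul, add_zero] at hx
      exact hx
    have hm : ∀ r : R, r ∈ maximalIdeal R ↔ φ r = 0 := by
      intro r
      haveI := hφ
      rw [mem_maximalIdeal, mem_nonunits_iff]
      constructor
      · intro hr
        have h1 : ¬ IsUnit (φ r) := fun hu => hr (isUnit_of_map_unit φ r hu)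
        by_contra hne
        apply h1
        have hf : (φ r).fst ≠ 0 := fun h0 => hne (by rw [hφr r, h0, inl_zero])
        rw [TrivSqZeroExt.isUnit_iff_isUnit_fst]
        exact isUnit_iff_ne_zero.2 hf
      · intro h0 hu
        have := hu.map φ
        rw [h0] at this
        exact not_isUnit_zero this
    refine ⟨?_, ?_, ?_, ?_⟩
    · rw [eq_bot_iff]
      intro y hy
      rw [Ideal.mem_bot]
      by_contra hy0
      have hyd := dualNumber_decomp y
      by_cases hf : y.fst = 0
      · have hs : y.snd ≠ 0 := by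
          intro hs
          apply hy0
          rw [hyd, hf, hs, inl_zero, zero_mul, add_zero]
        apply h 0
        have h1 : y = inl y.snd * DualNumber.eps := by
          rw [hf, inl_zero, zero_add] at hyd
          exact hyd
        have : φ 0 - DualNumber.eps = (-inl (y.snd)⁻¹) * y := by
          rw [map_zero, zero_sub, neg_mul]
          congr 1
          calc DualNumber.eps = inl (y.snd)⁻¹ * (inl y.snd * DualNumber.eps) :=
                (inl_inv_mul_eps hs).symm
            _ = inl (y.snd)⁻¹ * y := by rw [← h1]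
        rw [this]
        exact I'.mul_mem_left _ hy
      · apply h 0
        have hu : IsUnit y := by
          rw [TrivSqZeroExt.isUnit_iff_isUnit_fst]
          exact isUnit_iff_ne_zero.2 hf
        rw [Ideal.eq_top_of_isUnit_mem I' hy hu]
        exact Submodule.mem_top
    · intro x
      obtain ⟨r₁, h₁⟩ := hk x.fst
      obtain ⟨r₂, h₂⟩ := hk x.snd
      exact ⟨r₁, r₂, by rw [h₁, h₂]; exact dualNumber_decomp x⟩
    · intro r s hrs
      rw [hφr r, hφr s] at hrs
      have h1 : (φ r).fst = 0 := by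
        have := congrArg TrivSqZeroExt.fst hrs
        rw [fst_combo] at this
        exact this
      have h2 : (φ s).fst = 0 := by
        have := congrArg TrivSqZeroExt.snd hrs
        rw [snd_combo] at this
        exact this
      exact ⟨(hm r).2 (by rw [hφr r, h1, inl_zero]), (hm s).2 (by rw [hφr s, h2, inl_zero])⟩
    · intro r hr
      exact (hm r).1 hr

end Dichotomy

/-! ### Flatness of the base change to the dual numbers -/

section Assembly

open TrivSqZeroExt

variable {k : Type} [Field k] [Finite k] {R : Type} [CommRing R] [IsLocalRing R]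

theorem finite_quotient_comap (φ : R →+* DualNumber k) (I' : Ideal (DualNumber k)) :
    Finite (R ⧸ I'.comap φ) := by
  haveI : Finite (DualNumber k) := inferInstanceAs (Finite (k × k))
  haveI : Finite (DualNumber k ⧸ I') :=
    Finite.of_surjective (Ideal.Quotient.mk I') Ideal.Quotient.mk_surjective
  have hinj : Function.Injective (Ideal.quotientMap I' φ le_rfl) :=
    Ideal.quotientMap_injective' le_rfl
  exact Finite.of_injective _ hinj

/-- Core statement, on `DualNumber k ⊗[R] V` directly. -/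
theorem isFlat_core (hprod : Stmt_FlatProd) (φ : R →+* DualNumber k) (hφ : IsLocalHom φ)
    (hk : ∀ c : k, ∃ r : R, φ r = inl c) (p : ℕ) (hp : p.Prime) (ρ : GaloisRepAdic R)
    (h : ρ.IsFlatAt p) (I' : Ideal (DualNumber k)) :
    letI : Algebra R (DualNumber k) := φ.toAlgebra
    IsFlatGaloisModule p
      ((DualNumber k ⊗[R] ρ.V) ⧸ (I' • (⊤ : Submodule (DualNumber k) (DualNumber k ⊗[R] ρ.V))))
      (fun σ => Submodule.mapQ _ _ ((ρ.ρ σ).baseChange (DualNumber k)) (by
        rw [← Submodule.map_le_iff_le_comap, Submodule.map_smul'']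
        exact Submodule.smul_mono le_rfl le_top)) := by
  letI : Algebra R (DualNumber k) := φ.toAlgebra
  have b : Module.Basis (Fin 2) R ρ.V := Module.finBasisOfFinrankEq R ρ.V ρ.finrank_eq
  rcases dualNumber_dichotomy φ hφ hk I' with hA | ⟨hI', hB1, hB2, hB3⟩
  · -- case A
    have hfin : Finite (R ⧸ I'.comap φ) := finite_quotient_comap φ I'
    have hflat := h.2 (I'.comap φ) hfin
    refine isFlatGaloisModule_of_addEquiv (equivA I' b hA).toAddEquiv ?_ hflat
    intro σ x
    exact equivA_equivariant I' b hA (ρ.ρ σ) _ _ x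
  · -- case B
    subst hI'
    haveI : Finite (ResidueField R) := h.1
    have hfin : Finite (R ⧸ maximalIdeal R) := h.1
    have hflat := h.2 (maximalIdeal R) hfin
    have hflat2 := hprod p hp _ _ _ _ hflat hflat
    refine isFlatGaloisModule_of_addEquiv
      (equivB DualNumber.eps (maximalIdeal R) b hB3 hB2 hB1).toAddEquiv ?_ hflat2
    intro σ x
    exact equivB_equivariant DualNumber.eps (maximalIdeal R) b hB3 hB2 hB1 (ρ.ρ σ) _ _ x

theorem isFlatAt_baseChangeAlong_dualNumber (hprod : Stmt_FlatProd) (φ : R →+* DualNumber k)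
    (hφ : IsLocalHom φ) (hk : ∀ c : k, ∃ r : R, φ r = inl c) (p : ℕ) (hp : p.Prime)
    (ρ : GaloisRepAdic R) (h : ρ.IsFlatAt p) : (ρ.baseChangeAlong φ hφ).IsFlatAt p := by
  refine ⟨?_, fun I' _ => ?_⟩
  · haveI : Finite (DualNumber k) := inferInstanceAs (Finite (k × k))
    exact Finite.of_surjective (IsLocalRing.residue (DualNumber k))
      IsLocalRing.residue_surjective
  · exact isFlat_core hprod φ hφ hk p hp ρ h I'

end Assembly

/-- **`condFl` is stable under base change to the dual numbers**, given `Stmt_FlatProd`. -/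
theorem stable_Fl_of_flatProd (hprod : Stmt_FlatProd) : Fermat.Agent.S56.Stmt_stable_Fl := by
  intro 𝒪 _ _ _ _ _ p hpf Smin T
  letI := Fermat.Agent.S53.dualNumberAlgebra 𝒪
  intro R _ _ _ _ _ _ _ ρ hρ φ hφ
  obtain ⟨⟨h1, h2, h3⟩, h4⟩ := hρ
  have hk : ∀ c : ResidueField 𝒪, ∃ r : R,
      (φ : R →+* DualNumber (ResidueField 𝒪)) r = TrivSqZeroExt.inl c := by
    intro c
    obtain ⟨a, rfl⟩ := IsLocalRing.residue_surjective c
    refine ⟨algebraMap 𝒪 R a, ?_⟩
    have := φ.commutes a
    rw [RingHom.coe_coe, this]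
    rfl
  exact ⟨⟨detIsCyclotomic_baseChangeAlong _ hφ ρ p h1,
    isFlatAt_baseChangeAlong_dualNumber hprod _ hφ hk p hpf.out ρ h2,
    fun q hq hqS => isUnramifiedAt_baseChangeAlong _ hφ ρ q (h3 q hq hqS)⟩,
    fun q hq hqp hne => isUnipotentOnInertiaAt_baseChangeAlong _ hφ ρ q (h4 q hq hqp hne)⟩

end Fermat.Agent.S56.H92

end
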