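/-
Cluster T / S56, leaf T-S-Fl (helper92): `Stmt_stable_Fl`, from `H92.stable_Fl_of_flatProd` and
helper54's `Fermat.Agent.R.H54.stmt_FlatProd`.
-/
import Fermat.Agent.S56.H92_StableFl
import Fermat.Agent.R.Flat.H54_ClosureProd

set_option autoImplicit false

namespace Fermat.Agent.S56.H92

/-- **Leaf T-S-Fl.** -/
theorem stmt_stable_Fl : Fermat.Agent.S56.Stmt_stable_Fl :=
  stable_Fl_of_flatProd Fermat.Agent.R.H54.stmt_FlatProd

end Fermat.Agent.S56.H92
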