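import Fermat.Agent.S56.Leaves
import Fermat.Agent.S56.LeavesLocal

set_option autoImplicit false

/-!
# Cluster T / S56: the Selmer-group side (central interface)

* `primesOf A`     : the primes in a finite set of naturals, as a `Finset Nat.Primes`.
* `IsCocycleOf x c`: the first-order deformation `x` is `σ ↦ (1 + ε c σ) ρbar σ` in a suitable basis.
* `IsClassOf x ξ`  : `ξ ∈ H¹(G_ℚ, ad⁰ ρbar)` is the class of (a cocycle of) `x`.
* the dictionary packages `Stmt_dict_*` (owner: helper74).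
-/

noncomputable section

namespace Fermat.Agent.S56

open Polynomial IsLocalRing CategoryTheory groupCohomology ExtCitation Fermat.Agent.S53
open scoped TensorProduct

/-- The primes of a finite set of natural numbers. -/
def primesOf (A : Finset ℕ) : Finset Nat.Primes :=
  A.preimage (fun q : Nat.Primes => (q : ℕ)) (fun _ _ _ _ h => Subtype.ext h)

@[simp] theorem mem_primesOf {A : Finset ℕ} {q : Nat.Primes} : q ∈ primesOf A ↔ (q : ℕ) ∈ A :=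
  Finset.mem_preimage

/-- The underlying endomorphism of an element of `ad⁰ ρbar`. -/
def ad0Val {k : Type} [Field k] (ρbar : ResidualGaloisRep k) :
    (ad0 ρbar) →ₗ[k] Module.End k ρbar.V :=
  (ad0Sub ρbar).subtype

section Dictionary

variable {𝒪 : Type} [CommRing 𝒪] [IsLocalRing 𝒪]
variable {ρbar : ResidualGaloisRep (ResidueField 𝒪)} {𝒟 : Cond 𝒪}

/-- `x` is the first-order deformation `σ ↦ (1 + ε c(σ)) ρbar(σ)`: there is a `k[ε]`-linear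
identification `θ : k[ε] ⊗ V ≃ V_x` with `ρ_x(σ) θ(1 ⊗ v) = θ(1 ⊗ ρbar(σ) v + ε ⊗ c(σ) ρbar(σ) v)`. -/
def IsCocycleOf (x : TSub 𝒪 ρbar 𝒟) (c : GQ → Module.End (ResidueField 𝒪) ρbar.V) : Prop :=
  ∃ θ : (DualNumber (ResidueField 𝒪) ⊗[ResidueField 𝒪] ρbar.V) ≃ₗ[DualNumber (ResidueField 𝒪)] x.1.V,
    ∀ (σ : GQ) (v : ρbar.V),
      x.1.ρ σ (θ ((1 : DualNumber (ResidueField 𝒪)) ⊗ₜ[ResidueField 𝒪] v)) =
        θ ((1 : DualNumber (ResidueField 𝒪)) ⊗ₜ[ResidueField 𝒪] (ρbar.ρ σ v) +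
          (DualNumber.eps : DualNumber (ResidueField 𝒪)) ⊗ₜ[ResidueField 𝒪] (c σ (ρbar.ρ σ v)))

/-- `ξ ∈ H¹(G_ℚ, ad⁰ ρbar)` is the class of the first-order deformation `x`. -/
def IsClassOf (x : TSub 𝒪 ρbar 𝒟) (ξ : H1 (ad0 ρbar)) : Prop :=
  ∃ c : cocycles₁ (ad0 ρbar),
    IsCocycleOf x (fun σ => ad0Val ρbar ((c : GQ → ad0 ρbar) σ)) ∧
      (H1π (ad0 ρbar)).hom c = ξ

end Dictionary

/-- **Package DICT-1.** Every first-order deformation with cyclotomic determinant has a class in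
`H¹(G_ℚ, ad⁰ ρbar)` (`p` odd). -/
def Stmt_dict_exists : Prop :=
  ∀ (𝒪 : Type) [CommRing 𝒪] [IsDomain 𝒪] [IsDiscreteValuationRing 𝒪]
    [IsAdicComplete (maximalIdeal 𝒪) 𝒪] [Finite (ResidueField 𝒪)]
    (p : ℕ) [Fact p.Prime] (ρbar : ResidualGaloisRep (ResidueField 𝒪)) (𝒟 : Cond 𝒪),
    p ≠ 2 → (p : 𝒪) ∈ maximalIdeal 𝒪 →
    (GaloisRepAdic.ofResidualGaloisRep ρbar).DetIsCyclotomic p →
    (∀ ⦃A : Type⦄ [CommRing A] [IsLocalRing A] [Algebra 𝒪 A] (ρ : GaloisRepAdic A),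
      𝒟 ρ → ρ.DetIsCyclotomic p) →
    ∀ x : TSub 𝒪 ρbar 𝒟, ∃ ξ : H1 (ad0 ρbar), IsClassOf x ξ

/-- **Package DICT-2.** Two first-order deformations with the same class are equivalent. -/
def Stmt_dict_inj : Prop :=
  ∀ (𝒪 : Type) [CommRing 𝒪] [IsDomain 𝒪] [IsDiscreteValuationRing 𝒪]
    [IsAdicComplete (maximalIdeal 𝒪) 𝒪] [Finite (ResidueField 𝒪)]
    (ρbar : ResidualGaloisRep (ResidueField 𝒪)) (𝒟 : Cond 𝒪)
    (x y : TSub 𝒪 ρbar 𝒟) (ξ : H1 (ad0 ρbar)),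
    IsClassOf x ξ → IsClassOf y ξ → x.1.IsEquiv y.1

/-- **Package DICT-3.** The class of a first-order deformation unramified outside `Sg` lies in
`continuousH1S Sg`. -/
def Stmt_dict_cont : Prop :=
  ∀ (𝒪 : Type) [CommRing 𝒪] [IsDomain 𝒪] [IsDiscreteValuationRing 𝒪]
    [IsAdicComplete (maximalIdeal 𝒪) 𝒪] [Finite (ResidueField 𝒪)]
    (ρbar : ResidualGaloisRep (ResidueField 𝒪)) (𝒟 : Cond 𝒪) (Sg : Finset Nat.Primes)
    (x : TSub 𝒪 ρbar 𝒟) (ξ : H1 (ad0 ρbar)),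
    (∀ q : Nat.Primes, q ∉ Sg → x.1.IsUnramifiedAt (q : ℕ)) →
    IsClassOf x ξ → ξ ∈ continuousH1S Sg (ad0 ρbar)

end Fermat.Agent.S56

end
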