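import Fermat.Agent.S56.Wiring
import Fermat.Agent.S56.Assembly
import Fermat.Agent.S56.H47_Basic
import Fermat.Agent.S56.H50_Gen
import Fermat.Agent.S56.H27_GlobH0
import Fermat.Agent.S56.H13_LocInf
import Fermat.Agent.S56.H13_Unr
import Fermat.Agent.S56.H92_StableSO
import Fermat.Agent.S56.Dict.H74_Exists
import Fermat.Agent.S56.Dict.H74_Cont
import Fermat.Agent.S56.Dict.H85_Inj

set_option autoImplicit false

/-!
# Cluster T / S56: second-level wiring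

`wiring2` proves the frozen statement S56 from the leaves that are still open; the leaves that
are proved (T-A, T-S-SO, DICT, GLOB-h0, LOC-inf, UNR, AD0-basic, TATE-basic, ASSEMBLY) are
discharged here.
No `sorry`.
-/

namespace Fermat.Agent.S56

open Polynomial IsLocalRing

theorem wiring2 (hstFl : Stmt_stable_Fl)
    (hGW : Stmt_GW) (hTWsel : Stmt_TW_select)
    (hlocTW : Stmt_loc_TW) (hlocTWh0 : Stmt_loc_TW_h0)
    (hlocpSO : Stmt_loc_p_SO) (hlocpFl : Stmt_loc_p_Fl) (hlocmin : Stmt_loc_min)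
    {𝒪 : Type} [CommRing 𝒪] [IsDomain 𝒪] [IsDiscreteValuationRing 𝒪]
    [IsAdicComplete (maximalIdeal 𝒪) 𝒪] [Finite (ResidueField 𝒪)]
    (p : ℕ) [Fact p.Prime] (hp2 : p ≠ 2) (hp𝒪 : (p : 𝒪) ∈ maximalIdeal 𝒪)
    (ρbar : ResidualGaloisRep (ResidueField 𝒪))
    (habs : ρbar.IsAbsolutelyIrreducible)
    (hdet : (GaloisRepAdic.ofResidualGaloisRep ρbar).DetIsCyclotomic p)
    (hsplit : ∀ σ : AlgebraicClosure ℚ ≃ₐ[ℚ] AlgebraicClosure ℚ,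
      ∃ α β : ResidueField 𝒪, LinearMap.charpoly (ρbar.ρ σ) = (X - C α) * (X - C β))
    (hTW : ∀ (K : Type) [Field K] [Algebra (ResidueField 𝒪) K]
      (G : Subgroup (AlgebraicClosure ℚ ≃ₐ[ℚ] AlgebraicClosure ℚ)), G.index = 2 →
      ∀ V : Submodule K (ρbar.baseChange K).V,
        (∀ σ ∈ G, ∀ x ∈ V, (ρbar.baseChange K).ρ σ x ∈ V) → V = ⊥ ∨ V = ⊤)
    (S Smin : Finset ℕ) (hpSmin : p ∈ Smin) (hSmin : Smin ⊆ S) (hS : ∀ q ∈ S, q.Prime)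
    (hmin : ∀ q : ℕ, q.Prime → q ≠ p → (q ∈ Smin ↔ ¬ ρbar.IsUnramifiedAt q)) :
    (∃ r : ℕ, ∀ n : ℕ, ∃ qv : Fin r → ℕ, Function.Injective qv ∧
      (∀ i, (qv i).Prime ∧ qv i ∉ S ∧ p ^ (n + 1) ∣ qv i - 1) ∧
      (∀ i, ∀ P : ValuationSubring (AlgebraicClosure ℚ), P.LiesOverPrime (qv i) →
        ∀ φ : AlgebraicClosure ℚ ≃ₐ[ℚ] AlgebraicClosure ℚ, P.IsFrobeniusAt φ (qv i) →
          ∃ α β : ResidueField 𝒪, α ≠ β ∧ LinearMap.charpoly (ρbar.ρ φ) = (X - C α) * (X - C β)) ∧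
      ∀ DQ : GaloisRep.DeformationRingData 𝒪 ρbar (fun _A _ _ _ ρ =>
          GaloisRep.strictOrdinaryCondition 𝒪 p (Smin ∪ Finset.univ.image qv) ρ ∧
            ∀ q ∈ Smin, q.Prime → q ≠ p → ρ.IsUnipotentOnInertiaAt q),
        ∃ γ : MvPowerSeries (Fin r) 𝒪 →ₐ[𝒪] DQ.R, Function.Surjective γ) ∧
    (∃ r : ℕ, ∀ n : ℕ, ∃ qv : Fin r → ℕ, Function.Injective qv ∧
      (∀ i, (qv i).Prime ∧ qv i ∉ S ∧ p ^ (n + 1) ∣ qv i - 1) ∧
      (∀ i, ∀ P : ValuationSubring (AlgebraicClosure ℚ), P.LiesOverPrime (qv i) →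
        ∀ φ : AlgebraicClosure ℚ ≃ₐ[ℚ] AlgebraicClosure ℚ, P.IsFrobeniusAt φ (qv i) →
          ∃ α β : ResidueField 𝒪, α ≠ β ∧ LinearMap.charpoly (ρbar.ρ φ) = (X - C α) * (X - C β)) ∧
      ∀ DQ : GaloisRep.DeformationRingData 𝒪 ρbar (fun _A _ _ _ ρ =>
          GaloisRep.flatCondition 𝒪 p (Smin ∪ Finset.univ.image qv) ρ ∧
            ∀ q ∈ Smin, q.Prime → q ≠ p → ρ.IsUnipotentOnInertiaAt q),
        ∃ γ : MvPowerSeries (Fin r) 𝒪 →ₐ[𝒪] DQ.R, Function.Surjective γ) :=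
  wiring H50.surj H92.stmt_stable_SO hstFl
    (stmt_TW_SO_of_leaves hGW hTWsel H27.stmt_glob_h0 H13.stmt_loc_inf hlocTW hlocTWh0 H13.stmt_unr_of_res_zero
      Dict.stmt_dict_exists Dict.H85.stmt_dict_inj Dict.stmt_dict_cont H47.ad0_basic
      H47.tate_basic hlocpSO hlocmin)
    (stmt_TW_Fl_of_leaves hGW hTWsel H27.stmt_glob_h0 H13.stmt_loc_inf hlocTW hlocTWh0 H13.stmt_unr_of_res_zero
      Dict.stmt_dict_exists Dict.H85.stmt_dict_inj Dict.stmt_dict_cont H47.ad0_basic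
      H47.tate_basic hlocpFl hlocmin)
    p hp2 hp𝒪 ρbar habs hdet hsplit hTW S Smin hpSmin hSmin hS hmin

end Fermat.Agent.S56
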