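import Fermat.Agent.S56.Wiring3
import Fermat.Agent.S56.GW.Core
import Fermat.Agent.S56.GW.H92_FinGlobFinal
import Fermat.Agent.S56.GW.H9_FinLoc
import Fermat.Agent.S56.GW.H27_Arch
import Fermat.Agent.S56.TWS.Final
import Fermat.Agent.S56.H57_LocPSO
import Fermat.Agent.S56.LocMin.H85_LocMin

set_option autoImplicit false

/-!
# Cluster T / S56: fourth-level wiring (the current frontier)

`wiring4` proves the frozen statement S56 from the FIVE leaves that are still open: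

* GW-INV  `Stmt_INV`      (local invariants + reciprocity law; `GW/Defs2.lean`),
* GW-PERF `Stmt_PERF_cup` (tame local duality, cup-product form; `GW/Defs2.lean`),
* LB-a    `Stmt_PT2`      (Poitou-Tate in degree 2, injective half; `GW/Defs2.lean`),
* LB-b    `Stmt_EC`       (Tate's global Euler characteristic; `GW/Defs2.lean`),
* LOC-p-FL `Stmt_loc_p_Fl` (flat local condition at `p`; `LeavesNT.lean`).

Everything else is proved and discharged here: GW-FIN-glob (helper92/helper25), GW-FIN-loc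
(helper9), LB-c = ARCH (helper27), TW-SELECT (helper74 and team), LOC-p-SO (helper57),
LOC-min (helper85), and the leaves discharged in `Wiring3.lean`.  No `sorry`.
-/

namespace Fermat.Agent.S56

open Polynomial IsLocalRing

/-- GW-CORE from the four open GW leaves. -/
theorem gw_core_of_leaves (hINV : Stmt_INV) (hPERF : Stmt_PERF_cup) (hPT2 : Stmt_PT2)
    (hEC : Stmt_EC) : Stmt_GW_core :=
  gw_core_of_inv hINV hPERF (lb_of_PT2_EC hPT2 hEC H27.stmt_ARCH)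

theorem wiring4 (hINV : Stmt_INV) (hPERF : Stmt_PERF_cup) (hPT2 : Stmt_PT2) (hEC : Stmt_EC)
    (hlocpFl : Stmt_loc_p_Fl)
    {𝒪 : Type} [CommRing 𝒪] [IsDomain 𝒪] [IsDiscreteValuationRing 𝒪]
    [IsAdicComplete (maximalIdeal 𝒪) 𝒪] [Finite (ResidueField 𝒪)]
    (p : ℕ) [Fact p.Prime] (hp2 : p ≠ 2) (hp𝒪 : (p : 𝒪) ∈ maximalIdeal 𝒪)
    (ρbar : ResidualGaloisRep (ResidueField 𝒪))
    (habs : ρbar.IsAbsolutelyIrreducible)
    (hdet : (GaloisRepAdic.ofResidualGaloisRep ρbar).DetIsCyclotomic p)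
    (hsplit : ∀ σ : AlgebraicClosure ℚ ≃ₐ[ℚ] AlgebraicClosure ℚ,
      ∃ α β : ResidueField 𝒪, LinearMap.charpoly (ρbar.ρ σ) = (X - C α) * (X - C β))
    (hTW : ∀ (K : Type) [Field K] [Algebra (ResidueField 𝒪) K]
      (G : Subgroup (AlgebraicClosure ℚ ≃ₐ[ℚ] AlgebraicClosure ℚ)), G.index = 2 →
      ∀ V : Submodule K (ρbar.baseChange K).V,
        (∀ σ ∈ G, ∀ x ∈ V, (ρbar.baseChange K).ρ σ x ∈ V) → V = ⊥ ∨ V = ⊤)
    (S Smin : Finset ℕ) (hpSmin : p ∈ Smin) (hSmin : Smin ⊆ S) (hS : ∀ q ∈ S, q.Prime)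
    (hmin : ∀ q : ℕ, q.Prime → q ≠ p → (q ∈ Smin ↔ ¬ ρbar.IsUnramifiedAt q)) :
    (∃ r : ℕ, ∀ n : ℕ, ∃ qv : Fin r → ℕ, Function.Injective qv ∧
      (∀ i, (qv i).Prime ∧ qv i ∉ S ∧ p ^ (n + 1) ∣ qv i - 1) ∧
      (∀ i, ∀ P : ValuationSubring (AlgebraicClosure ℚ), P.LiesOverPrime (qv i) →
        ∀ φ : AlgebraicClosure ℚ ≃ₐ[ℚ] AlgebraicClosure ℚ, P.IsFrobeniusAt φ (qv i) →
          ∃ α β : ResidueField 𝒪, α ≠ β ∧ LinearMap.charpoly (ρbar.ρ φ) = (X - C α) * (X - C β)) ∧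
      ∀ DQ : GaloisRep.DeformationRingData 𝒪 ρbar (fun _A _ _ _ ρ =>
          GaloisRep.strictOrdinaryCondition 𝒪 p (Smin ∪ Finset.univ.image qv) ρ ∧
            ∀ q ∈ Smin, q.Prime → q ≠ p → ρ.IsUnipotentOnInertiaAt q),
        ∃ γ : MvPowerSeries (Fin r) 𝒪 →ₐ[𝒪] DQ.R, Function.Surjective γ) ∧
    (∃ r : ℕ, ∀ n : ℕ, ∃ qv : Fin r → ℕ, Function.Injective qv ∧
      (∀ i, (qv i).Prime ∧ qv i ∉ S ∧ p ^ (n + 1) ∣ qv i - 1) ∧
      (∀ i, ∀ P : ValuationSubring (AlgebraicClosure ℚ), P.LiesOverPrime (qv i) →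
        ∀ φ : AlgebraicClosure ℚ ≃ₐ[ℚ] AlgebraicClosure ℚ, P.IsFrobeniusAt φ (qv i) →
          ∃ α β : ResidueField 𝒪, α ≠ β ∧ LinearMap.charpoly (ρbar.ρ φ) = (X - C α) * (X - C β)) ∧
      ∀ DQ : GaloisRep.DeformationRingData 𝒪 ρbar (fun _A _ _ _ ρ =>
          GaloisRep.flatCondition 𝒪 p (Smin ∪ Finset.univ.image qv) ρ ∧
            ∀ q ∈ Smin, q.Prime → q ≠ p → ρ.IsUnipotentOnInertiaAt q),
        ∃ γ : MvPowerSeries (Fin r) 𝒪 →ₐ[𝒪] DQ.R, Function.Surjective γ) :=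
  wiring3 H92.stmt_fin_glob H9.stmt_fin_loc (gw_core_of_leaves hINV hPERF hPT2 hEC)
    TWS.stmt_TW_select H57.stmt_loc_p_SO hlocpFl LocMin.stmt_loc_min
    p hp2 hp𝒪 ρbar habs hdet hsplit hTW S Smin hpSmin hSmin hS hmin

end Fermat.Agent.S56
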