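import Fermat.Agent.S56.Wiring5
import Fermat.Agent.S56.GWC.H47_L2
import Fermat.Agent.S56.GWC.H64_Final
import Fermat.Agent.S56.GWC.H64_B0
import Fermat.Agent.S56.GWC.H46_Chi

set_option autoImplicit false

/-!
# Cluster T / S56: sixth-level wiring (the current frontier)

`wiring6` proves the frozen statement S56 from the FOUR leaves that are still open:

* `S55.Stmt_E4`   (class field theory of exponent `p` over the base fields; S55 lane, item 70),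
* LB-a `Stmt_PT2` (Poitou-Tate in degree 2, injective half; `GW/Defs2.lean`),
* LB-b `Stmt_EC`  (Tate's global Euler characteristic; `GW/Defs2.lean`),
* LOC-p-FL `Stmt_loc_p_Fl` (flat local condition at `p`; `LeavesNT.lean`).

New with respect to `Wiring5.lean`: GW-INV is REDUCED to `S55.Stmt_E4` (`stmt_INV_of_E4`):
packages A, B (helper47, formal from E4 + Minkowski), CHI, UR2 (helper46), B0 and the assembly
(helper64).  No `sorry`.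
-/

namespace Fermat.Agent.S56

open Polynomial IsLocalRing

/-- **GW-INV from E4**: local invariants and the reciprocity law follow from `S55.Stmt_E4`. -/
theorem stmt_INV_of_E4 (hE4 : S55.Stmt_E4) : Stmt_INV :=
  GWC.H64.stmt_INV_of_AB
    (GWC.H47.stmt_INV_A_of hE4 GWC.H46.stmt_CHI)
    (GWC.H47.stmt_INV_B_of hE4 GWC.H46.stmt_CHI GWC.H64.stmt_B0)

theorem wiring6 (hE4 : S55.Stmt_E4) (hPT2 : Stmt_PT2) (hEC : Stmt_EC)
    (hlocpFl : Stmt_loc_p_Fl)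
    {𝒪 : Type} [CommRing 𝒪] [IsDomain 𝒪] [IsDiscreteValuationRing 𝒪]
    [IsAdicComplete (maximalIdeal 𝒪) 𝒪] [Finite (ResidueField 𝒪)]
    (p : ℕ) [Fact p.Prime] (hp2 : p ≠ 2) (hp𝒪 : (p : 𝒪) ∈ maximalIdeal 𝒪)
    (ρbar : ResidualGaloisRep (ResidueField 𝒪))
    (habs : ρbar.IsAbsolutelyIrreducible)
    (hdet : (GaloisRepAdic.ofResidualGaloisRep ρbar).DetIsCyclotomic p)
    (hsplit : ∀ σ : AlgebraicClosure ℚ ≃ₐ[ℚ] AlgebraicClosure ℚ,
      ∃ α β : ResidueField 𝒪, LinearMap.charpoly (ρbar.ρ σ) = (X - C α) * (X - C β))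
    (hTW : ∀ (K : Type) [Field K] [Algebra (ResidueField 𝒪) K]
      (G : Subgroup (AlgebraicClosure ℚ ≃ₐ[ℚ] AlgebraicClosure ℚ)), G.index = 2 →
      ∀ V : Submodule K (ρbar.baseChange K).V,
        (∀ σ ∈ G, ∀ x ∈ V, (ρbar.baseChange K).ρ σ x ∈ V) → V = ⊥ ∨ V = ⊤)
    (S Smin : Finset ℕ) (hpSmin : p ∈ Smin) (hSmin : Smin ⊆ S) (hS : ∀ q ∈ S, q.Prime)
    (hmin : ∀ q : ℕ, q.Prime → q ≠ p → (q ∈ Smin ↔ ¬ ρbar.IsUnramifiedAt q)) :
    (∃ r : ℕ, ∀ n : ℕ, ∃ qv : Fin r → ℕ, Function.Injective qv ∧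
      (∀ i, (qv i).Prime ∧ qv i ∉ S ∧ p ^ (n + 1) ∣ qv i - 1) ∧
      (∀ i, ∀ P : ValuationSubring (AlgebraicClosure ℚ), P.LiesOverPrime (qv i) →
        ∀ φ : AlgebraicClosure ℚ ≃ₐ[ℚ] AlgebraicClosure ℚ, P.IsFrobeniusAt φ (qv i) →
          ∃ α β : ResidueField 𝒪, α ≠ β ∧ LinearMap.charpoly (ρbar.ρ φ) = (X - C α) * (X - C β)) ∧
      ∀ DQ : GaloisRep.DeformationRingData 𝒪 ρbar (fun _A _ _ _ ρ =>
          GaloisRep.strictOrdinaryCondition 𝒪 p (Smin ∪ Finset.univ.image qv) ρ ∧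
            ∀ q ∈ Smin, q.Prime → q ≠ p → ρ.IsUnipotentOnInertiaAt q),
        ∃ γ : MvPowerSeries (Fin r) 𝒪 →ₐ[𝒪] DQ.R, Function.Surjective γ) ∧
    (∃ r : ℕ, ∀ n : ℕ, ∃ qv : Fin r → ℕ, Function.Injective qv ∧
      (∀ i, (qv i).Prime ∧ qv i ∉ S ∧ p ^ (n + 1) ∣ qv i - 1) ∧
      (∀ i, ∀ P : ValuationSubring (AlgebraicClosure ℚ), P.LiesOverPrime (qv i) →
        ∀ φ : AlgebraicClosure ℚ ≃ₐ[ℚ] AlgebraicClosure ℚ, P.IsFrobeniusAt φ (qv i) →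
          ∃ α β : ResidueField 𝒪, α ≠ β ∧ LinearMap.charpoly (ρbar.ρ φ) = (X - C α) * (X - C β)) ∧
      ∀ DQ : GaloisRep.DeformationRingData 𝒪 ρbar (fun _A _ _ _ ρ =>
          GaloisRep.flatCondition 𝒪 p (Smin ∪ Finset.univ.image qv) ρ ∧
            ∀ q ∈ Smin, q.Prime → q ≠ p → ρ.IsUnipotentOnInertiaAt q),
        ∃ γ : MvPowerSeries (Fin r) 𝒪 →ₐ[𝒪] DQ.R, Function.Surjective γ) :=
  wiring5 (stmt_INV_of_E4 hE4) hPT2 hEC hlocpFl
    p hp2 hp𝒪 ρbar habs hdet hsplit hTW S Smin hpSmin hSmin hS hmin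

end Fermat.Agent.S56
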