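import Fermat.Agent.S56.Wiring5
import Fermat.Agent.S56.GWC.H64_FinalTop
import Fermat.Agent.S56.FL.H50_Final1
import Fermat.Agent.S55.CFT.LOC.H5_I1
import Fermat.Agent.S55.Top.G1K_Main

set_option autoImplicit false

/-!
# Cluster T / S56: seventh-level wiring (the current frontier)

`wiring7` proves the frozen statement S56 from the leaves that are still open:

* the open leaves of the S55-E4 lane (`S55/Top/Defs*.lean`):
  `Top.Stmt_TopQ0`, `Top.Stmt_I2`, `Top.Stmt_I3`, `Top.Stmt_I4`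
  (`Top.Stmt_I1` is proved: helper5, `S55/CFT/LOC/H5_I1.lean`; `Top.Stmt_G1K` follows from
  `I2`, `I4`: helper49, `S55/Top/G1K_Main.lean`);
* LB-b `Stmt_EC`  (Tate's global Euler characteristic; `GW/Defs2.lean`);
* `FL.H15.Stmt_CC2core` (the last open statement of LOC-p-FL; `FL/H15_CC2Core.lean`).

New with respect to `Wiring6.lean`: `Stmt_PT2` and `Stmt_INV` are both reduced to the leaves of
the E4 lane (helper64, `GWC/H64_FinalTop.lean`; only the index form `Stmt_E4P` of E4 is used), and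
`Stmt_loc_p_Fl` is reduced to `FL.H15.Stmt_CC2core` (helper50, `FL/H50_Final1.lean`).  No `sorry`.
-/

namespace Fermat.Agent.S56

open Polynomial IsLocalRing

theorem wiring7 (hQ : S55.Top.Stmt_TopQ0) (h2 : S55.Top.Stmt_I2)
    (h3 : S55.Top.Stmt_I3) (h4 : S55.Top.Stmt_I4)
    (hEC : Stmt_EC) (hcore : FL.H15.Stmt_CC2core)
    {𝒪 : Type} [CommRing 𝒪] [IsDomain 𝒪] [IsDiscreteValuationRing 𝒪]
    [IsAdicComplete (maximalIdeal 𝒪) 𝒪] [Finite (ResidueField 𝒪)]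
    (p : ℕ) [Fact p.Prime] (hp2 : p ≠ 2) (hp𝒪 : (p : 𝒪) ∈ maximalIdeal 𝒪)
    (ρbar : ResidualGaloisRep (ResidueField 𝒪))
    (habs : ρbar.IsAbsolutelyIrreducible)
    (hdet : (GaloisRepAdic.ofResidualGaloisRep ρbar).DetIsCyclotomic p)
    (hsplit : ∀ σ : AlgebraicClosure ℚ ≃ₐ[ℚ] AlgebraicClosure ℚ,
      ∃ α β : ResidueField 𝒪, LinearMap.charpoly (ρbar.ρ σ) = (X - C α) * (X - C β))
    (hTW : ∀ (K : Type) [Field K] [Algebra (ResidueField 𝒪) K]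
      (G : Subgroup (AlgebraicClosure ℚ ≃ₐ[ℚ] AlgebraicClosure ℚ)), G.index = 2 →
      ∀ V : Submodule K (ρbar.baseChange K).V,
        (∀ σ ∈ G, ∀ x ∈ V, (ρbar.baseChange K).ρ σ x ∈ V) → V = ⊥ ∨ V = ⊤)
    (S Smin : Finset ℕ) (hpSmin : p ∈ Smin) (hSmin : Smin ⊆ S) (hS : ∀ q ∈ S, q.Prime)
    (hmin : ∀ q : ℕ, q.Prime → q ≠ p → (q ∈ Smin ↔ ¬ ρbar.IsUnramifiedAt q)) :
    (∃ r : ℕ, ∀ n : ℕ, ∃ qv : Fin r → ℕ, Function.Injective qv ∧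
      (∀ i, (qv i).Prime ∧ qv i ∉ S ∧ p ^ (n + 1) ∣ qv i - 1) ∧
      (∀ i, ∀ P : ValuationSubring (AlgebraicClosure ℚ), P.LiesOverPrime (qv i) →
        ∀ φ : AlgebraicClosure ℚ ≃ₐ[ℚ] AlgebraicClosure ℚ, P.IsFrobeniusAt φ (qv i) →
          ∃ α β : ResidueField 𝒪, α ≠ β ∧ LinearMap.charpoly (ρbar.ρ φ) = (X - C α) * (X - C β)) ∧
      ∀ DQ : GaloisRep.DeformationRingData 𝒪 ρbar (fun _A _ _ _ ρ =>
          GaloisRep.strictOrdinaryCondition 𝒪 p (Smin ∪ Finset.univ.image qv) ρ ∧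
            ∀ q ∈ Smin, q.Prime → q ≠ p → ρ.IsUnipotentOnInertiaAt q),
        ∃ γ : MvPowerSeries (Fin r) 𝒪 →ₐ[𝒪] DQ.R, Function.Surjective γ) ∧
    (∃ r : ℕ, ∀ n : ℕ, ∃ qv : Fin r → ℕ, Function.Injective qv ∧
      (∀ i, (qv i).Prime ∧ qv i ∉ S ∧ p ^ (n + 1) ∣ qv i - 1) ∧
      (∀ i, ∀ P : ValuationSubring (AlgebraicClosure ℚ), P.LiesOverPrime (qv i) →
        ∀ φ : AlgebraicClosure ℚ ≃ₐ[ℚ] AlgebraicClosure ℚ, P.IsFrobeniusAt φ (qv i) →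
          ∃ α β : ResidueField 𝒪, α ≠ β ∧ LinearMap.charpoly (ρbar.ρ φ) = (X - C α) * (X - C β)) ∧
      ∀ DQ : GaloisRep.DeformationRingData 𝒪 ρbar (fun _A _ _ _ ρ =>
          GaloisRep.flatCondition 𝒪 p (Smin ∪ Finset.univ.image qv) ρ ∧
            ∀ q ∈ Smin, q.Prime → q ≠ p → ρ.IsUnipotentOnInertiaAt q),
        ∃ γ : MvPowerSeries (Fin r) 𝒪 →ₐ[𝒪] DQ.R, Function.Surjective γ) :=
  wiring5
    (GWC.H64.stmt_INV_of_inputs hQ S55.CFT.LOC.H5.stmt_I1 h2 h3 h4 (S55.Top.stmt_G1K_of h2 h4))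
    (GWC.H64.stmt_PT2_of_inputs hQ S55.CFT.LOC.H5.stmt_I1 h2 h3 h4 (S55.Top.stmt_G1K_of h2 h4))
    hEC (FL.H50.stmt_loc_p_Fl_of_core hcore)
    p hp2 hp𝒪 ρbar habs hdet hsplit hTW S Smin hpSmin hSmin hS hmin

end Fermat.Agent.S56
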